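import Mathlib.Algebra.Order.Star.Real
import Mathlib.Analysis.SpecialFunctions.Pow.Real
import Mathlib.NumberTheory.NumberField.Units.DirichletTheorem

/-!
# A homogeneous partition of unity for the action of the units on a number field

`weight α` is a product of tent functions of the coordinates of the logarithmic vector of `α`
along the unit lattice. It sums to the number of roots of unity over each orbit of the units and
is supported where all absolute values are comparable, so `weight α * |N α|^(-s)` varies slowly.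
No measure theory or boundary estimate is involved.
-/

set_option autoImplicit false

noncomputable section

namespace Fermat.Agent.ChebotarevFull

open NumberField NumberField.InfinitePlace NumberField.Units
  NumberField.Units.dirichletUnitTheorem

/-- A product of factors of absolute value at most one is Lipschitz in the factors. -/
theorem abs_prod_sub_prod_le {ι : Type*} (s : Finset ι) (a b : ι → ℝ)
    (ha : ∀ i ∈ s, |a i| ≤ 1) (hb : ∀ i ∈ s, |b i| ≤ 1) :
    |∏ i ∈ s, a i - ∏ i ∈ s, b i| ≤ ∑ i ∈ s, |a i - b i| := by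
  classical
  induction s using Finset.induction with
  | empty => simp
  | insert i s hi ih =>
    rw [Finset.prod_insert hi, Finset.prod_insert hi, Finset.sum_insert hi]
    have h1 : |∏ j ∈ s, a j| ≤ 1 := by
      rw [Finset.abs_prod]
      exact Finset.prod_le_one (fun j _ => abs_nonneg _)
        fun j hj => ha j (Finset.mem_insert_of_mem hj)
    have h2 := ih (fun j hj => ha j (Finset.mem_insert_of_mem hj))
      fun j hj => hb j (Finset.mem_insert_of_mem hj)
    calc |a i * ∏ j ∈ s, a j - b i * ∏ j ∈ s, b j|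
        = |(a i - b i) * ∏ j ∈ s, a j + b i * (∏ j ∈ s, a j - ∏ j ∈ s, b j)| := by ring_nf
      _ ≤ |a i - b i| * 1 + 1 * ∑ j ∈ s, |a j - b j| := by
          refine (abs_add_le _ _).trans (add_le_add ?_ ?_) <;> rw [abs_mul]
          · exact mul_le_mul_of_nonneg_left h1 (abs_nonneg _)
          · exact mul_le_mul (hb i (Finset.mem_insert_self _ _)) h2 (abs_nonneg _) zero_le_one
      _ = _ := by ring

/-- The tent function `max 0 (1 - |t|)`. -/
def tent (t : ℝ) : ℝ := max 0 (1 - |t|)

/-- The tent function is non-negative. -/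
theorem tent_nonneg (t : ℝ) : 0 ≤ tent t := le_max_left _ _

/-- The tent function is at most one. -/
theorem tent_le_one (t : ℝ) : tent t ≤ 1 := max_le zero_le_one (by linarith [abs_nonneg t])

/-- The tent function vanishes outside `(-1, 1)`. -/
theorem tent_eq_zero {t : ℝ} (h : 1 ≤ |t|) : tent t = 0 := max_eq_left (by linarith)

theorem abs_tent_sub_tent_le (s t : ℝ) : |tent s - tent t| ≤ |s - t| :=
  (abs_max_sub_max_le_max _ _ _ _).trans (max_le (by simp) (by
    have := abs_abs_sub_abs_le_abs_sub t s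
    rw [abs_sub_comm t s] at this
    calc |1 - |s| - (1 - |t|)| = |(|t| - |s|)| := by ring_nf
      _ ≤ |s - t| := this))

/-- The integral translates of the tent function form a partition of unity. -/
theorem tent_shift_sum (c : ℝ) :
    ∑ e ∈ ({-⌊c⌋, -⌊c⌋ - 1} : Finset ℤ), tent (c + e) = 1 := by
  rw [Finset.sum_pair (by omega)]
  have h1 := Int.floor_le c
  have h2 := Int.lt_floor_add_one c
  push_cast
  rw [tent, tent, abs_of_nonneg (by linarith), abs_of_nonpos (by linarith)]
  rw [max_eq_right (by linarith), max_eq_right (by linarith)]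
  ring

theorem tent_shift_eq_zero {c : ℝ} {e : ℤ} (he : e ∉ ({-⌊c⌋, -⌊c⌋ - 1} : Finset ℤ)) :
    tent (c + e) = 0 := by
  apply tent_eq_zero
  simp only [Finset.mem_insert, Finset.mem_singleton, not_or] at he
  have h1 := Int.floor_le c
  have h2 := Int.lt_floor_add_one c
  rcases lt_or_gt_of_ne he.1 with h | h
  · have : (e : ℝ) ≤ -(⌊c⌋ : ℝ) - 2 := by
      have : e ≤ -⌊c⌋ - 2 := by omega
      exact_mod_cast this
    rw [abs_of_nonpos (by linarith)]
    linarith
  · have : -(⌊c⌋ : ℝ) + 1 ≤ (e : ℝ) := by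
      have : -⌊c⌋ + 1 ≤ e := by omega
      exact_mod_cast this
    rw [abs_of_nonneg (by linarith)]
    linarith

variable (F : Type*) [Field F] [NumberField F]

open scoped Classical in
/-- The basis of the logarithmic space given by the fundamental system. -/
def logBasis : Module.Basis (Fin (rank F)) ℝ (logSpace F) :=
  (basisUnitLattice F).ofZLatticeBasis ℝ (unitLattice F)

variable {F}

/-- The sum of all absolute values. -/
def size (α : F) : ℝ := ∑ v : InfinitePlace F, v α

/-- The size is non-negative. -/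
theorem size_nonneg (α : F) : 0 ≤ size α := Finset.sum_nonneg fun _ _ => apply_nonneg _ _

/-- Each absolute value is at most the size. -/
theorem apply_le_size (v : InfinitePlace F) (α : F) : v α ≤ size α :=
  Finset.single_le_sum (f := fun v : InfinitePlace F => v α) (fun _ _ => apply_nonneg _ _)
    (Finset.mem_univ v)

/-- `log |N α| / [F : ℚ]`. -/
def meanLog (α : F) : ℝ :=
  Real.log |((Algebra.norm ℚ α : ℚ) : ℝ)| / (Module.finrank ℚ F : ℝ)

/-- The absolute norm is the product of the archimedean absolute values. -/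
theorem abs_norm_eq_prod (α : F) :
    |((Algebra.norm ℚ α : ℚ) : ℝ)| = ∏ v : InfinitePlace F, v α ^ mult v := by
  rw [← Rat.cast_abs, ← prod_eq_abs_norm]

theorem abs_norm_pos {α : F} (hα : α ≠ 0) : 0 < |((Algebra.norm ℚ α : ℚ) : ℝ)| :=
  abs_pos.mpr (Rat.cast_ne_zero.mpr (Algebra.norm_ne_zero_iff.mpr hα))

theorem log_abs_norm {α : F} (hα : α ≠ 0) :
    Real.log |((Algebra.norm ℚ α : ℚ) : ℝ)| = ∑ v : InfinitePlace F, mult v * Real.log (v α) := by
  rw [abs_norm_eq_prod, Real.log_prod]
  · exact Finset.sum_congr rfl fun v _ => Real.log_pow _ _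
  · exact fun v _ => pow_ne_zero _ (pos_iff.mpr hα).ne'

/-- The projected logarithmic vector. -/
def logCoord (α : F) : logSpace F :=
  fun v => mult v.val * (Real.log (v.val α) - meanLog α)

theorem logCoord_mul {α β : F} (hα : α ≠ 0) (hβ : β ≠ 0) :
    logCoord (α * β) = logCoord α + logCoord β := by
  funext v
  simp only [logCoord, meanLog, Pi.add_apply, map_mul, Rat.cast_mul, abs_mul]
  rw [Real.log_mul (pos_iff.mpr hα).ne' (pos_iff.mpr hβ).ne',
    Real.log_mul (abs_norm_pos hα).ne' (abs_norm_pos hβ).ne']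
  ring

theorem logCoord_unit (u : (𝓞 F)ˣ) :
    logCoord ((u : 𝓞 F) : F) = logEmbedding F (Additive.ofMul u) := by
  funext v
  simp [logCoord, meanLog, ← Rat.cast_abs, Units.norm, logEmbedding_component]

/-- The coordinates of `logCoord α` along the fundamental units. -/
def coord (α : F) (i : Fin (rank F)) : ℝ := (logBasis F).repr (logCoord α) i

theorem coord_mul_unit {α : F} (hα : α ≠ 0) (ζ : torsion F) (e : Fin (rank F) → ℤ)
    (i : Fin (rank F)) :
    coord (α * ((((ζ : (𝓞 F)ˣ) * ∏ j, fundSystem F j ^ e j : (𝓞 F)ˣ) : 𝓞 F) : F)) i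
      = coord α i + e i := by
  simp only [coord]
  rw [logCoord_mul hα (Units.coe_ne_zero _), logCoord_unit, map_add, Finsupp.add_apply]
  congr 1
  have hζ : logEmbedding F (Additive.ofMul (ζ : (𝓞 F)ˣ)) = 0 := logEmbedding_eq_zero_iff.mpr ζ.2
  rw [ofMul_mul, ofMul_prod, map_add, map_sum, hζ, zero_add]
  have : ∀ j, logEmbedding F (Additive.ofMul (fundSystem F j ^ e j))
      = (e j : ℝ) • logBasis F j := by
    intro j
    rw [ofMul_zpow, map_zsmul, logEmbedding_fundSystem, logBasis,
      Module.Basis.ofZLatticeBasis_apply, Int.cast_smul_eq_zsmul]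
  rw [Finset.sum_congr rfl fun j _ => this j, Module.Basis.repr_sum_self]

open scoped Classical in
/-- The partition of unity. -/
def weight (α : F) : ℝ := if α = 0 then 0 else ∏ i, tent (coord α i)

/-- Zero has weight zero. -/
theorem weight_zero : weight (0 : F) = 0 := by simp [weight]

/-- The weight is non-negative. -/
theorem weight_nonneg (α : F) : 0 ≤ weight α := by
  rw [weight]; split_ifs
  · exact le_rfl
  · exact Finset.prod_nonneg fun i _ => tent_nonneg _

/-- The weight is at most one. -/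
theorem weight_le_one (α : F) : weight α ≤ 1 := by
  rw [weight]; split_ifs
  · exact zero_le_one
  · exact Finset.prod_le_one (fun i _ => tent_nonneg _) fun i _ => tent_le_one _

/-- The weight sums to the number of roots of unity over the units. -/
theorem hasSum_weight_units {α : F} (hα : α ≠ 0) :
    HasSum (fun u : (𝓞 F)ˣ => weight (α * ((u : 𝓞 F) : F))) (Nat.card (torsion F) : ℝ) := by
  have : Fintype (torsion F) := Fintype.ofFinite _
  rw [Nat.card_eq_fintype_card]
  classical
  let φ : torsion F × (Fin (rank F) → ℤ) → (𝓞 F)ˣ :=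
    fun x => (x.1 : (𝓞 F)ˣ) * ∏ i, fundSystem F i ^ x.2 i
  have hφ : Function.Bijective φ := by
    constructor
    · intro x y hxy
      exact (exist_unique_eq_mul_prod F (φ x)).unique rfl hxy
    · intro u
      obtain ⟨x, hx, -⟩ := exist_unique_eq_mul_prod F u
      exact ⟨x, hx.symm⟩
  rw [← (Equiv.ofBijective φ hφ).hasSum_iff]
  let S : Fin (rank F) → Finset ℤ := fun i => {-⌊coord α i⌋, -⌊coord α i⌋ - 1}
  have hw : ∀ x, weight (α * ((φ x : 𝓞 F) : F)) = ∏ i, tent (coord α i + x.2 i) := by
    intro x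
    rw [weight, if_neg (mul_ne_zero hα (Units.coe_ne_zero _))]
    exact Finset.prod_congr rfl fun i _ => by rw [coord_mul_unit hα]
  have hsupp : ∀ x ∉ (Finset.univ : Finset (torsion F)) ×ˢ Fintype.piFinset S,
      ((fun u : (𝓞 F)ˣ => weight (α * ((u : 𝓞 F) : F))) ∘ Equiv.ofBijective φ hφ) x = 0 := by
    intro x hx
    simp only [Finset.mem_product, Finset.mem_univ, true_and, Fintype.mem_piFinset, not_forall]
      at hx
    obtain ⟨i, hi⟩ := hx
    show weight (α * ((φ x : 𝓞 F) : F)) = 0
    rw [hw]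
    exact Finset.prod_eq_zero (Finset.mem_univ i) (tent_shift_eq_zero hi)
  suffices h : (Fintype.card (torsion F) : ℝ)
      = ∑ x ∈ (Finset.univ : Finset (torsion F)) ×ˢ Fintype.piFinset S,
          weight (α * ((φ x : 𝓞 F) : F)) by
    rw [h]
    exact hasSum_sum_of_ne_finset_zero hsupp
  simp only [hw]
  rw [Finset.sum_product]
  dsimp only
  rw [Finset.sum_congr rfl fun x _ =>
    (Finset.prod_univ_sum S fun i e => tent (coord α i + e)).symm]
  simp [S, tent_shift_sum]

variable (F) in
/-- On the support of the weight all absolute values are comparable. -/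
theorem exists_support_bound :
    ∃ c : ℝ, 0 < c ∧ ∀ α : F, weight α ≠ 0 → ∀ v : InfinitePlace F, c * size α ≤ v α := by
  classical
  set Y := ∑ i, ‖logBasis F i‖ with hY
  set n := Module.finrank ℚ F with hn
  set V := Fintype.card (InfinitePlace F) with hV
  have hV0 : (0 : ℝ) < V := Nat.cast_pos.mpr Fintype.card_pos
  refine ⟨(V * Real.exp (2 * (n + 1) * Y))⁻¹, by positivity, fun α hα v => ?_⟩
  have h0 : α ≠ 0 := fun h => hα (by rw [h, weight_zero])
  rw [weight, if_neg h0] at hα
  have hc : ∀ i, |coord α i| ≤ 1 := fun i => by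
    by_contra h
    exact hα (Finset.prod_eq_zero (Finset.mem_univ i) (tent_eq_zero (le_of_lt (not_le.mp h))))
  have hY0 : 0 ≤ Y := Finset.sum_nonneg fun _ _ => norm_nonneg _
  have hy : ‖logCoord α‖ ≤ Y := by
    rw [← (logBasis F).sum_repr (logCoord α)]
    refine (norm_sum_le _ _).trans (Finset.sum_le_sum fun i _ => ?_)
    rw [norm_smul, Real.norm_eq_abs]
    exact mul_le_of_le_one_left (norm_nonneg _) (hc i)
  have hdev : ∀ w : InfinitePlace F, |Real.log (w α) - meanLog α| ≤ (n + 1) * Y := by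
    have hne : ∀ w : {w : InfinitePlace F // w ≠ w₀}, |Real.log (w.1 α) - meanLog α| ≤ Y ∧
        |mult w.1 * (Real.log (w.1 α) - meanLog α)| ≤ Y := by
      intro w
      have h1 : |mult w.1 * (Real.log (w.1 α) - meanLog α)| ≤ Y := by
        have := (norm_le_pi_norm (logCoord α) w).trans hy
        rwa [Real.norm_eq_abs] at this
      refine ⟨le_trans ?_ h1, h1⟩
      rw [abs_mul, Nat.abs_cast]
      exact le_mul_of_one_le_left (abs_nonneg _) one_le_mult
    intro w
    by_cases hw : w = w₀
    · subst hw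
      have hsum : ∑ w : InfinitePlace F, mult w * (Real.log (w α) - meanLog α) = 0 := by
        simp only [mul_sub, Finset.sum_sub_distrib, ← Finset.sum_mul, ← log_abs_norm h0]
        rw [← Nat.cast_sum, sum_mult_eq, meanLog]
        field_simp
        rw [div_self (Nat.cast_ne_zero.mpr Module.finrank_pos.ne'), sub_self, mul_zero]
      rw [Fintype.sum_eq_add_sum_subtype_ne _ w₀] at hsum
      have h1 : |mult (w₀ : InfinitePlace F) * (Real.log ((w₀ : InfinitePlace F) α) - meanLog α)|
          ≤ ∑ _w : {w : InfinitePlace F // w ≠ w₀}, Y := by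
        rw [eq_neg_of_add_eq_zero_left hsum, abs_neg]
        exact (Finset.abs_sum_le_sum_abs _ _).trans (Finset.sum_le_sum fun w _ => (hne w).2)
      have h2 : Fintype.card {w : InfinitePlace F // w ≠ w₀} ≤ n := by
        refine (Fintype.card_subtype_le _).trans ?_
        rw [hn, ← sum_mult_eq, Fintype.card_eq_sum_ones]
        exact Finset.sum_le_sum fun w _ => mult_pos
      rw [Finset.sum_const, Finset.card_univ, nsmul_eq_mul, abs_mul, Nat.abs_cast] at h1
      calc |Real.log ((w₀ : InfinitePlace F) α) - meanLog α|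
          ≤ mult (w₀ : InfinitePlace F) * |Real.log ((w₀ : InfinitePlace F) α) - meanLog α| :=
            le_mul_of_one_le_left (abs_nonneg _) one_le_mult
        _ ≤ _ := h1
        _ ≤ (n + 1) * Y := mul_le_mul_of_nonneg_right
            ((Nat.cast_le.mpr h2).trans (by linarith)) hY0
    · refine (hne ⟨w, hw⟩).1.trans ?_
      nlinarith [Nat.cast_nonneg (α := ℝ) n]
  have hcmp : ∀ w : InfinitePlace F, w α ≤ Real.exp (2 * (n + 1) * Y) * v α := by
    intro w
    have h1 := abs_le.mp (hdev w)
    have h2 := abs_le.mp (hdev v)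
    have hwp := (pos_iff (w := w)).mpr h0
    have hvp := (pos_iff (w := v)).mpr h0
    rw [← Real.exp_log hwp, ← Real.exp_log hvp, ← Real.exp_add]
    exact Real.exp_le_exp.mpr (by linarith)
  have hsize : size α ≤ V * (Real.exp (2 * (n + 1) * Y) * v α) := by
    refine (Finset.sum_le_sum fun w _ => hcmp w).trans (le_of_eq ?_)
    rw [Finset.sum_const, Finset.card_univ, nsmul_eq_mul]
  rw [inv_mul_le_iff₀ (by positivity)]
  linarith [mul_assoc (V : ℝ) (Real.exp (2 * (n + 1) * Y)) (v α)]

/-- `weight α * |N α|^(-s)`. -/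
def gFun (s : ℝ) (α : F) : ℝ := weight α * |((Algebra.norm ℚ α : ℚ) : ℝ)| ^ (-s)

/-- `gFun` is non-negative. -/
theorem gFun_nonneg (s : ℝ) (α : F) : 0 ≤ gFun s α :=
  mul_nonneg (weight_nonneg α) (Real.rpow_nonneg (abs_nonneg _) _)

open scoped Classical in
variable (F) in
/-- The coordinates along the basis of the logarithmic space are bounded by the norm. -/
theorem exists_abs_repr_le :
    ∃ B : ℝ, 0 ≤ B ∧
      ∀ (x : logSpace F) (i : Fin (rank F)), |(logBasis F).repr x i| ≤ B * ‖x‖ := by
  set T := (logBasis F).equivFun.toContinuousLinearEquiv.toContinuousLinearMap with hT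
  refine ⟨‖T‖, norm_nonneg T, fun x i => ?_⟩
  calc |(logBasis F).repr x i| = ‖T x i‖ := by simp [hT]
    _ ≤ ‖T x‖ := norm_le_pi_norm _ i
    _ ≤ _ := T.le_opNorm x

/-- The logarithm is `2/x`-Lipschitz near `x`. -/
theorem abs_log_sub_log_le {x y ρ : ℝ} (hx : 0 < x) (hy : 0 < y) (hxy : |y - x| ≤ ρ)
    (hρ : 2 * ρ ≤ x) : |Real.log y - Real.log x| ≤ 2 * ρ / x := by
  have h1 := abs_le.mp hxy
  rw [← Real.log_div hy.ne' hx.ne', abs_le]
  constructor
  · have h2 := Real.one_sub_inv_le_log_of_pos (div_pos hy hx)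
    rw [inv_div] at h2
    have h3 : x / y ≤ 1 + 2 * ρ / x := by
      rw [one_add_div hx.ne', div_le_div_iff₀ hy hx]
      nlinarith
    linarith
  · have h2 := Real.log_le_sub_one_of_pos (div_pos hy hx)
    have h3 : y / x ≤ 1 + 2 * ρ / x := by
      rw [one_add_div hx.ne', div_le_div_iff_of_pos_right hx]
      linarith
    linarith

/-- If all logarithms of absolute values move by at most `t`, that of the norm moves by at most
`[F : ℚ] t`. -/
theorem abs_log_norm_sub_le {α β : F} (hα : α ≠ 0) (hβ : β ≠ 0) {t : ℝ}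
    (h : ∀ v : InfinitePlace F, |Real.log (v β) - Real.log (v α)| ≤ t) :
    |Real.log |((Algebra.norm ℚ β : ℚ) : ℝ)| - (Real.log |((Algebra.norm ℚ α : ℚ) : ℝ)|)| ≤
      Module.finrank ℚ F * t := by
  classical
  rw [log_abs_norm hα, log_abs_norm hβ, ← Finset.sum_sub_distrib]
  calc _ ≤ ∑ v : InfinitePlace F, |mult v * Real.log (v β) - mult v * Real.log (v α)| :=
        Finset.abs_sum_le_sum_abs _ _
    _ ≤ ∑ v : InfinitePlace F, (mult v : ℝ) * t := Finset.sum_le_sum fun v _ => by
        rw [← mul_sub, abs_mul, Nat.abs_cast]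
        exact mul_le_mul_of_nonneg_left (h v) (Nat.cast_nonneg _)
    _ = Module.finrank ℚ F * t := by rw [← Finset.sum_mul, ← Nat.cast_sum, sum_mult_eq]

open scoped Classical in
/-- If all logarithms of absolute values move by at most `t`, so do the logarithmic coordinates up
to the factor `4 [F : ℚ]`. -/
theorem norm_logCoord_sub_le {α β : F} (hα : α ≠ 0) (hβ : β ≠ 0) {t : ℝ} (ht : 0 ≤ t)
    (h : ∀ v : InfinitePlace F, |Real.log (v β) - Real.log (v α)| ≤ t) :
    ‖logCoord β - logCoord α‖ ≤ 4 * Module.finrank ℚ F * t := by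
  set n := Module.finrank ℚ F
  have hn1 : (1 : ℝ) ≤ n := Nat.one_le_cast.mpr Module.finrank_pos
  refine (pi_norm_le_iff_of_nonneg (by positivity)).mpr fun v => ?_
  rw [Real.norm_eq_abs, Pi.sub_apply]
  simp only [logCoord, meanLog, ← mul_sub, abs_mul, Nat.abs_cast]
  have h1 : |Real.log (v.1 β) - Real.log |((Algebra.norm ℚ β : ℚ) : ℝ)| / n -
      (Real.log (v.1 α) - Real.log |((Algebra.norm ℚ α : ℚ) : ℝ)| / n)| ≤ 2 * t := by
    rw [show Real.log (v.1 β) - Real.log |((Algebra.norm ℚ β : ℚ) : ℝ)| / n -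
        (Real.log (v.1 α) - Real.log |((Algebra.norm ℚ α : ℚ) : ℝ)| / n)
        = (Real.log (v.1 β) - Real.log (v.1 α)) - (Real.log |((Algebra.norm ℚ β : ℚ) : ℝ)| -
          Real.log |((Algebra.norm ℚ α : ℚ) : ℝ)|) / n by ring]
    refine (abs_sub _ _).trans ?_
    have h2 : |(Real.log |((Algebra.norm ℚ β : ℚ) : ℝ)| -
        Real.log |((Algebra.norm ℚ α : ℚ) : ℝ)|) / n| ≤ t := by
      rw [abs_div, Nat.abs_cast, div_le_iff₀ (by linarith)]
      linarith [abs_log_norm_sub_le hα hβ h]
    linarith [h v.1]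
  have hm : (mult v.1 : ℝ) ≤ 2 := by
    rw [mult]; split_ifs <;> norm_num
  calc (mult v.1 : ℝ) * _ ≤ 2 * (2 * t) := mul_le_mul hm h1 (abs_nonneg _) two_pos.le
    _ ≤ 4 * n * t := by nlinarith

open scoped Classical in
/-- The weight is Lipschitz in the logarithms of the absolute values. -/
theorem abs_weight_sub_le {α β : F} (hα : α ≠ 0) (hβ : β ≠ 0) {t B : ℝ} (ht : 0 ≤ t)
    (hB0 : 0 ≤ B) (hB : ∀ (x : logSpace F) (i : Fin (rank F)), |(logBasis F).repr x i| ≤ B * ‖x‖)
    (h : ∀ v : InfinitePlace F, |Real.log (v β) - Real.log (v α)| ≤ t) :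
    |weight β - weight α| ≤ rank F * (B * (4 * Module.finrank ℚ F * t)) := by
  rw [weight, weight, if_neg hβ, if_neg hα]
  refine (abs_prod_sub_prod_le _ _ _
    (fun i _ => by rw [abs_of_nonneg (tent_nonneg _)]; exact tent_le_one _)
    (fun i _ => by rw [abs_of_nonneg (tent_nonneg _)]; exact tent_le_one _)).trans ?_
  refine (Finset.sum_le_card_nsmul _ _ (B * (4 * Module.finrank ℚ F * t)) fun i _ => ?_).trans
    (le_of_eq ?_)
  · refine (abs_tent_sub_tent_le _ _).trans ?_
    rw [coord, coord, ← Finsupp.sub_apply, ← map_sub]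
    exact (hB _ i).trans (mul_le_mul_of_nonneg_left (norm_logCoord_sub_le hα hβ ht h) hB0)
  · simp

/-- If every absolute value of `γ` is at least `m`, then `|N γ| ^ (-s) ≤ m ^ (-s [F : ℚ])`. -/
theorem rpow_neg_norm_le {γ : F} {m s : ℝ} (hm : 0 < m) (hs : 0 ≤ s)
    (h : ∀ v : InfinitePlace F, m ≤ v γ) :
    |((Algebra.norm ℚ γ : ℚ) : ℝ)| ^ (-s) ≤ m ^ (-(s * Module.finrank ℚ F)) := by
  classical
  rw [show -(s * (Module.finrank ℚ F : ℝ)) = (Module.finrank ℚ F : ℕ) * (-s) by ring,
    Real.rpow_natCast_mul hm.le]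
  refine Real.rpow_le_rpow_of_nonpos (by positivity) ?_ (by linarith)
  rw [abs_norm_eq_prod, ← sum_mult_eq, ← Finset.prod_pow_eq_pow_sum]
  exact Finset.prod_le_prod (fun v _ => by positivity)
    fun v _ => pow_le_pow_left₀ hm.le (h v) _

/-- For `0 ≤ s ≤ 2` the function `x ^ (-s)` is Lipschitz in `log x`. -/
theorem abs_rpow_neg_sub_le {x y s L M : ℝ} (hx : 0 < x) (hy : 0 < y) (hs : 0 ≤ s) (hs2 : s ≤ 2)
    (hL : |Real.log y - Real.log x| ≤ L) (hxM : x ^ (-s) ≤ M) (hyM : y ^ (-s) ≤ M) :
    |y ^ (-s) - x ^ (-s)| ≤ M * (2 * L) := by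
  have key : ∀ x y : ℝ, 0 < x → 0 < y → |Real.log y - Real.log x| ≤ L → x ^ (-s) ≤ M →
      x ^ (-s) - y ^ (-s) ≤ M * (2 * L) := by
    intro x y hx hy hl hM
    have h1 : x ^ (-s) - y ^ (-s) ≤ x ^ (-s) * (s * (Real.log y - Real.log x)) := by
      rw [Real.rpow_def_of_pos hx, Real.rpow_def_of_pos hy]
      have := Real.add_one_le_exp (-(s * (Real.log y - Real.log x)))
      have h2 : Real.exp (Real.log y * -s) =
          Real.exp (Real.log x * -s) * Real.exp (-(s * (Real.log y - Real.log x))) := by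
        rw [← Real.exp_add]; congr 1; ring
      rw [h2]
      nlinarith [Real.exp_pos (Real.log x * -s)]
    have hL0 : 0 ≤ L := (abs_nonneg _).trans hl
    have h2 : s * (Real.log y - Real.log x) ≤ 2 * L :=
      (mul_le_mul_of_nonneg_left ((le_abs_self _).trans hl) hs).trans
        (mul_le_mul_of_nonneg_right hs2 hL0)
    exact h1.trans ((mul_le_mul_of_nonneg_left h2 (Real.rpow_nonneg hx.le _)).trans
      (mul_le_mul_of_nonneg_right hM (by positivity)))
  rw [abs_le]
  exact ⟨by linarith [key x y hx hy hL hxM], key y x hy hx (by rwa [abs_sub_comm]) hyM⟩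

variable (F) in
/-- `gFun s` has a small gradient. -/
theorem exists_gFun_sub_le :
    ∃ c C : ℝ, 0 < c ∧ 0 ≤ C ∧ ∀ (s : ℝ), 1 ≤ s → s ≤ 2 → ∀ (α β : F), weight α ≠ 0 →
      ∀ ρ : ℝ, 0 ≤ ρ → (∀ v : InfinitePlace F, v (β - α) ≤ ρ) → 2 * ρ ≤ c * size α →
        |gFun s β - gFun s α| ≤
          C * ρ * (size α)⁻¹ * (c / 2 * size α) ^ (-(s * Module.finrank ℚ F)) := by
  classical
  obtain ⟨c, hc, hsupp⟩ := exists_support_bound F
  obtain ⟨B, hB0, hB⟩ := exists_abs_repr_le F
  set n := Module.finrank ℚ F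
  refine ⟨c, (rank F * B * (4 * n) + 2 * n) * (2 / c), hc,
    by positivity, fun s hs hs2 α β hα ρ hρ0 hρ hsize => ?_⟩
  have h0 : α ≠ 0 := fun h => hα (by rw [h, weight_zero])
  have hαsize : 0 < size α :=
    lt_of_lt_of_le ((pos_iff (w := (w₀ : InfinitePlace F))).mpr h0) (apply_le_size w₀ α)
  set t := 2 * ρ / (c * size α) with ht
  set m := c / 2 * size α with hm
  have hmpos : 0 < m := by positivity
  have ht0 : 0 ≤ t := by positivity
  have hv : ∀ v : InfinitePlace F, m ≤ v α ∧ m ≤ v β := fun v => by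
    have h1 : |v β - v α| ≤ ρ := (v.1.abs_abv_sub_le_abv_sub β α).trans (hρ v)
    rw [abs_le] at h1
    constructor <;> linarith [hsupp α hα v]
  have hβ0 : β ≠ 0 := fun h => by
    have h1 := (hv w₀).2
    rw [h, map_zero] at h1
    linarith
  have hlog : ∀ v : InfinitePlace F, |Real.log (v β) - Real.log (v α)| ≤ t := fun v =>
    (abs_log_sub_log_le ((pos_iff (w := v)).mpr h0) ((pos_iff (w := v)).mpr hβ0)
      ((v.1.abs_abv_sub_le_abv_sub β α).trans (hρ v)) (hsize.trans (hsupp α hα v))).trans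
      (div_le_div_of_nonneg_left (by linarith) (by positivity) (hsupp α hα v))
  set A := |((Algebra.norm ℚ α : ℚ) : ℝ)| ^ (-s) with hA
  set A' := |((Algebra.norm ℚ β : ℚ) : ℝ)| ^ (-s) with hA'
  have hA'm : A' ≤ m ^ (-(s * n)) := rpow_neg_norm_le hmpos (by linarith) fun v => (hv v).2
  have hexp : |A' - A| ≤ m ^ (-(s * n)) * (2 * (n * t)) :=
    abs_rpow_neg_sub_le (abs_norm_pos h0) (abs_norm_pos hβ0) (by linarith) hs2
      (abs_log_norm_sub_le h0 hβ0 hlog) (rpow_neg_norm_le hmpos (by linarith) fun v => (hv v).1)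
      hA'm
  calc |gFun s β - gFun s α| = |(weight β - weight α) * A' + weight α * (A' - A)| := by
        simp only [gFun, ← hA, ← hA']; ring_nf
    _ ≤ |weight β - weight α| * |A'| + |weight α| * |A' - A| := by
        rw [← abs_mul, ← abs_mul]; exact abs_add_le _ _
    _ ≤ rank F * (B * (4 * n * t)) * m ^ (-(s * n)) + 1 * (m ^ (-(s * n)) * (2 * (n * t))) := by
        refine add_le_add (mul_le_mul (abs_weight_sub_le h0 hβ0 ht0 hB0 hB hlog) ?_
          (abs_nonneg _) (by positivity)) (mul_le_mul ?_ hexp (abs_nonneg _) zero_le_one)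
        · rwa [abs_of_nonneg (Real.rpow_nonneg (abs_nonneg _) _)]
        · rw [abs_of_nonneg (weight_nonneg α)]; exact weight_le_one α
    _ = _ := by
        rw [ht]
        field_simp

end Fermat.Agent.ChebotarevFull
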