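import Fermat.Agent.Chebotarev.PrimeSum

/-!
# The absolute value of a twisted ideal series

For a completely multiplicative `c` with `‖c‖ ≤ 1`, the series `∑ c(N I) (N I)^(-s)` has absolute
value `exp (∑_p a(p) Re c(p) p^(-s) + O(1))`, where `a(p)` counts the primes of norm `p`.
-/

set_option autoImplicit false

open Filter Topology NumberField UniqueFactorizationMonoid

namespace Fermat.Agent.ChebotarevFull

open Fermat.Agent.Chebotarev

variable {R : Type*} [CommRing R] [IsDedekindDomain R]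

/-- A finite product of finite geometric series is a sum over distinct ideals. -/
lemma exists_prod_geom_eq_sum (T : Finset (Ideal R)) (hT : ∀ P ∈ T, Prime P) (K : ℕ)
    {A B : Type*} [CommSemiring A] [CommSemiring B] (w : Ideal R →* A) (v : Ideal R →* B) :
    ∃ E : Finset {I : Ideal R // I ≠ ⊥},
      ∏ P ∈ T, ∑ k ∈ Finset.range K, w P ^ k = ∑ I ∈ E, w I.1 ∧
      ∏ P ∈ T, ∑ k ∈ Finset.range K, v P ^ k = ∑ I ∈ E, v I.1 := by
  classical
  let m : (∀ P ∈ T, ℕ) → Multiset (Ideal R) := fun f =>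
    ∑ P ∈ T.attach, Multiset.replicate (f P.1 P.2) P.1
  have hmprime : ∀ f, ∀ Q ∈ m f, Prime Q := by
    intro f Q hQ
    obtain ⟨P, -, hP⟩ := Multiset.mem_sum.mp hQ
    rw [Multiset.eq_of_mem_replicate hP]
    exact hT _ P.2
  have hne : ∀ f, (m f).prod ≠ (⊥ : Ideal R) := fun f =>
    Multiset.prod_ne_zero fun h => (hmprime f _ h).ne_zero rfl
  let e : (∀ P ∈ T, ℕ) → {I : Ideal R // I ≠ ⊥} := fun f => ⟨(m f).prod, hne f⟩
  have hcount : ∀ f P (hP : P ∈ T), (m f).count P = f P hP := by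
    intro f P hP
    rw [Multiset.count_sum', Finset.sum_eq_single ⟨P, hP⟩]
    · simp
    · intro b _ hb
      rw [Multiset.count_replicate, if_neg]
      exact fun h => hb (Subtype.ext h)
    · simp
  have hinj : Function.Injective e := by
    intro f g hfg
    have h : normalizedFactors (m f).prod = normalizedFactors (m g).prod :=
      congrArg normalizedFactors (congrArg Subtype.val hfg)
    rw [normalizedFactors_prod_of_prime (hmprime f), normalizedFactors_prod_of_prime (hmprime g)] at h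
    funext P hP
    rw [← hcount f P hP, h, hcount g P hP]
  have hwe : ∀ f, w (e f).1 = ∏ P ∈ T.attach, w P.1 ^ f P.1 P.2 := fun f => by
    simp [e, m, Multiset.prod_sum]
  have hve : ∀ f, v (e f).1 = ∏ P ∈ T.attach, v P.1 ^ f P.1 P.2 := fun f => by
    simp [e, m, Multiset.prod_sum]
  refine ⟨(T.pi fun _ => Finset.range K).image e, ?_, ?_⟩ <;>
    rw [Finset.prod_sum, Finset.sum_image hinj.injOn]
  · exact Finset.sum_congr rfl fun f _ => (hwe f).symm
  · exact Finset.sum_congr rfl fun f _ => (hve f).symm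

variable (F : Type*) [Field F] [NumberField F]

/-- The weight `c(N I) (N I)^(-s)`. -/
noncomputable def twistWeight (c : ℕ →* ℂ) (s : ℝ) : Ideal (𝓞 F) →* ℂ where
  toFun I := c (Ideal.absNorm I) * (normWeight F s I : ℂ)
  map_one' := by rw [map_one, map_one, map_one, Complex.ofReal_one, one_mul]
  map_mul' I J := by simp only [map_mul, Complex.ofReal_mul]; ring

/-- `∑_{I ≠ 0} c(N I) (N I)^(-s)`. -/
noncomputable def twistSum (c : ℕ →* ℂ) (s : ℝ) : ℂ :=
  ∑' I : {I : Ideal (𝓞 F) // I ≠ ⊥}, twistWeight F c s I.1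

/-- `∑_p a(p) Re c(p) p^(-s)`. -/
noncomputable def twistPrimeSum (c : ℕ →* ℂ) (s : ℝ) : ℝ :=
  ∑' p : Nat.Primes, (c p).re * ((degOneCount F p : ℝ) * (p : ℝ) ^ (-s))

variable {F} {c : ℕ →* ℂ} {s : ℝ}

lemma norm_twistWeight_le (hc : ∀ n, ‖c n‖ ≤ 1) (I : Ideal (𝓞 F)) :
    ‖twistWeight F c s I‖ ≤ normWeight F s I := by
  show ‖c (Ideal.absNorm I) * (normWeight F s I : ℂ)‖ ≤ _
  rw [norm_mul, Complex.norm_real, Real.norm_of_nonneg (normWeight_nonneg F s I)]
  exact mul_le_of_le_one_left (normWeight_nonneg F s I) (hc _)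

/-- The real parts of the coefficients are bounded by one. -/
lemma abs_re_c_le (hc : ∀ n, ‖c n‖ ≤ 1) (n : ℕ) : |(c n).re| ≤ 1 :=
  (Complex.abs_re_le_norm _).trans (hc n)

lemma summable_twistPrimeSum (hc : ∀ n, ‖c n‖ ≤ 1) (hs : 1 < s) :
    Summable fun p : Nat.Primes => (c p).re * ((degOneCount F p : ℝ) * (p : ℝ) ^ (-s)) := by
  refine Summable.of_norm_bounded (summable_degOneSum F hs) fun p => ?_
  rw [norm_mul, Real.norm_eq_abs, Real.norm_of_nonneg (by positivity)]
  exact mul_le_of_le_one_left (by positivity) (abs_re_c_le hc _)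

lemma abs_neg_log_norm_one_sub_sub_re_le {z : ℂ} (hz : ‖z‖ ≤ 1 / 2) :
    |-Real.log ‖1 - z‖ - z.re| ≤ ‖z‖ ^ 2 := by
  have h := Complex.norm_log_one_add_sub_self_le (z := -z) (by rw [norm_neg]; linarith)
  have h2 : |(Complex.log (1 + -z) - -z).re| ≤ ‖z‖ ^ 2 := by
    refine (Complex.abs_re_le_norm _).trans (h.trans ?_)
    rw [norm_neg]
    have h1 : (1 - ‖z‖)⁻¹ ≤ 2 := (inv_le_comm₀ (by linarith) two_pos).mpr (by linarith)
    nlinarith [sq_nonneg ‖z‖]
  rw [Complex.sub_re, Complex.log_re, Complex.neg_re, ← sub_eq_add_neg] at h2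
  rw [show -Real.log ‖1 - z‖ - z.re = -(Real.log ‖1 - z‖ - -z.re) by ring, abs_neg]
  exact h2

/-- The primes of norm `p`. -/
noncomputable def degOnePrimes (p : Nat.Primes) : Finset (Ideal (𝓞 F)) :=
  ((Ideal.finite_setOfPred_absNorm_eq (p : ℕ)).subset
    (t := {I : Ideal (𝓞 F) | Ideal.absNorm I = (p : ℕ)})
    (s := {P : Ideal (𝓞 F) | Nat.card (𝓞 F ⧸ P) = p})
    fun _ hP => (prime_of_card_quotient F hP).2.1).toFinset

lemma mem_degOnePrimes {p : Nat.Primes} {P : Ideal (𝓞 F)} :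
    P ∈ degOnePrimes p ↔ Nat.card (𝓞 F ⧸ P) = p := by
  rw [degOnePrimes, Set.Finite.mem_toFinset]
  exact Iff.rfl

lemma card_degOnePrimes (p : Nat.Primes) :
    (degOnePrimes (F := F) p).card = degOneCount F p :=
  ((Nat.card_coe_set_eq _).trans (Set.ncard_eq_toFinset_card _ _)).symm

lemma sum_biUnion_degOnePrimes [DecidableEq (Ideal (𝓞 F))] {A : Type*} [AddCommMonoid A]
    (U : Finset Nat.Primes) (f : Ideal (𝓞 F) → A) :
    ∑ P ∈ U.biUnion (degOnePrimes (F := F)), f P = ∑ p ∈ U, ∑ P ∈ degOnePrimes p, f P := by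
  refine Finset.sum_biUnion fun p _ p' _ hne => ?_
  rw [Function.onFun, Finset.disjoint_left]
  intro P hP hP'
  rw [mem_degOnePrimes] at hP hP'
  exact hne (Subtype.ext (hP.symm.trans hP'))

lemma exists_finset_bounds (hc : ∀ n, ‖c n‖ ≤ 1) (hs : 1 < s) :
    ∃ T₀ : Finset (Ideal (𝓞 F)), (∀ P ∈ T₀, Prime P) ∧
      ∀ T, T₀ ⊆ T → (∀ P ∈ T, Prime P) →
        Real.exp (twistPrimeSum F c s - (2 * secondOrderBound F + 2)) ≤
            ‖∏ P ∈ T, (1 - twistWeight F c s P)⁻¹‖ ∧
          ‖∏ P ∈ T, (1 - twistWeight F c s P)⁻¹‖ ≤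
            Real.exp (twistPrimeSum F c s + (2 * secondOrderBound F + 2)) := by
  classical
  have hS := summable_degOneSum F hs
  obtain ⟨U, hU⟩ : ∃ U : Finset Nat.Primes, degOneSum F s - 1 <
      ∑ p ∈ U, (degOneCount F p : ℝ) * (p : ℝ) ^ (-s) :=
    (hS.hasSum.eventually (Ioi_mem_nhds (show degOneSum F s - 1 < degOneSum F s by linarith))).exists
  set D := U.biUnion (degOnePrimes (F := F)) with hD
  have hDp : ∀ P ∈ D, Prime P := fun P hP => by
    obtain ⟨p, -, hp⟩ := Finset.mem_biUnion.mp hP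
    exact (prime_of_card_quotient F (mem_degOnePrimes.mp hp)).1
  refine ⟨D, hDp, fun T hT hTp => ?_⟩
  obtain ⟨h1, h2⟩ := sum_normWeight_bounds F hs T hTp
  have hsplit := Finset.sum_sdiff (f := fun P => normWeight F s P) hT
  have hDsum : ∑ P ∈ D, normWeight F s P = ∑ p ∈ U, (degOneCount F p : ℝ) * (p : ℝ) ^ (-s) := by
    rw [sum_biUnion_degOnePrimes]
    refine Finset.sum_congr rfl fun p _ => ?_
    rw [Finset.sum_congr rfl (g := fun _ => (p : ℝ) ^ (-s)) fun P hP => by
      show (Ideal.absNorm P : ℝ) ^ (-s) = _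
      rw [(prime_of_card_quotient F (mem_degOnePrimes.mp hP)).2.1],
      Finset.sum_const, nsmul_eq_mul, card_degOnePrimes]
  have hDre : ∑ P ∈ D, (twistWeight F c s P).re =
      ∑ p ∈ U, (c p).re * ((degOneCount F p : ℝ) * (p : ℝ) ^ (-s)) := by
    rw [sum_biUnion_degOnePrimes]
    refine Finset.sum_congr rfl fun p _ => ?_
    rw [Finset.sum_congr rfl (g := fun _ => (c p).re * (p : ℝ) ^ (-s)) fun P hP => by
      show (c (Ideal.absNorm P) * ((Ideal.absNorm P : ℝ) ^ (-s) : ℝ) : ℂ).re = _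
      rw [(prime_of_card_quotient F (mem_degOnePrimes.mp hP)).2.1, Complex.re_mul_ofReal],
      Finset.sum_const, nsmul_eq_mul, card_degOnePrimes]
    ring
  have hrest : |∑ P ∈ T \ D, (twistWeight F c s P).re| ≤ secondOrderBound F + 1 := by
    refine (Finset.abs_sum_le_sum_abs _ _).trans (le_trans (Finset.sum_le_sum fun P _ =>
      (Complex.abs_re_le_norm _).trans (norm_twistWeight_le hc P)) ?_)
    have hA : degOneSum F s - 1 < ∑ P ∈ D, normWeight F s P := hDsum ▸ hU
    linarith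
  have htail : |twistPrimeSum F c s - ∑ P ∈ D, (twistWeight F c s P).re| ≤ 1 := by
    rw [hDre, twistPrimeSum,
      ← (summable_twistPrimeSum hc hs).sum_add_tsum_compl (s := U), add_sub_cancel_left]
    have h3 := hS.sum_add_tsum_compl (s := U)
    have h4 : |∑' p : ↥(↑U : Set Nat.Primes)ᶜ, (c p.1).re * ((degOneCount F p.1 : ℝ) *
        (p.1 : ℝ) ^ (-s))| ≤ ∑' p : ↥(↑U : Set Nat.Primes)ᶜ, (degOneCount F p.1 : ℝ) *
        (p.1 : ℝ) ^ (-s) := by
      rw [← Real.norm_eq_abs]
      refine tsum_of_norm_bounded ((hS.subtype _).hasSum) fun p => ?_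
      rw [norm_mul, Real.norm_eq_abs, Real.norm_of_nonneg (by positivity)]
      exact mul_le_of_le_one_left (by positivity) (abs_re_c_le hc _)
    refine h4.trans ?_
    rw [degOneSum] at hU
    linarith
  have hlog : |∑ P ∈ T, -Real.log ‖1 - twistWeight F c s P‖ - ∑ P ∈ T, (twistWeight F c s P).re| ≤
      secondOrderBound F := by
    rw [← Finset.sum_sub_distrib]
    refine (Finset.abs_sum_le_sum_abs _ _).trans (le_trans (Finset.sum_le_sum fun P hP => ?_) h2)
    have hle := norm_twistWeight_le (s := s) hc P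
    exact (abs_neg_log_norm_one_sub_sub_re_le
      (hle.trans (normWeight_le_half F hs (hTp P hP)))).trans
        (pow_le_pow_left₀ (norm_nonneg _) hle 2)
  have hne : ∀ P ∈ T, 0 < ‖1 - twistWeight F c s P‖ := fun P hP => by
    have h5 := (norm_twistWeight_le (s := s) hc P).trans (normWeight_le_half F hs (hTp P hP))
    have h6 := norm_sub_norm_le (1 : ℂ) (twistWeight F c s P)
    rw [norm_one] at h6
    linarith
  have hnorm : ‖∏ P ∈ T, (1 - twistWeight F c s P)⁻¹‖ =
      Real.exp (∑ P ∈ T, -Real.log ‖1 - twistWeight F c s P‖) := by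
    rw [Real.exp_sum, norm_prod]
    exact Finset.prod_congr rfl fun P hP => by
      rw [norm_inv, Real.exp_neg, Real.exp_log (hne P hP)]
  have hsum := Finset.sum_sdiff (f := fun P => (twistWeight F c s P).re) hT
  rw [abs_le] at hrest htail hlog
  rw [hnorm, Real.exp_le_exp, Real.exp_le_exp]
  constructor <;> linarith

lemma summable_twistWeight (hc : ∀ n, ‖c n‖ ≤ 1) (hs : 1 < s) :
    Summable fun I : {I : Ideal (𝓞 F) // I ≠ ⊥} => twistWeight F c s I.1 :=
  Summable.of_norm_bounded (summable_normWeight F hs) fun I => norm_twistWeight_le hc I.1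

/-- Finite Euler products approximate the series. -/
lemma exists_finset_dist_le (hc : ∀ n, ‖c n‖ ≤ 1) (hs : 1 < s) {ε : ℝ} (hε : 0 < ε) :
    ∃ T₁ : Finset (Ideal (𝓞 F)), (∀ P ∈ T₁, Prime P) ∧
      ∀ T, T₁ ⊆ T → (∀ P ∈ T, Prime P) →
        ‖∏ P ∈ T, (1 - twistWeight F c s P)⁻¹ - twistSum F c s‖ ≤ ε := by
  classical
  have hZ := summable_normWeight F hs
  obtain ⟨S, hS⟩ : ∃ S : Finset {I : Ideal (𝓞 F) // I ≠ ⊥},
      idealSum F s - ε < ∑ I ∈ S, normWeight F s I.1 :=
    (hZ.hasSum.eventually (Ioi_mem_nhds (show idealSum F s - ε < idealSum F s by linarith))).exists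
  obtain ⟨T₁, K₁, hT₁, hle⟩ := exists_sum_le_prod_geom (normWeight F s) (normWeight_nonneg F s) S
  refine ⟨T₁, hT₁, fun T hT hTp => ?_⟩
  have hx : ∀ P ∈ T, normWeight F s P ≤ 1 / 2 := fun P hP => normWeight_le_half F hs (hTp P hP)
  have hlim : Tendsto (fun K => ∏ P ∈ T, ∑ k ∈ Finset.range K, twistWeight F c s P ^ k) atTop
      (𝓝 (∏ P ∈ T, (1 - twistWeight F c s P)⁻¹)) :=
    tendsto_finsetProd T fun P hP => (hasSum_geometric_of_norm_lt_one
      ((norm_twistWeight_le hc P).trans_lt (by linarith [hx P hP]))).tendsto_sum_nat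
  refine le_of_tendsto (hlim.sub_const _).norm ?_
  filter_upwards [eventually_ge_atTop (max K₁ 1)] with K hK
  obtain ⟨E, hw, hv⟩ := exists_prod_geom_eq_sum T hTp K (twistWeight F c s) (normWeight F s)
  have hbig : idealSum F s - ε < ∑ I ∈ E, normWeight F s I.1 := by
    refine hS.trans_le (hle.trans (hv ▸ ?_))
    have hone : ∀ P : Ideal (𝓞 F), (1 : ℝ) ≤ ∑ k ∈ Finset.range K, normWeight F s P ^ k :=
      fun P => by
        refine le_trans (by simp) (Finset.single_le_sum (f := fun k => normWeight F s P ^ k)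
          (fun k _ => pow_nonneg (normWeight_nonneg F s P) k)
          (Finset.mem_range.mpr (show 0 < K by omega)))
    calc ∏ P ∈ T₁, ∑ k ∈ Finset.range K₁, normWeight F s P ^ k
        ≤ ∏ P ∈ T₁, ∑ k ∈ Finset.range K, normWeight F s P ^ k := by
          refine Finset.prod_le_prod (fun P _ => Finset.sum_nonneg fun k _ =>
            pow_nonneg (normWeight_nonneg F s P) k) fun P _ => ?_
          exact Finset.sum_le_sum_of_subset_of_nonneg
            (Finset.range_subset_range.mpr (by omega))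
            fun k _ _ => pow_nonneg (normWeight_nonneg F s P) k
      _ ≤ ∏ P ∈ T, ∑ k ∈ Finset.range K, normWeight F s P ^ k :=
          Finset.prod_le_prod_of_subset_of_one_le hT
            (fun P _ => zero_le_one.trans (hone P)) fun P _ _ => hone P
  rw [hw, twistSum, ← (summable_twistWeight hc hs).sum_add_tsum_compl (s := E), sub_add_cancel_left,
    norm_neg]
  have h3 := hZ.sum_add_tsum_compl (s := E)
  refine (tsum_of_norm_bounded ((hZ.subtype _).hasSum)
    fun I => norm_twistWeight_le hc I.1.1).trans ?_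
  rw [idealSum] at hbig
  simp only [Function.comp_apply] at *
  linarith

/-- `‖∑ c(N I) (N I)^(-s)‖ = exp (∑_p a(p) Re c(p) p^(-s) + O(1))`. -/
theorem norm_twistSum_bounds (hc : ∀ n, ‖c n‖ ≤ 1) (hs : 1 < s) :
    Real.exp (twistPrimeSum F c s - (2 * secondOrderBound F + 2)) ≤ ‖twistSum F c s‖ ∧
      ‖twistSum F c s‖ ≤ Real.exp (twistPrimeSum F c s + (2 * secondOrderBound F + 2)) := by
  classical
  obtain ⟨T₀, hT₀, h₀⟩ := exists_finset_bounds (F := F) hc hs
  constructor <;> refine le_of_forall_pos_le_add fun ε hε => ?_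
  all_goals
    obtain ⟨T₁, hT₁, h₁⟩ := exists_finset_dist_le (F := F) hc hs hε
    have hp : ∀ P ∈ T₀ ∪ T₁, Prime P := fun P hP =>
      (Finset.mem_union.mp hP).elim (hT₀ P) (hT₁ P)
    obtain ⟨hl, hu⟩ := h₀ _ Finset.subset_union_left hp
    have hd := h₁ _ Finset.subset_union_right hp
  · linarith [norm_le_norm_add_norm_sub' (∏ P ∈ T₀ ∪ T₁, (1 - twistWeight F c s P)⁻¹)
      (twistSum F c s)]
  · rw [norm_sub_rev] at hd
    linarith [norm_le_norm_add_norm_sub' (twistSum F c s)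
      (∏ P ∈ T₀ ∪ T₁, (1 - twistWeight F c s P)⁻¹)]

end Fermat.Agent.ChebotarevFull
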