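import Fermat.Agent.ChebotarevFull.PeriodicSum
import Mathlib.LinearAlgebra.Matrix.CharP
import Mathlib.NumberTheory.NumberField.DedekindZeta

/-!
# The dichotomy for `∑ ψ(N I) (N I)^(-s)` over the ideals of a number field

For an even periodic `ψ`, this series is either bounded as `s → 1⁺`, or grows like `1/(s-1)`.
-/

set_option autoImplicit false

noncomputable section

namespace Fermat.Agent.ChebotarevFull

open NumberField Filter Topology
open scoped nonZeroDivisors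

variable (F : Type*) [Field F] [NumberField F]

/-- An even periodic coefficient function. -/
structure EvenPeriodic where
  /-- the function -/
  fn : ℤ → ℂ
  /-- the period -/
  period : ℕ
  period_ne_zero : period ≠ 0
  periodic : ∀ x y : ℤ, ((x : ZMod period) = y) → fn x = fn y
  even : ∀ x, fn (-x) = fn x

/-- `∑ ψ(N I) (N I)^(-s)` over the non-zero ideals. -/
def idealSeries (ψ : EvenPeriodic) (s : ℝ) : ℂ :=
  ∑' I : (Ideal (𝓞 F))⁰, ψ.fn (Ideal.absNorm I.1) * (((Ideal.absNorm I.1 : ℝ) ^ (-s) : ℝ) : ℂ)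

variable {F}

/-- An even function only depends on the absolute value. -/
theorem EvenPeriodic.natAbs (ψ : EvenPeriodic) (x : ℤ) : ψ.fn (x.natAbs : ℤ) = ψ.fn x := by
  rcases Int.natAbs_eq x with h | h
  · rw [← h]
  · conv_rhs => rw [h, ψ.even]

/-- The norm modulo `M` only depends on the class modulo `M`. -/
theorem norm_intCast_congr (M : ℕ) (α β : 𝓞 F) :
    ((Algebra.norm ℤ (α + (M : 𝓞 F) * β) : ℤ) : ZMod M) = (Algebra.norm ℤ α : ℤ) := by
  classical
  let b := RingOfIntegers.basis F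
  rw [Algebra.norm_eq_matrix_det b, Algebra.norm_eq_matrix_det b]
  rw [← eq_intCast (Int.castRingHom (ZMod M)), ← eq_intCast (Int.castRingHom (ZMod M)),
    RingHom.map_det, RingHom.map_det]
  congr 1
  rw [map_add, map_mul, map_add, map_mul, map_natCast, map_natCast]
  simp [CharP.cast_eq_zero]

/-- The norm of a principal ideal is the absolute value of the norm of a generator. -/
theorem absNorm_span_eq (α : 𝓞 F) :
    (Ideal.absNorm (Ideal.span {α}) : ℝ) = |((Algebra.norm ℚ (α : F) : ℚ) : ℝ)| := by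
  rw [Ideal.absNorm_span_singleton, ← Algebra.coe_norm_int, Nat.cast_natAbs]
  push_cast
  rfl

/-- The ideals of a class, times a fixed ideal of the inverse class, and their generators. -/
theorem exists_classSum_eq (ψ : EvenPeriodic) (J : (Ideal (𝓞 F))⁰) :
    ∃ (κ : ℂ) (C : ℝ), ∀ s : ℝ, 1 < s → s ≤ 2 →
      Summable (fun I : {I : (Ideal (𝓞 F))⁰ // ClassGroup.mk0 I = (ClassGroup.mk0 J)⁻¹} =>
        (Ideal.absNorm I.1.1 : ℝ) ^ (-s)) ∧
      ‖(Nat.card (Units.torsion F) : ℂ) * (((Ideal.absNorm J.1 : ℝ) ^ (-s) : ℝ) : ℂ) *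
          (∑' I : {I : (Ideal (𝓞 F))⁰ // ClassGroup.mk0 I = (ClassGroup.mk0 J)⁻¹},
            ψ.fn (Ideal.absNorm I.1.1) * (((Ideal.absNorm I.1.1 : ℝ) ^ (-s) : ℝ) : ℂ)) -
        κ * ((∑' α : 𝓞 F, gFun s (α : F) : ℝ) : ℂ)‖ ≤ C := by
  classical
  set NJ := Ideal.absNorm J.1 with hNJ
  have hNJ0 : NJ ≠ 0 := Ideal.absNorm_ne_zero_of_nonZeroDivisors J
  have : NeZero (ψ.period * NJ) := ⟨mul_ne_zero ψ.period_ne_zero hNJ0⟩
  set f : 𝓞 F → ℂ := fun α => if α ∈ J.1 then ψ.fn (Algebra.norm ℤ α / (NJ : ℤ)) else 0 with hf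
  have hdvd : ∀ α ∈ J.1, (NJ : ℤ) ∣ Algebra.norm ℤ α := fun α hα => by
    rw [← Int.dvd_natAbs, ← Ideal.absNorm_span_singleton α, Int.natCast_dvd_natCast]
    exact Ideal.absNorm_dvd_absNorm_of_le ((Ideal.span_singleton_le_iff_mem _).mpr hα)
  have hMmem : ((ψ.period * NJ : ℕ) : 𝓞 F) ∈ J.1 := by
    push_cast
    exact J.1.mul_mem_left _ (Ideal.absNorm_mem J.1)
  have hfper : ∀ α β : 𝓞 F, f (α + ((ψ.period * NJ : ℕ) : 𝓞 F) * β) = f α := by
    intro α β
    have hmem : α + ((ψ.period * NJ : ℕ) : 𝓞 F) * β ∈ J.1 ↔ α ∈ J.1 :=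
      J.1.add_mem_iff_left (J.1.mul_mem_right _ hMmem)
    simp only [hf, hmem]
    split_ifs with h
    · apply ψ.periodic
      obtain ⟨a, ha⟩ := hdvd _ (hmem.mpr h)
      obtain ⟨b, hb⟩ := hdvd _ h
      have hc := norm_intCast_congr (ψ.period * NJ) α β
      have hNJz : (NJ : ℤ) ≠ 0 := Int.natCast_ne_zero.mpr hNJ0
      rw [ha, hb, ZMod.intCast_eq_intCast_iff_dvd_sub, ← mul_sub, Nat.cast_mul,
        mul_comm (ψ.period : ℤ)] at hc
      rw [ha, hb, Int.mul_ediv_cancel_left _ hNJz, Int.mul_ediv_cancel_left _ hNJz,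
        ZMod.intCast_eq_intCast_iff_dvd_sub]
      exact (mul_dvd_mul_iff_left hNJz).mp hc
    · rfl
  obtain ⟨κ, C, hκ⟩ := exists_periodicSum_bound (ψ.period * NJ) f hfper
  refine ⟨κ, C, fun s hs hs2 => ?_⟩
  obtain ⟨hfs, hbound⟩ := hκ s hs hs2
  set T := {I : (Ideal (𝓞 F))⁰ // ClassGroup.mk0 I = (ClassGroup.mk0 J)⁻¹} with hT
  have hex : ∀ I : T, ∃ x : 𝓞 F, x ≠ 0 ∧ I.1.1 * J.1 = Ideal.span {x} := fun I => by
    obtain ⟨x, hx0, hx⟩ := ClassGroup.mk0_eq_mk0_inv_iff.mp I.2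
    exact ⟨x, hx0, hx⟩
  choose γ hγ0 hγ using hex
  let Φ : T × (𝓞 F)ˣ → 𝓞 F := fun x => γ x.1 * x.2
  have hspan : ∀ x, Ideal.span {Φ x} = x.1.1.1 * J.1 := fun x => by
    rw [Ideal.span_singleton_mul_right_unit x.2.isUnit, hγ]
  have hΦinj : Function.Injective Φ := by
    rintro ⟨I, u⟩ ⟨I', u'⟩ h
    have hI : I = I' := Subtype.ext <| Subtype.ext <| mul_right_cancel₀
      (nonZeroDivisors.coe_ne_zero J) (by rw [← hspan (I, u), ← hspan (I', u'), h])
    subst hI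
    exact Prod.ext rfl (Units.ext (mul_left_cancel₀ (hγ0 I) h))
  have hrange : ∀ α : 𝓞 F, α ∉ Set.range Φ → f α * (gFun s (α : F) : ℂ) = 0 := by
    intro α hα
    by_cases hα0 : α = 0
    · simp [hα0, gFun, weight_zero]
    by_cases hαJ : α ∈ J.1
    · exfalso
      apply hα
      obtain ⟨I, hI⟩ := Ideal.dvd_iff_le.mpr ((Ideal.span_singleton_le_iff_mem _).mpr hαJ)
      have hI0 : I ≠ ⊥ := by
        rintro rfl
        rw [Ideal.mul_bot, Ideal.span_singleton_eq_bot] at hI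
        exact hα0 hI
      have hImem : I ∈ (Ideal (𝓞 F))⁰ := mem_nonZeroDivisors_of_ne_zero hI0
      let I' : T := ⟨⟨I, hImem⟩, ClassGroup.mk0_eq_mk0_inv_iff.mpr
        ⟨α, hα0, by rw [mul_comm]; exact hI.symm⟩⟩
      have : Ideal.span {γ I'} = Ideal.span {α} := by rw [← hγ I', hI, mul_comm]
      obtain ⟨u, hu⟩ := Ideal.span_singleton_eq_span_singleton.mp this
      exact ⟨(I', u), hu⟩
    · simp [hf, hαJ]
  have hval : ∀ x : T × (𝓞 F)ˣ, f (Φ x) * (gFun s (Φ x : F) : ℂ) =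
      (ψ.fn (Ideal.absNorm x.1.1.1) * (((Ideal.absNorm x.1.1.1 : ℝ) ^ (-s) : ℝ) : ℂ) *
        (((NJ : ℝ) ^ (-s) : ℝ) : ℂ)) * ((weight ((γ x.1 : F) * ((x.2 : 𝓞 F) : F)) : ℝ) : ℂ) := by
    intro x
    have hmem : Φ x ∈ J.1 := by
      rw [← Ideal.span_singleton_le_iff_mem, hspan]
      exact Ideal.mul_le_right (I := x.1.1.1) (J := J.1)
    have hN : Ideal.absNorm (Ideal.span {Φ x}) = Ideal.absNorm x.1.1.1 * NJ := by
      rw [hspan, map_mul]
    have h1 : ψ.fn (Algebra.norm ℤ (Φ x) / (NJ : ℤ)) = ψ.fn (Ideal.absNorm x.1.1.1) := by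
      obtain ⟨a, ha⟩ := hdvd _ hmem
      rw [Ideal.absNorm_span_singleton, ha, Int.natAbs_mul, Int.natAbs_natCast, mul_comm] at hN
      rw [ha, Int.mul_ediv_cancel_left _ (Int.natCast_ne_zero.mpr hNJ0), ← ψ.natAbs a,
        Nat.eq_of_mul_eq_mul_right (Nat.pos_of_ne_zero hNJ0) hN]
    have h2 : |((Algebra.norm ℚ (Φ x : F) : ℚ) : ℝ)| = (Ideal.absNorm x.1.1.1 : ℝ) * NJ := by
      rw [← absNorm_span_eq, hN]; push_cast; rfl
    have h3 : gFun s (Φ x : F) = weight ((γ x.1 : F) * ((x.2 : 𝓞 F) : F)) *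
        ((Ideal.absNorm x.1.1.1 : ℝ) ^ (-s) * (NJ : ℝ) ^ (-s)) := by
      rw [gFun, h2, Real.mul_rpow (Nat.cast_nonneg _) (Nat.cast_nonneg _)]
      simp only [Φ, map_mul]
    simp only [hf, if_pos hmem, h1, h3]
    push_cast
    ring
  have hsumΦ : ∑' α : 𝓞 F, f α * (gFun s (α : F) : ℂ)
      = ∑' x : T × (𝓞 F)ˣ, f (Φ x) * (gFun s (Φ x : F) : ℂ) :=
    (hΦinj.tsum_eq fun α hα => by
      by_contra h
      exact hα (hrange α h)).symm
  have hinner : ∀ I : T, HasSum (fun u : (𝓞 F)ˣ => weight ((γ I : F) * ((u : 𝓞 F) : F)))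
      (Nat.card (Units.torsion F) : ℝ) :=
    fun I => hasSum_weight_units (fun h => hγ0 I (RingOfIntegers.coe_injective (by simpa using h)))
  -- the series of positive terms
  have hpos : Summable fun x : T × (𝓞 F)ˣ => gFun s (Φ x : F) :=
    (summable_gFun hs hs2).comp_injective hΦinj
  have hgval : ∀ x : T × (𝓞 F)ˣ, gFun s (Φ x : F) =
      (Ideal.absNorm x.1.1.1 : ℝ) ^ (-s) * (NJ : ℝ) ^ (-s) *
        weight ((γ x.1 : F) * ((x.2 : 𝓞 F) : F)) := by
    intro x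
    simp only [gFun, ← absNorm_span_eq]
    rw [hspan, map_mul, Nat.cast_mul, Real.mul_rpow (Nat.cast_nonneg _) (Nat.cast_nonneg _)]
    simp only [Φ, map_mul, ← hNJ]
    ring
  have hTsum : Summable fun I : T => (Ideal.absNorm I.1.1 : ℝ) ^ (-s) := by
    have h := (hpos.congr hgval).prod
    have hc : (Nat.card (Units.torsion F) : ℝ) * (NJ : ℝ) ^ (-s) ≠ 0 :=
      mul_ne_zero (Nat.cast_ne_zero.mpr Nat.card_pos.ne')
        (Real.rpow_pos_of_pos (Nat.cast_pos.mpr (Nat.pos_of_ne_zero hNJ0)) _).ne'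
    refine (summable_mul_right_iff hc).mp (h.congr fun I => ?_)
    simp only [tsum_mul_left, (hinner I).tsum_eq]
    ring
  refine ⟨hTsum, le_trans (le_of_eq ?_) hbound⟩
  congr 2
  rw [hsumΦ, Summable.tsum_prod (f := fun x => f (Φ x) * (gFun s (Φ x : F) : ℂ))
    (hfs.comp_injective hΦinj), ← tsum_mul_left]
  refine tsum_congr fun I => ?_
  simp only [hval, tsum_mul_left, ← Complex.ofReal_tsum, (hinner I).tsum_eq]
  push_cast
  ring

variable (F) in
/-- The constant function one. -/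
def onePeriodic : EvenPeriodic where
  fn _ := 1
  period := 1
  period_ne_zero := one_ne_zero
  periodic _ _ _ := rfl
  even _ := rfl

/-- The class by class decomposition. -/
theorem exists_idealSeries_eq (ψ : EvenPeriodic) (hψ : ∀ x, ‖ψ.fn x‖ ≤ 1) :
    ∃ (κ : ℂ) (C : ℝ), ∀ s : ℝ, 1 < s → s ≤ 2 →
      Summable (fun I : (Ideal (𝓞 F))⁰ => (Ideal.absNorm I.1 : ℝ) ^ (-s)) ∧
      ‖idealSeries F ψ s - κ * ((∑' α : 𝓞 F, gFun s (α : F) : ℝ) : ℂ)‖ ≤
        C * (1 + (s - 1) * ∑' α : 𝓞 F, gFun s (α : F)) := by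
  classical
  choose J hJ using fun c : ClassGroup (𝓞 F) => ClassGroup.mk0_surjective c⁻¹
  choose κ C hκ using fun c => exists_classSum_eq ψ (J c)
  set w : ℝ := (Nat.card (Units.torsion F) : ℝ) with hw
  have hw0 : 0 < w := Nat.cast_pos.mpr Nat.card_pos
  set N : ClassGroup (𝓞 F) → ℝ := fun c => (Ideal.absNorm (J c).1 : ℝ) with hN
  have hN1 : ∀ c, 1 ≤ N c := fun c =>
    Nat.one_le_cast.mpr (Nat.one_le_iff_ne_zero.mpr (Ideal.absNorm_ne_zero_of_nonZeroDivisors _))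
  refine ⟨∑ c, κ c * ((N c / w : ℝ) : ℂ),
    ∑ c, (|C c| + ‖κ c‖) * (N c ^ (3 : ℝ) / w), fun s hs hs2 => ?_⟩
  have hclass : ∀ c, Summable fun I : {I : (Ideal (𝓞 F))⁰ // ClassGroup.mk0 I = c} =>
      (Ideal.absNorm I.1.1 : ℝ) ^ (-s) := fun c => by
    have h := (hκ c s hs hs2).1
    rwa [hJ, inv_inv] at h
  let e := Equiv.sigmaFiberEquiv (ClassGroup.mk0 : (Ideal (𝓞 F))⁰ → ClassGroup (𝓞 F))
  have hsum : Summable fun I : (Ideal (𝓞 F))⁰ => (Ideal.absNorm I.1 : ℝ) ^ (-s) := by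
    rw [← e.summable_iff]
    exact (summable_sigma_of_nonneg fun x => Real.rpow_nonneg (Nat.cast_nonneg _) _).mpr
      ⟨hclass, Summable.of_finite⟩
  refine ⟨hsum, ?_⟩
  have hsumψ : Summable fun I : (Ideal (𝓞 F))⁰ =>
      ψ.fn (Ideal.absNorm I.1) * (((Ideal.absNorm I.1 : ℝ) ^ (-s) : ℝ) : ℂ) :=
    Summable.of_norm_bounded hsum fun I => by
      rw [norm_mul, Complex.norm_real, Real.norm_of_nonneg (by positivity)]
      exact mul_le_of_le_one_left (by positivity) (hψ _)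
  set Z := ∑' α : 𝓞 F, gFun s (α : F) with hZ
  have hZ0 : 0 ≤ Z := tsum_nonneg fun _ => gFun_nonneg _ _
  set L : ClassGroup (𝓞 F) → ℂ := fun c =>
    ∑' I : {I : (Ideal (𝓞 F))⁰ // ClassGroup.mk0 I = c},
      ψ.fn (Ideal.absNorm I.1.1) * (((Ideal.absNorm I.1.1 : ℝ) ^ (-s) : ℝ) : ℂ) with hL
  have hsplit : idealSeries F ψ s = ∑ c, L c := by
    rw [idealSeries, ← e.tsum_eq, Summable.tsum_sigma (f := fun x =>
      ψ.fn (Ideal.absNorm (e x).1) * (((Ideal.absNorm (e x).1 : ℝ) ^ (-s) : ℝ) : ℂ))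
      (hsumψ.comp_injective e.injective), tsum_fintype]
    rfl
  rw [hsplit, Finset.sum_mul, ← Finset.sum_sub_distrib]
  refine (norm_sum_le _ _).trans ?_
  rw [Finset.sum_mul]
  refine Finset.sum_le_sum fun c _ => ?_
  have h := (hκ c s hs hs2).2
  have hLc : (∑' I : {I : (Ideal (𝓞 F))⁰ // ClassGroup.mk0 I = (ClassGroup.mk0 (J c))⁻¹},
      ψ.fn (Ideal.absNorm I.1.1) * (((Ideal.absNorm I.1.1 : ℝ) ^ (-s) : ℝ) : ℂ)) = L c := by
    rw [hJ, inv_inv]
  have hwC : (Nat.card (Units.torsion F) : ℂ) = (w : ℂ) := by rw [hw]; push_cast; rfl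
  rw [hLc, hwC, ← hZ] at h
  have hNc := hN1 c
  set a : ℝ := N c ^ (-s) with ha
  have ha0 : 0 < a := Real.rpow_pos_of_pos (by linarith) _
  have key : L c - κ c * ((N c / w : ℝ) : ℂ) * (Z : ℂ)
      = ((a * w)⁻¹ : ℝ) * ((w : ℂ) * (a : ℂ) * L c - κ c * (Z : ℂ))
        + κ c * (((a * w)⁻¹ - N c / w : ℝ) : ℂ) * (Z : ℂ) := by
    have hac : (a : ℂ) ≠ 0 := Complex.ofReal_ne_zero.mpr ha0.ne'
    have hwc : (w : ℂ) ≠ 0 := Complex.ofReal_ne_zero.mpr hw0.ne'
    push_cast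
    field_simp
    ring
  have hinva : (a * w)⁻¹ = N c ^ s / w := by
    rw [ha, Real.rpow_neg (by linarith), mul_inv, inv_inv, ← div_eq_mul_inv]
  have hpow : N c ^ s ≤ N c ^ (3 : ℝ) := Real.rpow_le_rpow_of_exponent_le hNc (by linarith)
  have hdiff : |(a * w)⁻¹ - N c / w| ≤ (s - 1) * (N c ^ (3 : ℝ) / w) := by
    rw [hinva, ← sub_div, abs_div, abs_of_pos hw0, ← mul_div_assoc,
      div_le_div_iff_of_pos_right hw0, abs_of_nonneg
      (sub_nonneg.mpr (Real.self_le_rpow_of_one_le hNc hs.le))]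
    have h1 : N c = N c ^ s * Real.exp (-((s - 1) * Real.log (N c))) := by
      rw [Real.rpow_def_of_pos (by linarith), ← Real.exp_add,
        show Real.log (N c) * s + -((s - 1) * Real.log (N c)) = Real.log (N c) by ring,
        Real.exp_log (by linarith)]
    have h2 := Real.add_one_le_exp (-((s - 1) * Real.log (N c)))
    have h3 : N c ^ s * Real.log (N c) ≤ N c ^ (3 : ℝ) := by
      calc N c ^ s * Real.log (N c) ≤ N c ^ (2 : ℝ) * N c := by
            refine mul_le_mul (Real.rpow_le_rpow_of_exponent_le hNc hs2) ?_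
              (Real.log_nonneg hNc) (by positivity)
            linarith [Real.log_le_sub_one_of_pos (show 0 < N c by linarith)]
        _ = N c ^ (3 : ℝ) := by
            rw [← Real.rpow_add_one (by linarith)]; norm_num
    have hp : 0 ≤ N c ^ s := by positivity
    nlinarith [mul_le_mul_of_nonneg_left h2 hp,
      mul_le_mul_of_nonneg_left h3 (show 0 ≤ s - 1 by linarith)]
  rw [key]
  refine (norm_add_le _ _).trans ?_
  rw [norm_mul, norm_mul, norm_mul, Complex.norm_real, Complex.norm_real, Complex.norm_real,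
    Real.norm_eq_abs, Real.norm_eq_abs, Real.norm_of_nonneg hZ0,
    abs_of_pos (by positivity : 0 < (a * w)⁻¹)]
  have h1 : (a * w)⁻¹ * ‖(w : ℂ) * (a : ℂ) * L c - κ c * (Z : ℂ)‖
      ≤ N c ^ (3 : ℝ) / w * |C c| := by
    refine mul_le_mul ?_ (h.trans (le_abs_self _)) (norm_nonneg _) (by positivity)
    rw [hinva]
    exact div_le_div_of_nonneg_right hpow hw0.le
  have h2 : ‖κ c‖ * |(a * w)⁻¹ - N c / w| * Z ≤ ‖κ c‖ * ((s - 1) * (N c ^ (3 : ℝ) / w)) * Z :=
    mul_le_mul_of_nonneg_right (mul_le_mul_of_nonneg_left hdiff (norm_nonneg _)) hZ0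
  refine (add_le_add h1 h2).trans ?_
  have hX : 0 ≤ N c ^ (3 : ℝ) / w := by positivity
  have hs0 : 0 ≤ s - 1 := by linarith
  have h3 : 0 ≤ (N c ^ (3 : ℝ) / w) * |C c| * ((s - 1) * Z) :=
    mul_nonneg (mul_nonneg hX (abs_nonneg _)) (mul_nonneg hs0 hZ0)
  have h4 : 0 ≤ (N c ^ (3 : ℝ) / w) * ‖κ c‖ := mul_nonneg hX (norm_nonneg _)
  nlinarith

variable (F) in
/-- The Dedekind zeta function as a series over the non-zero ideals. -/
theorem dedekindZeta_eq_tsum {s : ℝ} (hs : 1 < s) (hs2 : s ≤ 2) :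
    ((∑' I : (Ideal (𝓞 F))⁰, (Ideal.absNorm I.1 : ℝ) ^ (-s) : ℝ) : ℂ) = dedekindZeta F s := by
  classical
  have hsum : Summable fun I : (Ideal (𝓞 F))⁰ => (Ideal.absNorm I.1 : ℝ) ^ (-s) := by
    obtain ⟨κ, C, h⟩ := exists_idealSeries_eq (F := F) onePeriodic (fun x => by simp [onePeriodic])
    exact (h s hs hs2).1
  let e := Equiv.sigmaFiberEquiv fun I : (Ideal (𝓞 F))⁰ => Ideal.absNorm I.1
  rw [dedekindZeta, LSeries, ← e.tsum_eq,
    Summable.tsum_sigma (f := fun x => (Ideal.absNorm (e x).1 : ℝ) ^ (-s))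
      (hsum.comp_injective e.injective), Complex.ofReal_tsum]
  refine tsum_congr fun n => ?_
  rcases Nat.eq_zero_or_pos n with rfl | hn
  · have : IsEmpty {I : (Ideal (𝓞 F))⁰ // Ideal.absNorm I.1 = 0} :=
      ⟨fun I => Ideal.absNorm_ne_zero_of_nonZeroDivisors I.1 I.2⟩
    simp
  · rw [LSeries.term_of_ne_zero hn.ne',
      tsum_congr (g := fun _ => (n : ℝ) ^ (-s)) fun I => by
        show (Ideal.absNorm I.1.1 : ℝ) ^ (-s) = (n : ℝ) ^ (-s)
        rw [I.2]]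
    let e2 : {I : (Ideal (𝓞 F))⁰ // Ideal.absNorm I.1 = n} ≃
        {I : Ideal (𝓞 F) // Ideal.absNorm I = n} :=
      { toFun := fun I => ⟨I.1.1, I.2⟩
        invFun := fun I => ⟨⟨I.1, Ideal.absNorm_ne_zero_iff_mem_nonZeroDivisors.mp
          (by rw [I.2]; exact hn.ne')⟩, I.2⟩
        left_inv := fun I => rfl
        right_inv := fun I => rfl }
    rw [tsum_const, Nat.card_congr e2, nsmul_eq_mul, Complex.ofReal_mul, Complex.ofReal_natCast,
      Complex.ofReal_cpow (Nat.cast_nonneg _)]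
    push_cast
    rw [Complex.cpow_neg, div_eq_mul_inv]

variable (F) in
/-- The dichotomy. -/
theorem idealSeries_dichotomy (ψ : EvenPeriodic) (hψ : ∀ x, ‖ψ.fn x‖ ≤ 1) :
    (∃ C : ℝ, ∀ᶠ s : ℝ in 𝓝[>] 1, ‖idealSeries F ψ s‖ ≤ C) ∨
      ∃ c : ℝ, 0 < c ∧ ∀ᶠ s : ℝ in 𝓝[>] 1, c / (s - 1) ≤ ‖idealSeries F ψ s‖ := by
  classical
  set ρ := dedekindZeta_residue F with hρ
  have hρ0 : 0 < ρ := dedekindZeta_residue_pos F
  have hI : ∀ᶠ s : ℝ in 𝓝[>] (1 : ℝ), 1 < s ∧ s ≤ 2 := by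
    filter_upwards [self_mem_nhdsWithin, nhdsWithin_le_nhds (Iic_mem_nhds one_lt_two)]
      with s h1 h2 using ⟨h1, h2⟩
  set ζ : ℝ → ℝ := fun s => ∑' I : (Ideal (𝓞 F))⁰, (Ideal.absNorm I.1 : ℝ) ^ (-s) with hζ
  have hres : Tendsto (fun s : ℝ => (s - 1) * ζ s) (𝓝[>] 1) (𝓝 ρ) := by
    have h := (Complex.continuous_re.tendsto _).comp (tendsto_sub_one_mul_dedekindZeta_nhdsGT F)
    rw [Complex.ofReal_re] at h
    refine h.congr' ?_
    filter_upwards [hI] with s hs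
    simp [Function.comp_apply, hζ, ← dedekindZeta_eq_tsum F hs.1 hs.2]
  -- `Z` is comparable to the zeta function
  obtain ⟨κ₁, C₁, h₁⟩ := exists_idealSeries_eq (F := F) onePeriodic (fun x => by simp [onePeriodic])
  set Z : ℝ → ℝ := fun s => ∑' α : 𝓞 F, gFun s (α : F) with hZ
  have hZ0 : ∀ s, 0 ≤ Z s := fun s => tsum_nonneg fun _ => gFun_nonneg _ _
  set w : ℝ := (Nat.card (Units.torsion F) : ℝ) with hw
  have hupper : ∀ᶠ s : ℝ in 𝓝[>] 1, Z s ≤ w * ζ s := by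
    filter_upwards [hI] with s hs
    have hsum := summable_gFun (F := F) hs.1 hs.2
    have hζs := (h₁ s hs.1 hs.2).1
    let P := {x : 𝓞 F // x ≠ 0}
    let span : P → (Ideal (𝓞 F))⁰ := fun x =>
      ⟨Ideal.span {x.1}, mem_nonZeroDivisors_of_ne_zero
        (by simpa [Ideal.span_singleton_eq_bot] using x.2)⟩
    have hP : Z s = ∑' x : P, gFun s (x.1 : F) := by
      refine (Function.Injective.tsum_eq Subtype.val_injective fun α hα => ?_).symm
      refine ⟨⟨α, fun h => hα ?_⟩, rfl⟩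
      simp [h, gFun, weight_zero]
    let e := Equiv.sigmaFiberEquiv span
    have hPs : Summable fun x : P => gFun s (x.1 : F) :=
      hsum.comp_injective Subtype.val_injective
    have hes := hPs.comp_injective e.injective
    rw [hP, ← e.tsum_eq, Summable.tsum_sigma (f := fun y => gFun s ((e y).1 : F)) hes, hζ,
      ← tsum_mul_left]
    refine Summable.tsum_le_tsum (fun I => ?_) hes.sigma (hζs.mul_left _)
    rcases isEmpty_or_nonempty {x : P // span x = I} with hE | ⟨⟨⟨x, hx⟩, hxI⟩⟩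
    · rw [tsum_empty]; positivity
    let φ : (𝓞 F)ˣ → {y : P // span y = I} := fun u =>
      ⟨⟨x * u, mul_ne_zero hx u.ne_zero⟩, by
        rw [← hxI]; exact Subtype.ext (Ideal.span_singleton_mul_right_unit u.isUnit x)⟩
    have hφ : Function.Bijective φ := by
      constructor
      · intro u v huv
        exact Units.ext (mul_left_cancel₀ hx (congrArg (fun y => y.1.1) huv))
      · rintro ⟨⟨y, hy⟩, hyI⟩
        have : Ideal.span {x} = Ideal.span {y} :=
          (congrArg Subtype.val hxI).trans (congrArg Subtype.val hyI).symm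
        obtain ⟨u, hu⟩ := Ideal.span_singleton_eq_span_singleton.mp this
        exact ⟨u, Subtype.ext (Subtype.ext hu)⟩
    refine le_of_eq ?_
    rw [← (Equiv.ofBijective φ hφ).tsum_eq]
    have hN : ∀ u : (𝓞 F)ˣ, |((Algebra.norm ℚ ((x * u : 𝓞 F) : F) : ℚ) : ℝ)|
        = (Ideal.absNorm I.1 : ℝ) := by
      intro u
      rw [← absNorm_span_eq, Ideal.span_singleton_mul_right_unit u.isUnit, ← hxI]
    have hterm : ∀ u : (𝓞 F)ˣ, gFun s (((Equiv.ofBijective φ hφ u).1.1 : 𝓞 F) : F)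
        = weight ((x : F) * ((u : 𝓞 F) : F)) * (Ideal.absNorm I.1 : ℝ) ^ (-s) := by
      intro u
      show gFun s ((x * u : 𝓞 F) : F) = _
      rw [gFun, hN]
      push_cast
      rfl
    show ∑' u : (𝓞 F)ˣ, gFun s (((Equiv.ofBijective φ hφ u).1.1 : 𝓞 F) : F) = _
    rw [tsum_congr hterm, tsum_mul_right, (hasSum_weight_units
      (fun h => hx (RingOfIntegers.coe_injective (by simpa using h)))).tsum_eq]
  obtain ⟨B, hB⟩ : ∃ B : ℝ, ∀ᶠ s : ℝ in 𝓝[>] 1, (s - 1) * Z s ≤ B := by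
    refine ⟨w * (ρ + 1), ?_⟩
    filter_upwards [hupper, hI, hres.eventually (Iic_mem_nhds (lt_add_one ρ))] with s h hs hle
    calc (s - 1) * Z s ≤ (s - 1) * (w * ζ s) :=
          mul_le_mul_of_nonneg_left h (by linarith [hs.1])
      _ = w * ((s - 1) * ζ s) := by ring
      _ ≤ w * (ρ + 1) := mul_le_mul_of_nonneg_left hle (Nat.cast_nonneg _)
  have hlin : ∀ D : ℝ, Tendsto (fun s : ℝ => (s - 1) * D) (𝓝[>] 1) (𝓝 0) := fun D =>
    tendsto_nhdsWithin_of_tendsto_nhds (Continuous.tendsto' (by fun_prop) _ _ (by simp))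
  have hlower : ∃ c : ℝ, 0 < c ∧ ∀ᶠ s : ℝ in 𝓝[>] 1, c / (s - 1) ≤ Z s := by
    refine ⟨ρ / (2 * (‖κ₁‖ + 1)), by positivity, ?_⟩
    set D := |C₁| * (1 + B) with hD
    have hD' : ∀ᶠ s : ℝ in 𝓝[>] (1 : ℝ), (s - 1) * D ≤ ρ / 4 := by
      exact (hlin D).eventually (Iic_mem_nhds (by positivity))
    filter_upwards [hI, hB, hres.eventually (Ici_mem_nhds (show 3 * ρ / 4 < ρ by linarith)), hD']
      with s hs hBs hlo hDs
    obtain ⟨-, hb⟩ := h₁ s hs.1 hs.2
    have hser : idealSeries F onePeriodic s = (ζ s : ℂ) := by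
      simp [idealSeries, onePeriodic, hζ, Complex.ofReal_tsum]
    rw [hser] at hb
    have hb' : ζ s ≤ ‖κ₁‖ * Z s + D := by
      have hζ0 : 0 ≤ ζ s := tsum_nonneg fun _ => by positivity
      have h5 : ζ s = ‖(ζ s : ℂ)‖ := by rw [Complex.norm_real, Real.norm_of_nonneg hζ0]
      have h6 := norm_le_norm_add_norm_sub' (ζ s : ℂ) (κ₁ * (Z s : ℂ))
      rw [norm_mul, Complex.norm_real, Complex.norm_real, Real.norm_of_nonneg hζ0,
        Real.norm_of_nonneg (hZ0 s)] at h6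
      have h7 : C₁ * (1 + (s - 1) * Z s) ≤ D := by
        have h0 : 0 ≤ 1 + (s - 1) * Z s := by
          have := mul_nonneg (show (0 : ℝ) ≤ s - 1 by linarith [hs.1]) (hZ0 s)
          linarith
        exact mul_le_mul (le_abs_self _) (by linarith) h0 (abs_nonneg _)
      linarith
    have hs1 : 0 < s - 1 := by linarith [hs.1]
    rw [div_le_iff₀ hs1, div_le_iff₀ (by positivity)]
    nlinarith [mul_le_mul_of_nonneg_left hb' hs1.le, hZ0 s,
      mul_nonneg hs1.le (hZ0 s), norm_nonneg κ₁]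
  obtain ⟨κ, C, h⟩ := exists_idealSeries_eq (F := F) ψ hψ
  set D := |C| * (1 + B) with hD
  have herr : ∀ᶠ s : ℝ in 𝓝[>] 1, ‖idealSeries F ψ s - κ * (Z s : ℂ)‖ ≤ D := by
    filter_upwards [hI, hB] with s hs hBs
    refine (h s hs.1 hs.2).2.trans ?_
    have h0 : 0 ≤ 1 + (s - 1) * Z s := by
      have := mul_nonneg (show (0 : ℝ) ≤ s - 1 by linarith [hs.1]) (hZ0 s)
      linarith
    exact mul_le_mul (le_abs_self _) (by linarith) h0 (abs_nonneg _)
  by_cases hκ0 : κ = 0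
  · left
    exact ⟨D, herr.mono fun s hs => by simpa [hκ0] using hs⟩
  · right
    obtain ⟨c, hc, hZc⟩ := hlower
    have hκ' : 0 < ‖κ‖ := norm_pos_iff.mpr hκ0
    refine ⟨‖κ‖ * c / 2, by positivity, ?_⟩
    have hsmall : ∀ᶠ s : ℝ in 𝓝[>] (1 : ℝ), (s - 1) * D ≤ ‖κ‖ * c / 2 := by
      exact (hlin D).eventually (Iic_mem_nhds (by positivity))
    filter_upwards [hI, herr, hZc, hsmall] with s hs he hz hsm
    have hs1 : 0 < s - 1 := by linarith [hs.1]
    have h6 := norm_le_norm_add_norm_sub' (κ * (Z s : ℂ)) (idealSeries F ψ s)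
    rw [norm_mul, Complex.norm_real, Real.norm_of_nonneg (hZ0 s), norm_sub_rev] at h6
    rw [div_le_iff₀ hs1] at hz ⊢
    nlinarith [mul_le_mul_of_nonneg_left hz hκ'.le]

end Fermat.Agent.ChebotarevFull
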