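import Fermat.Agent.Chebotarev.Density
import Fermat.Agent.ChebotarevFull.IdealSeries
import Fermat.Agent.ChebotarevFull.Euler

/-!
# Crossing with a character

`M/ℚ` is Galois with group `𝔊`, `χ : 𝔊 → H` is a homomorphism to a finite abelian group all of
whose characters are, on Frobenius elements, even periodic functions of the prime.  Then for a
subgroup `U` and `h ∈ χ U` the Frobenius elements in conjugates of `U` with `χ = h^{±1}` have
density `2 #(U ∩ ker χ) / #𝔊`.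
-/

set_option autoImplicit false

open Filter Topology Asymptotics NumberField
open scoped nonZeroDivisors

namespace Fermat.Agent.ChebotarevFull

open Fermat.Agent.Chebotarev

/-- `∑_p f(p) p^(-s)`. -/
noncomputable def sumP (f : Nat.Primes → ℝ) (s : ℝ) : ℝ :=
  ∑' p : Nat.Primes, f p * (p : ℝ) ^ (-s)

/-- `log (1/(s-1))`. -/
noncomputable def logPole (s : ℝ) : ℝ := Real.log (s - 1)⁻¹

/-- `log (1/(s-1))` tends to infinity as `s → 1⁺`. -/
lemma tendsto_logPole : Tendsto logPole (𝓝[>] (1 : ℝ)) atTop := by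
  refine Real.tendsto_log_atTop.comp (tendsto_inv_nhdsGT_zero.comp ?_)
  refine tendsto_nhdsWithin_iff.mpr ⟨?_, ?_⟩
  · exact tendsto_nhdsWithin_of_tendsto_nhds (Continuous.tendsto' (by fun_prop) _ _ (sub_self 1))
  · filter_upwards [self_mem_nhdsWithin] with s hs
    exact sub_pos.mpr (show (1 : ℝ) < s from hs)

/-- A bounded prime series converges for `s > 1`. -/
lemma summable_sumP {f : Nat.Primes → ℝ} {B : ℝ} (hf : ∀ p, |f p| ≤ B) {s : ℝ} (hs : 1 < s) :
    Summable fun p : Nat.Primes => f p * (p : ℝ) ^ (-s) := by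
  refine Summable.of_norm_bounded
    ((Nat.Primes.summable_rpow.mpr (neg_lt_neg hs)).mul_left B) fun p => ?_
  rw [norm_mul, Real.norm_eq_abs, Real.norm_of_nonneg (by positivity)]
  exact mul_le_mul_of_nonneg_right (hf p) (by positivity)

lemma sumP_mono {f g : Nat.Primes → ℝ} {B B' : ℝ} (hf : ∀ p, |f p| ≤ B) (hg : ∀ p, |g p| ≤ B')
    (h : ∀ p, f p ≤ g p) {s : ℝ} (hs : 1 < s) : sumP f s ≤ sumP g s :=
  Summable.tsum_le_tsum (fun p => mul_le_mul_of_nonneg_right (h p) (by positivity))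
    (summable_sumP hf hs) (summable_sumP hg hs)

lemma sumP_finsetSum {ι : Type*} (t : Finset ι) (a : ι → ℝ) (f : ι → Nat.Primes → ℝ)
    (B : ι → ℝ) (hf : ∀ i p, |f i p| ≤ B i) {s : ℝ} (hs : 1 < s) :
    sumP (fun p => ∑ i ∈ t, a i * f i p) s = ∑ i ∈ t, a i * sumP (f i) s := by
  simp only [sumP, ← tsum_mul_left]
  rw [← Summable.tsum_finsetSum fun i _ => (summable_sumP (hf i) hs).mul_left (a i)]
  exact tsum_congr fun p => by rw [Finset.sum_mul]; simp only [mul_assoc]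

lemma sumP_const_mul (a : ℝ) (f : Nat.Primes → ℝ) (s : ℝ) :
    sumP (fun p => a * f p) s = a * sumP f s := by
  simp only [sumP, ← tsum_mul_left, mul_assoc]

lemma sumP_add {f g : Nat.Primes → ℝ} {B B' : ℝ} (hf : ∀ p, |f p| ≤ B) (hg : ∀ p, |g p| ≤ B')
    {s : ℝ} (hs : 1 < s) : sumP (fun p => f p + g p) s = sumP f s + sumP g s := by
  simp only [sumP, add_mul]
  exact (summable_sumP hf hs).tsum_add (summable_sumP hg hs)

lemma isBigO_sumP_sub {f g : Nat.Primes → ℝ} {B B' : ℝ} (hf : ∀ p, |f p| ≤ B)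
    (hg : ∀ p, |g p| ≤ B') (T : Finset Nat.Primes) (h : ∀ p ∉ T, f p = g p) :
    (fun s => sumP f s - sumP g s) =O[𝓝[>] (1 : ℝ)] fun _ => (1 : ℝ) := by
  refine IsBigO.of_bound (∑ p ∈ T, |f p - g p|) ?_
  filter_upwards [self_mem_nhdsWithin] with s hs
  have hs' : (1 : ℝ) < s := hs
  rw [norm_one, mul_one, Real.norm_eq_abs, sumP, sumP,
    ← (summable_sumP hf hs').tsum_sub (summable_sumP hg hs'),
    tsum_eq_sum (s := T) fun p hp => by rw [h p hp, sub_self]]
  refine (Finset.abs_sum_le_sum_abs _ _).trans (Finset.sum_le_sum fun p _ => ?_)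
  rw [← sub_mul, abs_mul]
  refine mul_le_of_le_one_right (abs_nonneg _) ?_
  rw [abs_of_nonneg (by positivity)]
  exact Real.rpow_le_one_of_one_le_of_nonpos (by exact_mod_cast p.2.one_le) (by linarith)

lemma le_zero_of_mul_logPole_le {a C : ℝ} (h : ∀ᶠ s in 𝓝[>] (1 : ℝ), a * logPole s ≤ C) :
    a ≤ 0 := by
  by_contra! ha
  obtain ⟨s, h1, h2⟩ :=
    (h.and ((tendsto_logPole.const_mul_atTop ha).eventually_gt_atTop C)).exists
  exact absurd h1 (not_le.mpr h2)

/-- The trivial twist of `idealSeries`. -/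
lemma idealSeries_eq_twistSum {F : Type*} [Field F] [NumberField F] (Ψ : EvenPeriodic)
    (c : ℕ →* ℂ) (h : ∀ n : ℕ, Ψ.fn n = c n) (s : ℝ) : idealSeries F Ψ s = twistSum F c s := by
  let e : (Ideal (𝓞 F))⁰ ≃ {I : Ideal (𝓞 F) // I ≠ ⊥} :=
    Equiv.subtypeEquivRight fun I => mem_nonZeroDivisors_iff_ne_zero
  rw [idealSeries, twistSum, ← e.tsum_eq]
  exact tsum_congr fun I => by rw [h]; rfl

section characters

variable {H : Type*} [CommGroup H] [Finite H]

lemma norm_char_eq_one (ψ : H →* ℂˣ) (h : H) : ‖(ψ h : ℂ)‖ = 1 := by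
  refine Complex.norm_eq_one_of_pow_eq_one (n := Nat.card H) ?_ Nat.card_pos.ne'
  rw [← Units.val_pow_eq_pow_val, ← map_pow, pow_card_eq_one', map_one, Units.val_one]

lemma re_char_le_one (ψ : H →* ℂˣ) (h : H) : |(ψ h : ℂ).re| ≤ 1 :=
  (Complex.abs_re_le_norm _).trans (norm_char_eq_one ψ h).le

lemma exists_re_char_le (ψ : H →* ℂˣ) :
    ∃ δ : ℝ, 0 < δ ∧ ∀ h, ψ h ≠ 1 → (ψ h : ℂ).re ≤ 1 - δ := by
  classical
  have := Fintype.ofFinite H
  by_cases hne : (Finset.univ.filter fun h => ψ h ≠ 1).Nonempty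
  · obtain ⟨h₀, hh₀, hmax⟩ := Finset.exists_max_image _ (fun h => (ψ h : ℂ).re) hne
    refine ⟨1 - (ψ h₀ : ℂ).re, sub_pos.mpr ?_, fun h hh => ?_⟩
    · refine lt_of_le_of_ne ((le_abs_self _).trans (re_char_le_one ψ h₀)) fun he => ?_
      refine (Finset.mem_filter.mp hh₀).2 (Units.ext ?_)
      have h1 := norm_char_eq_one ψ h₀
      have h2 : ((ψ h₀ : ℂ).re) ^ 2 + ((ψ h₀ : ℂ).im) ^ 2 = 1 := by
        have := Complex.sq_norm (ψ h₀ : ℂ)
        rw [h1, Complex.normSq_apply] at this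
        nlinarith
      have him : (ψ h₀ : ℂ).im = 0 := by rw [he] at h2; nlinarith
      exact Complex.ext he him
    · linarith [hmax h (by simp [hh])]
  · exact ⟨1, one_pos, fun h hh => absurd ⟨h, by simp [hh]⟩ hne⟩

lemma card_char : Nat.card (H →* ℂˣ) = Nat.card H := by
  obtain ⟨e⟩ := CommGroup.monoidHom_mulEquiv_of_hasEnoughRootsOfUnity H ℂ
  exact Nat.card_congr e.toEquiv

variable [Fintype (H →* ℂˣ)] [DecidableEq H]

lemma sum_char_apply (h : H) :
    ∑ ψ : H →* ℂˣ, (ψ h : ℂ) = if h = 1 then (Nat.card H : ℂ) else 0 := by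
  split_ifs with hh
  · subst hh
    simp only [map_one, Units.val_one, Finset.sum_const, Finset.card_univ, nsmul_eq_mul, mul_one]
    rw [← card_char, Nat.card_eq_fintype_card]
  · obtain ⟨ψ₀, hψ₀⟩ := CommGroup.exists_apply_ne_one_of_hasEnoughRootsOfUnity H ℂ hh
    have key : (ψ₀ h : ℂ) * ∑ ψ : H →* ℂˣ, (ψ h : ℂ) = ∑ ψ : H →* ℂˣ, (ψ h : ℂ) := by
      rw [Finset.mul_sum]
      exact Fintype.sum_equiv (Equiv.mulLeft ψ₀) _ _ fun ψ => by simp
    have h0 : ((ψ₀ h : ℂ) - 1) * ∑ ψ : H →* ℂˣ, (ψ h : ℂ) = 0 := by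
      rw [sub_mul, key, one_mul, sub_self]
    exact (mul_eq_zero.mp h0).resolve_left (sub_ne_zero.mpr fun he => hψ₀ (Units.ext he))

lemma sum_re_char (h : H) :
    ∑ ψ : H →* ℂˣ, (ψ h : ℂ).re = if h = 1 then (Nat.card H : ℝ) else 0 := by
  rw [← Complex.re_sum, sum_char_apply]
  split_ifs <;> simp

lemma sum_re_mul_re_char (h t : H) :
    ∑ ψ : H →* ℂˣ, (ψ h : ℂ).re * (ψ t : ℂ).re =
      (Nat.card H : ℝ) / 2 * ((if t = h then (1 : ℝ) else 0) + if t = h⁻¹ then 1 else 0) := by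
  have hp : ∀ ψ : H →* ℂˣ, (ψ h : ℂ).re * (ψ t : ℂ).re =
      ((ψ (h * t) : ℂ).re + (ψ (h⁻¹ * t) : ℂ).re) / 2 := fun ψ => by
    have hc : (ψ h⁻¹ : ℂ) = (starRingEnd ℂ) (ψ h : ℂ) := by
      rw [map_inv, Units.val_inv_eq_inv_val, Complex.inv_eq_conj (norm_char_eq_one ψ h)]
    rw [map_mul, map_mul, Units.val_mul, Units.val_mul, hc]
    simp only [Complex.mul_re, Complex.conj_re, Complex.conj_im]
    ring
  simp only [hp, ← Finset.sum_div, Finset.sum_add_distrib, sum_re_char]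
  have e1 : (h * t = 1) ↔ t = h⁻¹ := by rw [mul_eq_one_iff_eq_inv', eq_comm]
  have e2 : (h⁻¹ * t = 1) ↔ t = h := by rw [inv_mul_eq_one, eq_comm]
  simp only [e1, e2]
  split_ifs <;> ring

end characters

section crossing

variable (M : Type*) [Field M] [NumberField M] [IsGalois ℚ M]

/-- `#{x | x φ_p x⁻¹ ∈ U}`. -/
noncomputable def conjCount (U : Subgroup (M ≃ₐ[ℚ] M)) (p : Nat.Primes) : ℝ :=
  Nat.card {x : M ≃ₐ[ℚ] M // x * someFrob M p * x⁻¹ ∈ U}

lemma conjCount_nonneg (U : Subgroup (M ≃ₐ[ℚ] M)) (p : Nat.Primes) : 0 ≤ conjCount M U p :=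
  Nat.cast_nonneg _

lemma abs_conjCount_le (U : Subgroup (M ≃ₐ[ℚ] M)) (p : Nat.Primes) :
    |conjCount M U p| ≤ Nat.card (M ≃ₐ[ℚ] M) := by
  rw [abs_of_nonneg (conjCount_nonneg M U p)]
  exact Nat.cast_le.mpr (Nat.card_le_card_of_injective Subtype.val Subtype.val_injective)

lemma abs_mul_conjCount_le (U : Subgroup (M ≃ₐ[ℚ] M)) {a : ℝ} (ha : |a| ≤ 1) (p : Nat.Primes) :
    |a * conjCount M U p| ≤ Nat.card (M ≃ₐ[ℚ] M) := by
  rw [abs_mul]
  exact (mul_le_of_le_one_left (abs_nonneg _) ha).trans (abs_conjCount_le M U p)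

/-- Twisted degree one sums in the language of conjugates. -/
lemma isBigO_sumP_conjCount_sub (U : Subgroup (M ≃ₐ[ℚ] M)) (w : Nat.Primes → ℝ)
    (hw : ∀ p, |w p| ≤ 1) (w' : Nat.Primes → ℝ) (hw' : ∀ p, |w' p| ≤ 1)
    (T₀ : Finset Nat.Primes) (hww : ∀ p ∉ T₀, w p = w' p) :
    (fun s => sumP (fun p => w p * conjCount M U p) s - (Nat.card U : ℝ) *
        ∑' p : Nat.Primes, w' p * ((degOneCount (IntermediateField.fixedField U) p : ℝ) *
          (p : ℝ) ^ (-s))) =O[𝓝[>] (1 : ℝ)] fun _ => (1 : ℝ) := by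
  classical
  have := smulCommClass_fixedField M U
  have := isInvariant_fixedField M U
  have := faithfulSMul_ringOfIntegers M
  set F := IntermediateField.fixedField U
  obtain ⟨d, hd, hgood⟩ := exists_ne_zero_inertia_eq_bot (B := 𝓞 M) (G := M ≃ₐ[ℚ] M)
  let g : Nat.Primes → ℝ := fun p => (Nat.card U : ℝ) * (w' p * (degOneCount F p : ℝ))
  have hg : ∀ p, |g p| ≤ (Nat.card U : ℝ) * (Module.finrank ℤ (𝓞 F) : ℝ) := fun p => by
    simp only [g]
    rw [abs_mul, abs_mul, Nat.abs_cast, Nat.abs_cast]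
    refine mul_le_mul_of_nonneg_left ((mul_le_of_le_one_left (by positivity) (hw' p)).trans ?_)
      (Nat.cast_nonneg _)
    exact Nat.cast_le.mpr (degOneCount_le F p)
  have hmain := isBigO_sumP_sub (fun p => abs_mul_conjCount_le M U (hw p) p) hg
    (show Finset Nat.Primes from T₀ ∪ (((Nat.divisors d).filter Nat.Prime).subtype Nat.Prime : Finset Nat.Primes)) (fun p hp => by
      replace hp : p ∉ T₀ ∧ p ∉ (((Nat.divisors d).filter Nat.Prime).subtype Nat.Prime : Finset Nat.Primes) :=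
        ⟨fun h => hp (Finset.mem_union_left _ h), fun h => hp (Finset.mem_union_right _ h)⟩
      have hpd : ¬ (p : ℕ) ∣ d := fun h => hp.2 (Finset.mem_subtype.mpr
        (Finset.mem_filter.mpr ⟨Nat.mem_divisors.mpr ⟨h, hd⟩, p.2⟩))
      have hQ := (exists_prime_isFrobMod M p).choose_spec.choose_spec
      have : (exists_prime_isFrobMod M p).choose.IsPrime := hQ.1
      have : Fact (p : ℕ).Prime := ⟨p.2⟩
      have key : Nat.card {x : M ≃ₐ[ℚ] M // x * someFrob M p * x⁻¹ ∈ U} =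
          Nat.card U * degOneCount F p := by
        refine card_conj_mem_eq U ?_ hQ.2.1 (fun Q' hQ' hu => ?_) (hgood p p.2 hpd) hQ.2.2
        · exact FaithfulSMul.algebraMap_injective _ _
        · refine Ideal.finiteQuotientOfFreeOfNeBot Q' fun h => p.2.ne_zero ?_
          rw [h, Ideal.under_def,
            Ideal.comap_bot_of_injective _ (algebraMap ℤ (𝓞 M)).injective_int,
            eq_comm, Ideal.span_singleton_eq_bot] at hu
          exact_mod_cast hu
      simp only [g, conjCount, key, hww p hp.1]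
      push_cast
      ring)
  refine hmain.congr_left fun s => ?_
  simp only [sumP, g, ← tsum_mul_left, mul_assoc]

/-- `∑_p #{x | x φ_p x⁻¹ ∈ U} p^(-s) = #U log (1/(s-1)) + O(1)`. -/
lemma sumP_conjCount_isBigO (U : Subgroup (M ≃ₐ[ℚ] M)) :
    (fun s => sumP (conjCount M U) s - (Nat.card U : ℝ) * logPole s) =O[𝓝[>] (1 : ℝ)]
      fun _ => (1 : ℝ) := by
  have h := isBigO_sumP_conjCount_sub M U (fun _ => 1) (fun _ => by simp) (fun _ => 1)
    (fun _ => by simp) ∅ fun _ _ => rfl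
  refine (h.add ((degOneSum_isBigO (IntermediateField.fixedField U)).const_mul_left
    (Nat.card U : ℝ))).congr_left fun s => ?_
  simp only [one_mul, logPole, degOneSum]
  ring

variable {H : Type*} [CommGroup H] [Finite H] (χ : (M ≃ₐ[ℚ] M) →* H)

/-- Characters of `H` are even periodic functions on primes. -/
def IsPeriodicChar : Prop :=
  ∀ ψ : H →* ℂˣ, ∃ (Ψ : EvenPeriodic) (c : ℕ →* ℂ) (T : Finset Nat.Primes),
    (∀ x, ‖Ψ.fn x‖ ≤ 1) ∧ (∀ n : ℕ, Ψ.fn n = c n) ∧
      ∀ p ∉ T, c p = (ψ (χ (someFrob M p)) : ℂ)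

omit [IsGalois ℚ M] [Finite H] in
lemma map_conj (x y : M ≃ₐ[ℚ] M) : χ (x * y * x⁻¹) = χ y := by
  rw [map_mul, map_mul, map_inv, mul_right_comm, mul_inv_cancel, one_mul]

lemma conjCount_inf_ker (U : Subgroup (M ≃ₐ[ℚ] M)) {K : Type*} [CommGroup K]
    (φ : (M ≃ₐ[ℚ] M) →* K) (p : Nat.Primes) [Decidable (φ (someFrob M p) = 1)] :
    conjCount M (U ⊓ φ.ker) p =
      if φ (someFrob M p) = 1 then conjCount M U p else 0 := by
  have hφ : ∀ x : M ≃ₐ[ℚ] M, φ (x * someFrob M p * x⁻¹) = φ (someFrob M p) := fun x =>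
    map_conj M φ x _
  split_ifs with h
  · unfold conjCount
    congr 1
    refine Nat.card_congr (Equiv.subtypeEquivRight fun x => ?_)
    rw [Subgroup.mem_inf, MonoidHom.mem_ker, hφ]
    exact and_iff_left h
  · unfold conjCount
    have : IsEmpty {x : M ≃ₐ[ℚ] M // x * someFrob M p * x⁻¹ ∈ U ⊓ φ.ker} :=
      ⟨fun x => h ((hφ x.1).symm.trans x.2.2)⟩
    rw [Nat.card_of_isEmpty, Nat.cast_zero]

/-- `∑_p Re ψ(χ φ_p) #{x | x φ_p x⁻¹ ∈ U} p^(-s)`. -/
noncomputable def charSum (U : Subgroup (M ≃ₐ[ℚ] M)) (ψ : H →* ℂˣ) : ℝ → ℝ :=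
  sumP fun p => (ψ (χ (someFrob M p)) : ℂ).re * conjCount M U p

omit [Finite H] in
lemma charSum_of_trivial (U : Subgroup (M ≃ₐ[ℚ] M)) (ψ : H →* ℂˣ) (hψ : ∀ u ∈ U, ψ (χ u) = 1)
    (s : ℝ) : charSum M χ U ψ s = sumP (conjCount M U) s := by
  refine congrFun (congrArg sumP (funext fun p => ?_)) s
  by_cases h : conjCount M U p = 0
  · rw [h, mul_zero]
  · obtain ⟨⟨x, hx⟩⟩ := (Nat.card_ne_zero.mp fun h0 => h (by
      unfold conjCount; rw [h0, Nat.cast_zero])).1
    have := hψ _ hx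
    rw [map_conj] at this
    rw [this, Units.val_one, Complex.one_re, one_mul]

/-- For a character which is non-trivial on `U` the sum is bounded above. -/
lemma charSum_le (hper : IsPeriodicChar M χ) (U : Subgroup (M ≃ₐ[ℚ] M)) (ψ : H →* ℂˣ)
    (hψ : ∃ u ∈ U, ψ (χ u) ≠ 1) :
    ∃ C, ∀ᶠ s in 𝓝[>] (1 : ℝ), charSum M χ U ψ s ≤ C := by
  classical
  obtain ⟨Ψ, c, T, hΨ, hΨc, hcp⟩ := hper ψ
  set F := IntermediateField.fixedField U
  have hc : ∀ n, ‖c n‖ ≤ 1 := fun n => hΨc n ▸ hΨ n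
  obtain ⟨C₁, hC₁⟩ := (isBigO_sumP_conjCount_sub M U
    (fun p => (ψ (χ (someFrob M p)) : ℂ).re) (fun p => re_char_le_one ψ _)
    (fun p => (c p).re) (fun p => abs_re_c_le hc _) T fun p hp => by rw [hcp p hp]).bound
  have hT : ∀ᶠ s in 𝓝[>] (1 : ℝ),
      |charSum M χ U ψ s - (Nat.card U : ℝ) * twistPrimeSum F c s| ≤ C₁ := by
    filter_upwards [hC₁] with s hs
    rw [norm_one, mul_one, Real.norm_eq_abs] at hs
    exact hs
  set K := 2 * secondOrderBound F + 2
  have hU0 : (0 : ℝ) ≤ Nat.card U := Nat.cast_nonneg _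
  rcases idealSeries_dichotomy F Ψ hΨ with ⟨C, hC⟩ | ⟨c₀, hc₀, hlow⟩
  · refine ⟨C₁ + (Nat.card U : ℝ) * (Real.log (max C 1) + K), ?_⟩
    filter_upwards [hT, hC, self_mem_nhdsWithin] with s hs hle hs1
    rw [idealSeries_eq_twistSum Ψ c hΨc] at hle
    have h1 : twistPrimeSum F c s - K ≤ Real.log (max C 1) :=
      (Real.le_log_iff_exp_le (by positivity)).mpr
        (((norm_twistSum_bounds hc hs1).1).trans (hle.trans (le_max_left _ _)))
    have := mul_le_mul_of_nonneg_left (sub_le_iff_le_add.mp h1) hU0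
    linarith [(abs_le.mp hs).2]
  · exfalso
    let U₀ := U ⊓ (ψ.comp χ).ker
    obtain ⟨δ, hδ, hδle⟩ := exists_re_char_le ψ
    have hlt : Nat.card U₀ < Nat.card U := by
      refine lt_of_le_of_ne (Subgroup.card_le_of_le inf_le_left) fun he => ?_
      obtain ⟨u, hu, hu1⟩ := hψ
      have heq : U₀ = U := Subgroup.eq_of_le_of_card_ge inf_le_left he.ge
      exact hu1 (MonoidHom.mem_ker.mp (heq.symm ▸ hu : u ∈ U₀).2)
    obtain ⟨C₂, hC₂⟩ := (sumP_conjCount_isBigO M U).bound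
    obtain ⟨C₃, hC₃⟩ := (sumP_conjCount_isBigO M U₀).bound
    have key : ∀ᶠ s in 𝓝[>] (1 : ℝ),
        δ * ((Nat.card U : ℝ) - Nat.card U₀) * logPole s ≤
          C₁ + (Nat.card U : ℝ) * (K - Real.log c₀) + |1 - δ| * C₂ + δ * C₃ := by
      filter_upwards [hT, hlow, self_mem_nhdsWithin, hC₂, hC₃] with s hs hl hs1 h2 h3
      rw [norm_one, mul_one, Real.norm_eq_abs] at h2 h3
      rw [idealSeries_eq_twistSum Ψ c hΨc] at hl
      have hs' : (1 : ℝ) < s := hs1
      have hlog : Real.log c₀ + logPole s ≤ twistPrimeSum F c s + K := by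
        rw [logPole, ← Real.log_mul hc₀.ne' (inv_ne_zero (sub_ne_zero.mpr hs'.ne')),
          ← div_eq_mul_inv, Real.log_le_iff_le_exp (div_pos hc₀ (by linarith))]
        exact hl.trans (norm_twistSum_bounds hc hs').2
      have hup : charSum M χ U ψ s ≤
          (1 - δ) * sumP (conjCount M U) s + δ * sumP (conjCount M U₀) s := by
        rw [charSum, ← sumP_const_mul, ← sumP_const_mul,
          ← sumP_add (B := |1 - δ| * Nat.card (M ≃ₐ[ℚ] M)) (B' := |δ| * Nat.card (M ≃ₐ[ℚ] M))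
            (fun p => (abs_mul _ _).trans_le
              (mul_le_mul_of_nonneg_left (abs_conjCount_le M U p) (abs_nonneg _)))
            (fun p => (abs_mul _ _).trans_le
              (mul_le_mul_of_nonneg_left (abs_conjCount_le M U₀ p) (abs_nonneg _))) hs']
        refine sumP_mono (fun p => abs_mul_conjCount_le M U (re_char_le_one ψ _) p)
          (B' := (|1 - δ| + |δ|) * Nat.card (M ≃ₐ[ℚ] M)) (fun p => ?_) (fun p => ?_) hs'
        · refine (abs_add_le _ _).trans ?_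
          rw [abs_mul, abs_mul, add_mul]
          exact add_le_add (mul_le_mul_of_nonneg_left (abs_conjCount_le M U p) (abs_nonneg _))
            (mul_le_mul_of_nonneg_left (abs_conjCount_le M U₀ p) (abs_nonneg _))
        · rw [show conjCount M U₀ p =
              if (ψ.comp χ) (someFrob M p) = 1 then conjCount M U p else 0 from
              conjCount_inf_ker M U (ψ.comp χ) p]
          rw [MonoidHom.comp_apply]
          split_ifs with h
          · rw [h, Units.val_one, Complex.one_re]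
            exact le_of_eq (by ring)
          · rw [mul_zero, add_zero]
            exact mul_le_mul_of_nonneg_right (hδle _ h) (conjCount_nonneg M U p)
      have a1 : (1 - δ) * sumP (conjCount M U) s ≤
          (1 - δ) * ((Nat.card U : ℝ) * logPole s) + |1 - δ| * C₂ := by
        have h7 := le_abs_self ((1 - δ) * (sumP (conjCount M U) s - (Nat.card U : ℝ) * logPole s))
        rw [abs_mul] at h7
        linarith [mul_le_mul_of_nonneg_left h2 (abs_nonneg (1 - δ))]
      have a2 := mul_le_mul_of_nonneg_left (abs_le.mp h3).2 hδ.le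
      have a3 := mul_le_mul_of_nonneg_left hlog hU0
      linarith [(abs_le.mp hs).1]
    have h0 := le_zero_of_mul_logPole_le key
    have h1 : (Nat.card U₀ : ℝ) < Nat.card U := by exact_mod_cast hlt
    nlinarith

omit [IsGalois ℚ M] in
open scoped Classical in
/-- The double count of the characters trivial on `U`. -/
lemma card_trivial_mul [Fintype (H →* ℂˣ)] (U : Subgroup (M ≃ₐ[ℚ] M)) :
    (Finset.univ.filter fun ψ : H →* ℂˣ => ∀ u ∈ U, ψ (χ u) = 1).card * (Nat.card U : ℂ) =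
      Nat.card H * (Nat.card ↥(U ⊓ χ.ker) : ℂ) := by
  have hker : Nat.card {u : U // χ u = 1} = Nat.card ↥(U ⊓ χ.ker) :=
    Nat.card_congr
      { toFun := fun u => ⟨u.1.1, u.1.2, u.2⟩
        invFun := fun u => ⟨⟨u.1, u.2.1⟩, u.2.2⟩
        left_inv := fun _ => rfl
        right_inv := fun _ => rfl }
  have := Fintype.ofFinite U
  calc ((Finset.univ.filter fun ψ : H →* ℂˣ => ∀ u ∈ U, ψ (χ u) = 1).card : ℂ) * (Nat.card U : ℂ)
      = ∑ ψ : H →* ℂˣ, ∑ u : U, (ψ (χ u) : ℂ) := by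
        rw [Finset.card_filter, Nat.cast_sum, Finset.sum_mul]
        refine Finset.sum_congr rfl fun ψ _ => ?_
        split_ifs with h
        · rw [Nat.cast_one, one_mul, Nat.card_eq_fintype_card,
            Finset.sum_congr rfl (g := fun _ => (1 : ℂ)) fun u _ => by rw [h u u.2, Units.val_one]]
          simp
        · rw [Nat.cast_zero, zero_mul]
          push Not at h
          obtain ⟨u₀, hu₀, hne⟩ := h
          have key : (ψ (χ u₀) : ℂ) * ∑ u : U, (ψ (χ u) : ℂ) = ∑ u : U, (ψ (χ u) : ℂ) := by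
            rw [Finset.mul_sum]
            exact Fintype.sum_equiv (Equiv.mulLeft (⟨u₀, hu₀⟩ : U)) _ _ fun u => by simp
          have h0 : ((ψ (χ u₀) : ℂ) - 1) * ∑ u : U, (ψ (χ u) : ℂ) = 0 := by
            rw [sub_mul, key, one_mul, sub_self]
          exact ((mul_eq_zero.mp h0).resolve_left
            (sub_ne_zero.mpr fun he => hne (Units.ext he))).symm
    _ = ∑ u : U, if χ u = 1 then (Nat.card H : ℂ) else 0 := by
        rw [Finset.sum_comm]
        exact Finset.sum_congr rfl fun u _ => sum_char_apply _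
    _ = _ := by
        rw [← hker, Nat.card_eq_fintype_card (α := {u : U // χ u = 1}), Fintype.card_subtype,
          Finset.sum_ite, Finset.sum_const_zero, add_zero, Finset.sum_const, nsmul_eq_mul, mul_comm]

/-- `charSum` is `#U log` for a character trivial on `U`, and bounded otherwise. -/
lemma charSum_isBigO (hper : IsPeriodicChar M χ) (U : Subgroup (M ≃ₐ[ℚ] M)) (ψ : H →* ℂˣ)
    [Decidable (∀ u ∈ U, ψ (χ u) = 1)] :
    (fun s => charSum M χ U ψ s -
        (if ∀ u ∈ U, ψ (χ u) = 1 then (Nat.card U : ℝ) else 0) * logPole s)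
      =O[𝓝[>] (1 : ℝ)] fun _ => (1 : ℝ) := by
  classical
  have := Fintype.ofFinite (H →* ℂˣ)
  let e : (H →* ℂˣ) → ℝ → ℝ := fun ψ s => charSum M χ U ψ s -
    (if ∀ u ∈ U, ψ (χ u) = 1 then (Nat.card U : ℝ) else 0) * logPole s
  -- each `e ψ` is bounded above
  have hup : ∀ ψ, ∃ C, ∀ᶠ s in 𝓝[>] (1 : ℝ), e ψ s ≤ C := by
    intro ψ
    by_cases h : ∀ u ∈ U, ψ (χ u) = 1
    · obtain ⟨C, hC⟩ := (sumP_conjCount_isBigO M U).bound
      refine ⟨C, hC.mono fun s hs => ?_⟩
      rw [norm_one, mul_one, Real.norm_eq_abs] at hs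
      simp only [e, if_pos h, charSum_of_trivial M χ U ψ h]
      exact (le_abs_self _).trans hs
    · simp only [e, if_neg h, zero_mul, sub_zero]
      push Not at h
      exact charSum_le M χ hper U ψ h
  -- the sum of all `e ψ` is bounded
  have hN : ((Finset.univ.filter fun ψ : H →* ℂˣ => ∀ u ∈ U, ψ (χ u) = 1).card : ℝ) *
      (Nat.card U : ℝ) = (Nat.card H : ℝ) * (Nat.card ↥(U ⊓ χ.ker) : ℝ) := by
    exact_mod_cast card_trivial_mul M χ U
  have hsum : (fun s => ∑ ψ, e ψ s) =O[𝓝[>] (1 : ℝ)] fun _ => (1 : ℝ) := by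
    refine ((sumP_conjCount_isBigO M (U ⊓ χ.ker)).const_mul_left (Nat.card H : ℝ)).congr' ?_
      EventuallyEq.rfl
    filter_upwards [self_mem_nhdsWithin] with s hs
    have hall : ∑ ψ : H →* ℂˣ, charSum M χ U ψ s =
        (Nat.card H : ℝ) * sumP (conjCount M (U ⊓ χ.ker)) s := by
      rw [← sumP_const_mul]
      rw [Finset.sum_congr rfl (g := fun ψ => (1 : ℝ) * charSum M χ U ψ s)
        fun ψ _ => (one_mul _).symm]
      unfold charSum
      rw [← sumP_finsetSum _ _ _ (fun _ => (Nat.card (M ≃ₐ[ℚ] M) : ℝ))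
        (fun ψ p => abs_mul_conjCount_le M U (re_char_le_one ψ _) p) hs]
      refine congrFun (congrArg sumP (funext fun p => ?_)) s
      simp only [one_mul, ← Finset.sum_mul, sum_re_char, conjCount_inf_ker M U χ p]
      split_ifs <;> simp
    simp only [e, Finset.sum_sub_distrib, hall, ← Finset.sum_mul, Finset.sum_ite,
      Finset.sum_const_zero, add_zero, Finset.sum_const, nsmul_eq_mul, hN]
    ring
  -- hence each is bounded
  choose C hC using hup
  obtain ⟨C₀, hC₀⟩ := hsum.bound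
  refine IsBigO.of_bound (|C ψ| + C₀ + ∑ ψ', |C ψ'|) ?_
  filter_upwards [eventually_all.mpr hC, hC₀] with s hs hs0
  rw [norm_one, mul_one, Real.norm_eq_abs] at hs0 ⊢
  have h2 := Finset.add_sum_erase Finset.univ (fun ψ' => e ψ' s) (Finset.mem_univ ψ)
  have h3 : ∑ ψ' ∈ Finset.univ.erase ψ, e ψ' s ≤ ∑ ψ', |C ψ'| :=
    (Finset.sum_le_sum fun ψ' _ => (hs ψ').trans (le_abs_self _)).trans
      (Finset.sum_le_sum_of_subset_of_nonneg (Finset.erase_subset _ _) fun _ _ _ => abs_nonneg _)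
  have h4 : 0 ≤ ∑ ψ', |C ψ'| := Finset.sum_nonneg fun _ _ => abs_nonneg _
  have h5 := abs_nonneg (C ψ)
  have h6 : e ψ s = charSum M χ U ψ s -
      (if ∀ u ∈ U, ψ (χ u) = 1 then (Nat.card U : ℝ) else 0) * logPole s := by
    simp only [e]; congr 2; split_ifs <;> rfl
  rw [abs_le] at hs0
  rw [← h6, abs_le]
  constructor <;> linarith [hs ψ, le_abs_self (C ψ)]

variable [DecidableEq H]

/-- The weight of the primes with `χ(φ_p) = h^{±1}`. -/
noncomputable def pairCount (U : Subgroup (M ≃ₐ[ℚ] M)) (h : H) (p : Nat.Primes) : ℝ :=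
  ((if χ (someFrob M p) = h then (1 : ℝ) else 0) +
    if χ (someFrob M p) = h⁻¹ then 1 else 0) * conjCount M U p

/-- **Crossing**: the primes with Frobenius in a conjugate of `U` and `χ = h^{±1}`. -/
theorem sumP_pairCount_isBigO (hper : IsPeriodicChar M χ) (U : Subgroup (M ≃ₐ[ℚ] M))
    {u₀ : M ≃ₐ[ℚ] M} (hu₀ : u₀ ∈ U) :
    (fun s => sumP (pairCount M χ U (χ u₀)) s - 2 * (Nat.card ↥(U ⊓ χ.ker) : ℝ) * logPole s)
      =O[𝓝[>] (1 : ℝ)] fun _ => (1 : ℝ) := by
  classical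
  have := Fintype.ofFinite (H →* ℂˣ)
  have hN : ((Finset.univ.filter fun ψ : H →* ℂˣ => ∀ u ∈ U, ψ (χ u) = 1).card : ℝ) *
      (Nat.card U : ℝ) = (Nat.card H : ℝ) * (Nat.card ↥(U ⊓ χ.ker) : ℝ) := by
    exact_mod_cast card_trivial_mul M χ U
  have hH : (Nat.card H : ℝ) ≠ 0 := Nat.cast_ne_zero.mpr Nat.card_pos.ne'
  have hbig : (fun s => ∑ ψ : H →* ℂˣ, (ψ (χ u₀) : ℂ).re * (charSum M χ U ψ s -
      (if ∀ u ∈ U, ψ (χ u) = 1 then (Nat.card U : ℝ) else 0) * logPole s))
      =O[𝓝[>] (1 : ℝ)] fun _ => (1 : ℝ) :=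
    IsBigO.fun_sum fun ψ _ => (charSum_isBigO M χ hper U ψ).const_mul_left _
  refine (hbig.const_mul_left (2 / (Nat.card H : ℝ))).congr' ?_ EventuallyEq.rfl
  filter_upwards [self_mem_nhdsWithin] with s hs
  have hpair : ∑ ψ : H →* ℂˣ, (ψ (χ u₀) : ℂ).re * charSum M χ U ψ s =
      (Nat.card H : ℝ) / 2 * sumP (pairCount M χ U (χ u₀)) s := by
    rw [← sumP_const_mul]
    unfold charSum
    rw [← sumP_finsetSum _ _ _ (fun _ => (Nat.card (M ≃ₐ[ℚ] M) : ℝ))
      (fun ψ p => abs_mul_conjCount_le M U (re_char_le_one ψ _) p) hs]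
    refine congrFun (congrArg sumP (funext fun p => ?_)) s
    simp only [pairCount, ← mul_assoc, ← Finset.sum_mul, sum_re_mul_re_char]
  have htriv : ∑ ψ : H →* ℂˣ, (ψ (χ u₀) : ℂ).re *
      (if ∀ u ∈ U, ψ (χ u) = 1 then (Nat.card U : ℝ) else 0) =
      (Nat.card H : ℝ) * (Nat.card ↥(U ⊓ χ.ker) : ℝ) := by
    rw [← hN, Finset.card_filter, Nat.cast_sum, Finset.sum_mul]
    refine Finset.sum_congr rfl fun ψ _ => ?_
    split_ifs with h <;> simp [*]
  simp only [mul_sub, Finset.sum_sub_distrib, hpair, ← mul_assoc, ← Finset.sum_mul, htriv]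
  field_simp

variable {Q : Type*} [Group Q] [Finite Q] (π : (M ≃ₐ[ℚ] M) →* Q)

/-- `#{x | Π (x φ_p x⁻¹) = y}`. -/
noncomputable def fibreCount (y : Q) (p : Nat.Primes) : ℝ :=
  Nat.card {x : M ≃ₐ[ℚ] M // π (x * someFrob M p * x⁻¹) = y}

omit [Finite H] [DecidableEq H] [Finite Q] in
lemma abs_fibreCount_le (y : Q) (p : Nat.Primes) :
    |fibreCount M π y p| ≤ Nat.card (M ≃ₐ[ℚ] M) := by
  rw [fibreCount, Nat.abs_cast]
  exact Nat.cast_le.mpr (Nat.card_le_card_of_injective Subtype.val Subtype.val_injective)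

/-- `y` is good for `χ'` when `χ'` is injective on the group it generates. -/
def IsGood (χ' : Q →* H) (y : Q) : Prop := ∀ m : ℤ, χ' y ^ m = 1 → y ^ m = 1

omit [Finite H] [DecidableEq H] [Finite Q] in
/-- The inverse of a good element is good. -/
lemma IsGood.inv {χ' : Q →* H} {y : Q} (h : IsGood χ' y) : IsGood χ' y⁻¹ := fun m hm => by
  rw [map_inv, inv_zpow, inv_eq_one] at hm
  rw [inv_zpow, h m hm, inv_one]

omit [Finite Q] in
/-- The density of a pair `{y, y⁻¹}` of good elements. -/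
theorem sumP_fibreCount_isBigO (χ' : Q →* H) (hper : IsPeriodicChar M (χ'.comp π))
    {x₀ : M ≃ₐ[ℚ] M} (hgood : IsGood χ' (π x₀)) :
    (fun s => sumP (fibreCount M π (π x₀)) s + sumP (fibreCount M π (π x₀⁻¹)) s -
        2 * (Nat.card π.ker : ℝ) * logPole s) =O[𝓝[>] (1 : ℝ)] fun _ => (1 : ℝ) := by
  classical
  let U : Subgroup (M ≃ₐ[ℚ] M) := (Subgroup.zpowers (π x₀)).comap π
  have hu₀ : x₀ ∈ U := Subgroup.mem_zpowers (π x₀)
  have hinj : ∀ z ∈ Subgroup.zpowers (π x₀), χ' z = 1 → z = 1 := by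
    rintro z ⟨m, rfl⟩ hz
    exact hgood m (by rwa [map_zpow] at hz)
  have hker : U ⊓ (χ'.comp π).ker = π.ker := by
    refine le_antisymm (fun u hu => hinj _ hu.1 hu.2) fun u hu => ?_
    have h1 : π u = 1 := hu
    refine ⟨?_, ?_⟩
    · show π u ∈ Subgroup.zpowers (π x₀)
      rw [h1]; exact one_mem _
    · show χ' (π u) = 1
      rw [h1, map_one]
  have h := sumP_pairCount_isBigO M (χ'.comp π) hper U hu₀
  rw [hker] at h
  have hfib : ∀ (y : Q) (_ : y ∈ Subgroup.zpowers (π x₀)) (p : Nat.Primes),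
      (if (χ'.comp π) (someFrob M p) = χ' y then (1 : ℝ) else 0) * conjCount M U p =
        fibreCount M π y p := by
    intro y hy p
    have hiff : ∀ x, π (x * someFrob M p * x⁻¹) = y ↔
        (x * someFrob M p * x⁻¹ ∈ U ∧ (χ'.comp π) (someFrob M p) = χ' y) := by
      intro x
      rw [← map_conj M (χ'.comp π) x, MonoidHom.comp_apply]
      constructor
      · intro he
        exact ⟨by show _ ∈ Subgroup.zpowers _; rw [he]; exact hy, by rw [he]⟩
      · rintro ⟨hx, he⟩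
        refine mul_inv_eq_one.mp (hinj _ (mul_mem hx (inv_mem hy)) ?_)
        rw [map_mul, map_inv, he, mul_inv_cancel]
    rw [fibreCount, Nat.card_congr (Equiv.subtypeEquivRight hiff)]
    split_ifs with hh
    · rw [one_mul, conjCount]
      congr 1
      exact Nat.card_congr (Equiv.subtypeEquivRight fun x => (and_iff_left hh).symm)
    · rw [zero_mul]
      have : IsEmpty {x : M ≃ₐ[ℚ] M // x * someFrob M p * x⁻¹ ∈ U ∧
          (χ'.comp π) (someFrob M p) = χ' y} := ⟨fun x => hh x.2.2⟩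
      rw [Nat.card_of_isEmpty, Nat.cast_zero]
  refine h.congr' ?_ EventuallyEq.rfl
  filter_upwards [self_mem_nhdsWithin] with s hs
  rw [← sumP_add (abs_fibreCount_le M π _) (abs_fibreCount_le M π _) hs]
  congr 2
  funext p
  rw [pairCount, add_mul, ← hfib _ (Subgroup.mem_zpowers _) p,
    ← hfib _ (by rw [map_inv]; exact inv_mem (Subgroup.mem_zpowers _)) p]
  simp

omit [Finite Q] in
/-- **Lower density bound** for a conjugation and inversion invariant non-negative function. -/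
theorem le_sumP_frob (χ' : Q →* H) (hper : IsPeriodicChar M (χ'.comp π)) (f : Q → ℝ)
    (hf : ∀ y, 0 ≤ f y) (hconj : ∀ x y, f (x * y * x⁻¹) = f y) (hinv : ∀ y, f y⁻¹ = f y)
    [Fintype (M ≃ₐ[ℚ] M)] [DecidablePred fun x : M ≃ₐ[ℚ] M => IsGood χ' (π x)] :
    ∃ C, ∀ᶠ s in 𝓝[>] (1 : ℝ),
      (∑ x ∈ Finset.univ.filter (fun x => IsGood χ' (π x)), f (π x)) * logPole s - C ≤
        (Nat.card (M ≃ₐ[ℚ] M) : ℝ) * sumP (fun p => f (π (someFrob M p))) s := by
  classical
  set G₀ := Finset.univ.filter (fun x : M ≃ₐ[ℚ] M => IsGood χ' (π x))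
  set k : ℝ := (Nat.card π.ker : ℝ) with hk
  have hk0 : 0 < k := Nat.cast_pos.mpr Nat.card_pos
  set D : (M ≃ₐ[ℚ] M) → ℝ → ℝ := fun x s => f (π x) * sumP (fibreCount M π (π x)) s
  have hbig : (fun s => ∑ x ∈ G₀, f (π x) * (sumP (fibreCount M π (π x)) s +
      sumP (fibreCount M π (π x⁻¹)) s - 2 * k * logPole s)) =O[𝓝[>] (1 : ℝ)] fun _ => (1 : ℝ) :=
    IsBigO.fun_sum fun x hx =>
      (sumP_fibreCount_isBigO M π χ' hper (Finset.mem_filter.mp hx).2).const_mul_left _
  obtain ⟨C, hC⟩ := hbig.bound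
  refine ⟨C / (2 * k), ?_⟩
  filter_upwards [hC, self_mem_nhdsWithin] with s hs hs1
  rw [norm_one, mul_one, Real.norm_eq_abs, abs_le] at hs
  have hs' : (1 : ℝ) < s := hs1
  have hD0 : ∀ x, 0 ≤ D x s := fun x =>
    mul_nonneg (hf _) (tsum_nonneg fun p => by
      have : 0 ≤ fibreCount M π (π x) p := Nat.cast_nonneg _
      positivity)
  have hswap : ∑ x ∈ G₀, f (π x) * sumP (fibreCount M π (π x⁻¹)) s = ∑ x ∈ G₀, D x s := by
    refine Finset.sum_nbij' (·⁻¹) (·⁻¹) ?_ ?_ (fun x _ => inv_inv x) (fun x _ => inv_inv x) ?_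
    · intro x hx
      simp only [G₀, Finset.mem_filter, Finset.mem_univ,
        true_and, map_inv] at hx ⊢
      exact hx.inv
    · intro x hx
      simp only [G₀, Finset.mem_filter, Finset.mem_univ,
        true_and, map_inv] at hx ⊢
      exact hx.inv
    · intro x _
      simp only [D, map_inv, hinv]
  have hall : ∑ x, D x s = k * ((Nat.card (M ≃ₐ[ℚ] M) : ℝ) *
      sumP (fun p => f (π (someFrob M p))) s) := by
    simp only [D]
    rw [← sumP_finsetSum _ _ _ (fun _ => (Nat.card (M ≃ₐ[ℚ] M) : ℝ))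
      (fun x p => abs_fibreCount_le M π _ p) hs', ← mul_assoc, ← sumP_const_mul]
    refine congrFun (congrArg sumP (funext fun p => ?_)) s
    have h1 : ∀ x, f (π x) * fibreCount M π (π x) p = ∑ g : M ≃ₐ[ℚ] M,
        if π (g * someFrob M p * g⁻¹) = π x then f (π (someFrob M p)) else 0 := by
      intro x
      rw [fibreCount, Nat.card_eq_fintype_card, Fintype.card_subtype, ← Finset.sum_filter,
        Finset.sum_const, nsmul_eq_mul, mul_comm]
      by_cases hne : (Finset.univ.filter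
          fun g : M ≃ₐ[ℚ] M => π (g * someFrob M p * g⁻¹) = π x).Nonempty
      · obtain ⟨g, hg⟩ := hne
        rw [← (Finset.mem_filter.mp hg).2, map_mul, map_mul, map_inv, hconj]
      · rw [Finset.not_nonempty_iff_eq_empty] at hne
        rw [hne]
        simp
    simp only [h1]
    rw [Finset.sum_comm]
    have h2 : ∀ g : M ≃ₐ[ℚ] M, (∑ x : M ≃ₐ[ℚ] M, if π (g * someFrob M p * g⁻¹) = π x then
        f (π (someFrob M p)) else 0) = k * f (π (someFrob M p)) := by
      intro g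
      rw [← Finset.sum_filter, Finset.sum_const, nsmul_eq_mul, hk]
      congr 2
      rw [← Fintype.card_subtype, ← Nat.card_eq_fintype_card]
      refine Nat.card_congr (Equiv.subtypeEquiv (Equiv.mulLeft (g * someFrob M p * g⁻¹)⁻¹)
        fun x => ?_)
      show _ ↔ π ((g * someFrob M p * g⁻¹)⁻¹ * x) = 1
      rw [map_mul π (g * someFrob M p * g⁻¹)⁻¹ x, map_inv, inv_mul_eq_one]
    simp only [h2, Finset.sum_const, Finset.card_univ, nsmul_eq_mul, Nat.card_eq_fintype_card]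
    ring
  have hsub : ∑ x ∈ G₀, D x s ≤ ∑ x, D x s :=
    Finset.sum_le_univ_sum_of_nonneg hD0
  simp only [mul_sub, mul_add, Finset.sum_sub_distrib, Finset.sum_add_distrib, hswap,
    ← mul_assoc, ← Finset.sum_mul] at hs
  rw [hall] at hsub
  rw [sub_le_iff_le_add]
  refine le_of_mul_le_mul_left ?_ (mul_pos two_pos hk0)
  rw [mul_add, mul_div_cancel₀ _ (mul_pos two_pos hk0).ne']
  simp only [D] at hsub
  linarith [hs.1]

end crossing

end Fermat.Agent.ChebotarevFull
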