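import Fermat.Agent.ChebotarevFull.Main

/-!
# Primes with prescribed Frobenius, up to inversion

Deduced from the analytic lower bound of `exists_sum_frob_ge`: for a finite-level homomorphism
every value or its inverse is the image of a Frobenius element outside any finite set.
-/

set_option autoImplicit false

open Filter Topology Fermat.Agent.GaloisBasics
open scoped Pointwise

namespace Fermat.Agent.ChebotarevFull

open Fermat.Agent.Chebotarev

/-- **Chebotarev**, existence form: outside any finite set some prime, unramified for `π`, has a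
Frobenius element with image exactly `g` or `g⁻¹`. -/
theorem exists_frobenius_eq_or_inv {G : Type} [Group G] [Finite G] (π : GalQ →* G)
    (hfin : GaloisFactorsThroughFiniteLevel π) (σ₀ : GalQ) (S : Finset ℕ) :
    ∃ p : ℕ, p.Prime ∧ p ∉ S ∧
      (∀ V : ValuationSubring Qbar, V.LiesOverPrime p → ∀ τ ∈ V.inertiaSubgroupIn ℚ, π τ = 1) ∧
      ∃ A : ValuationSubring Qbar, A.LiesOverPrime p ∧ ∃ σ : GalQ, A.IsFrobeniusAt σ p ∧
        (π σ = π σ₀ ∨ π σ = (π σ₀)⁻¹) := by
  classical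
  obtain ⟨L, hL, h1⟩ := hfin
  let G' := π.range
  have : Fintype G' := Fintype.ofFinite _
  let g₀ : G' := π.rangeRestrict σ₀
  let f : G' → ℝ := fun y => if IsConj y g₀ ∨ IsConj y g₀⁻¹ then 1 else 0
  have hfin' : GaloisFactorsThroughFiniteLevel π.rangeRestrict :=
    ⟨L, hL, fun σ hσ => Subtype.ext (h1 σ hσ)⟩
  have hconj : ∀ x y, f (x * y * x⁻¹) = f y := fun x y => by
    have : IsConj y (x * y * x⁻¹) := isConj_iff.mpr ⟨x, rfl⟩
    have e : ∀ z, IsConj (x * y * x⁻¹) z ↔ IsConj y z :=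
      fun z => ⟨this.trans, this.symm.trans⟩
    simp only [f, e]
  have hinvc : ∀ y z : G', IsConj y z → IsConj y⁻¹ z⁻¹ := fun y z h => by
    obtain ⟨c, hc⟩ := isConj_iff.mp h
    exact isConj_iff.mpr ⟨c, by rw [← hc]; group⟩
  have hinv : ∀ y, f y⁻¹ = f y := fun y => by
    have e : (IsConj y⁻¹ g₀ ∨ IsConj y⁻¹ g₀⁻¹) ↔ (IsConj y g₀ ∨ IsConj y g₀⁻¹) := by
      constructor <;> rintro (h | h)
      · exact Or.inr (by simpa using hinvc _ _ h)
      · exact Or.inl (by simpa using hinvc _ _ h)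
      · exact Or.inr (hinvc _ _ h)
      · exact Or.inl (by simpa using hinvc _ _ h)
    simp only [f, e]
  have hpos : (0 : ℝ) < (∑ g, f g) / Fintype.card G' := by
    refine div_pos (Finset.sum_pos' (fun g _ => by positivity) ⟨g₀, Finset.mem_univ _, ?_⟩)
      (Nat.cast_pos.mpr Fintype.card_pos)
    show (0 : ℝ) < f g₀
    rw [show f g₀ = 1 from if_pos (Or.inl (IsConj.refl g₀))]
    exact one_pos
  obtain ⟨B, hB⟩ := exists_sum_frob_ge π.rangeRestrict hfin' π.rangeRestrict_surjective f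
    (fun y => by positivity) hconj hinv S (ε := ((∑ g, f g) / Fintype.card G') / 2) (by linarith)
  obtain ⟨s, hs1, hs2⟩ : ∃ s : ℝ, s ∈ Set.Ioc (1 : ℝ) 2 ∧
      B < ((∑ g, f g) / Fintype.card G') / 2 * logPole s := by
    refine (Filter.Eventually.and ?_
      ((tendsto_logPole.const_mul_atTop (half_pos hpos)).eventually_gt_atTop B)).exists
    exact mem_nhdsGT_iff_exists_Ioc_subset.mpr ⟨2, Set.mem_Ioi.mpr one_lt_two, subset_rfl⟩
  obtain ⟨T, hT, a, ha, hle⟩ := hB s hs1
  have hsum : ∑ p ∈ T, f (a p) * (p : ℝ) ^ (-s) ≠ 0 := by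
    rw [logPole, ← one_div] at hs2
    intro h0
    rw [h0, sub_half] at hle
    linarith
  obtain ⟨p, hpT, hp⟩ := Finset.exists_ne_zero_of_sum_ne_zero hsum
  obtain ⟨hI, A, hA, σ, hσ, hπσ⟩ := ha p hpT
  have hc : IsConj (a p) g₀ ∨ IsConj (a p) g₀⁻¹ := by
    by_contra hn
    rw [show f (a p) = 0 from if_neg hn, zero_mul] at hp
    exact hp rfl
  refine ⟨p, (hT p hpT).1, (hT p hpT).2,
    fun V hV τ hτ => congrArg Subtype.val (hI V hV τ hτ), ?_⟩
  have hmove : ∀ z : G', IsConj (a p) z → ∃ B : ValuationSubring Qbar, B.LiesOverPrime p ∧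
      ∃ σ' : GalQ, B.IsFrobeniusAt σ' p ∧ π σ' = z := by
    intro z hz
    obtain ⟨c, hc'⟩ := isConj_iff.mp hz
    obtain ⟨t, rfl⟩ := π.rangeRestrict_surjective c
    refine ⟨t • A, liesOverPrime_smul hA t, t * σ * t⁻¹, isFrobeniusAt_conj hA (hT p hpT).1 hσ t, ?_⟩
    have e : π.rangeRestrict (t * σ * t⁻¹) = z := by rw [map_mul, map_mul, map_inv, hπσ, hc']
    exact congrArg Subtype.val e
  rcases hc with h | h
  · obtain ⟨B', hB', σ', hσ', e⟩ := hmove _ h
    exact ⟨B', hB', σ', hσ', Or.inl e⟩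
  · obtain ⟨B', hB', σ', hσ', e⟩ := hmove _ h
    exact ⟨B', hB', σ', hσ', Or.inr e⟩

end Fermat.Agent.ChebotarevFull
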