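import Fermat.Agent.ChebotarevFull.Crossing
import Fermat.Agent.Chebotarev.Basic

/-!
# Chebotarev's density theorem, lower bound for inverse closed classes

For `π : Gal(ℚ̄/ℚ) → G` factoring through a finite level and a non-negative function `f` on `G`
invariant under conjugation and inversion, `∑_p f(π Frob_p) p^(-s)` is at least
`(mean f - ε) log (1/(s-1)) - O(1)`.
-/

set_option autoImplicit false

open Filter Topology NumberField Fermat.Agent.GaloisBasics
open scoped Pointwise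

namespace Fermat.Agent.ChebotarevFull

open Fermat.Agent.Chebotarev

/-- Frobenius elements and inertia at all but finitely many primes, seen on a finite level. -/
theorem exists_finset_frobenius_lift (M : IntermediateField ℚ Qbar) [NumberField M] [Normal ℚ M]
    [IsGalois ℚ M] :
    ∃ T : Finset Nat.Primes, ∀ p : Nat.Primes, p ∉ T →
      (∀ B : ValuationSubring Qbar, B.LiesOverPrime p → ∀ τ ∈ B.inertiaSubgroupIn ℚ,
        AlgEquiv.restrictNormalHom M τ = 1) ∧
      ∃ A : ValuationSubring Qbar, A.LiesOverPrime p ∧ ∃ σ : GalQ, A.IsFrobeniusAt σ p ∧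
        AlgEquiv.restrictNormalHom M σ = someFrob M p := by
  have := faithfulSMul_ringOfIntegers M
  obtain ⟨d, hd, hgood⟩ := exists_ne_zero_inertia_eq_bot (B := 𝓞 M) (G := M ≃ₐ[ℚ] M)
  let r : GalQ →* (M ≃ₐ[ℚ] M) := AlgEquiv.restrictNormalHom M
  have hr : ∀ (g : GalQ) (x : M), ((r g x : M) : Qbar) = g x := fun g x =>
    AlgEquiv.restrictNormal_commutes g M x
  have hrsurj : Function.Surjective r := AlgEquiv.restrictNormalHom_surjective Qbar
  let ι : 𝓞 M →+* Zbar := RingOfIntegers.mapRingHom M.val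
  have hι : ∀ (g : GalQ) (b : 𝓞 M), ι (r g • b) = g • ι b := fun g b =>
    RingOfIntegers.ext (hr g (b : M))
  refine ⟨((Nat.divisors d).filter Nat.Prime).subtype Nat.Prime, fun p hp => ?_⟩
  have hpd : ¬ (p : ℕ) ∣ d := fun h => hp (Finset.mem_subtype.mpr
    (Finset.mem_filter.mpr ⟨Nat.mem_divisors.mpr ⟨h, hd⟩, p.2⟩))
  have hunder : ∀ B : ValuationSubring Qbar, B.LiesOverPrime p →
      ((zbarIdeal B).comap ι).under ℤ = Ideal.span {((p : ℕ) : ℤ)} := by
    intro B hB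
    rw [← under_int_zbarIdeal hB p.2]
    ext n
    simp
  have hI := hgood p p.2 hpd
  refine ⟨fun B hB τ hτ => ?_, ?_⟩
  · have h1 : r τ ∈ ((zbarIdeal B).comap ι).inertia (M ≃ₐ[ℚ] M) := fun b => by
      rw [Submodule.mem_toAddSubgroup, Ideal.mem_comap, map_sub, hι]
      exact smul_sub_mem_zbarIdeal_of_mem_inertia hτ _
    rwa [hI _ (Ideal.comap_isPrime _ _) (hunder B hB), Subgroup.mem_bot] at h1
  obtain ⟨hQ, hQu, hφ'⟩ := (exists_prime_isFrobMod M p).choose_spec.choose_spec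
  set Q := (exists_prime_isFrobMod M p).choose
  obtain ⟨A₀, hA₀⟩ := exists_liesOverPrime p.2
  have : ((zbarIdeal A₀).comap ι).IsPrime := Ideal.comap_isPrime _ _
  obtain ⟨g', hg'⟩ := Algebra.IsInvariant.exists_smul_of_under_eq ℤ (𝓞 M) (M ≃ₐ[ℚ] M)
    ((zbarIdeal A₀).comap ι) Q (by rw [hQu, hunder A₀ hA₀])
  obtain ⟨g, rfl⟩ := hrsurj g'
  have hA := liesOverPrime_smul hA₀ g
  have hmem : ∀ b ∈ Q, ι b ∈ zbarIdeal (g • A₀) := by
    intro b hb
    rw [hg', Ideal.mem_pointwise_smul_iff_inv_smul_mem, Ideal.mem_comap, ← map_inv, hι] at hb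
    rwa [zbarIdeal_smul, Ideal.mem_pointwise_smul_iff_inv_smul_mem]
  obtain ⟨φ₀, hφ₀⟩ := hrsurj (someFrob M p)
  obtain ⟨τ, hτ, hφ⟩ := exists_isFrobeniusAt_lift hA p.2 M.fixingSubgroup
    M.fixingSubgroup_isClosed φ₀ fun b hb => by
      have hbM : (b : Qbar) ∈ M := by
        rw [← InfiniteGalois.fixedField_fixingSubgroup M]
        exact fun n => congrArg (fun y : Zbar => (y : Qbar)) (hb n.1 n.2)
      let b' : 𝓞 M := ⟨⟨b, hbM⟩, (isIntegral_algebraMap_iff (algebraMap M Qbar).injective).mp b.2⟩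
      have e : ι b' = b := RingOfIntegers.ext rfl
      have h2 : someFrob M p • b' - b' ^ (p : ℕ) ∈ Q := hφ' b'
      have := hmem _ h2
      rwa [map_sub, map_pow, ← hφ₀, hι, e] at this
  refine ⟨g • A₀, hA, φ₀ * τ, hφ, ?_⟩
  show r (φ₀ * τ) = someFrob M p
  rw [map_mul, hφ₀, mul_eq_left]
  exact AlgEquiv.ext fun x => Subtype.ext ((hr τ x).trans (hτ x))

/-- A Frobenius element at `p` raises `q`-th roots of unity to the power `p`. -/
theorem apply_rootOfUnity_eq_pow {p q : ℕ} (hp : p.Prime) (hq : q.Prime) (hpq : p ≠ q) {ζ : Qbar}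
    (hζ : ζ ^ q = 1) {A : ValuationSubring Qbar} (hA : A.LiesOverPrime p) {σ : GalQ}
    (hσ : A.IsFrobeniusAt σ p) : σ ζ = ζ ^ p := by
  let z : Zbar := ⟨ζ, IsIntegral.of_pow hq.pos (by rw [hζ]; exact isIntegral_one)⟩
  have hz : z ^ q = 1 := RingOfIntegers.ext hζ
  have hcard : Nat.card (ℤ ⧸ (zbarIdeal A).under ℤ) = p := by
    rw [under_int_zbarIdeal hA hp]; exact card_quotient_span_natCast p
  have h : (MulSemiringAction.toAlgHom ℤ Zbar σ).IsArithFrobAt (zbarIdeal A) := by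
    intro x
    rw [hcard]
    exact (isFrobeniusAt_iff_zbar hA hp).mp hσ x
  have := h.apply_of_pow_eq_one hz (by
    rw [natCast_mem_zbarIdeal_iff hA hp]
    exact fun hd => hpq ((Nat.prime_dvd_prime_iff_eq hp hq).mp hd))
  rw [hcard] at this
  exact congrArg (fun y : Zbar => (y : Qbar)) this

/-- Few elements of a cyclic group have order prime to a large power of `n`. -/
theorem card_not_dvd_orderOf_le {H : Type*} [CommGroup H] [Fintype H] [IsCyclic H] {n k : ℕ}
    (hn : n ≠ 0) (hN : n ^ (k + 1) ∣ Nat.card H) [DecidablePred fun h : H => ¬ n ∣ orderOf h] :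
    (Finset.univ.filter fun h : H => ¬ n ∣ orderOf h).card * 2 ^ k ≤ n * Nat.card H := by
  classical
  set N := Nat.card H with hN'
  have hN0 : N ≠ 0 := Nat.card_pos.ne'
  have hsub : (Finset.univ.filter fun h : H => ¬ n ∣ orderOf h) ⊆
      n.primeFactors.biUnion fun l => Finset.univ.filter fun h : H => h ^ (N / l ^ k) = 1 := by
    intro h hh
    have hnd := (Finset.mem_filter.mp hh).2
    obtain ⟨m, hm⟩ := orderOf_dvd_natCard h
    have hd0 : orderOf h ≠ 0 := (orderOf_pos h).ne'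
    have hm0 : m ≠ 0 := fun h0 => hN0 (by rw [hN', hm, h0, mul_zero])
    rw [← Nat.factorization_le_iff_dvd hn hd0, Finsupp.le_def] at hnd
    push Not at hnd
    obtain ⟨l, hl⟩ := hnd
    have hlmem : l ∈ n.primeFactors := by
      rw [← Nat.support_factorization, Finsupp.mem_support_iff]; omega
    have hlp : l.Prime := Nat.prime_of_mem_primeFactors hlmem
    have hle := (Nat.factorization_le_iff_dvd (pow_ne_zero _ hn) hN0).mpr hN l
    rw [hN', hm, Nat.factorization_pow, Nat.factorization_mul hd0 hm0] at hle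
    simp only [Finsupp.smul_apply, Finsupp.add_apply, smul_eq_mul] at hle
    have hkm : k ≤ m.factorization l := by nlinarith
    obtain ⟨m', hm'⟩ := (hlp.pow_dvd_iff_le_factorization hm0).mpr hkm
    refine Finset.mem_biUnion.mpr ⟨l, hlmem, Finset.mem_filter.mpr ⟨Finset.mem_univ _, ?_⟩⟩
    rw [← orderOf_dvd_iff_pow_eq_one]
    refine ⟨m', ?_⟩
    rw [hN', hm, hm', mul_left_comm, Nat.mul_div_cancel_left _ (pow_pos hlp.pos k)]
  calc (Finset.univ.filter fun h : H => ¬ n ∣ orderOf h).card * 2 ^ k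
      ≤ (∑ l ∈ n.primeFactors,
          (Finset.univ.filter fun h : H => h ^ (N / l ^ k) = 1).card) * 2 ^ k :=
        Nat.mul_le_mul_right _ ((Finset.card_le_card hsub).trans Finset.card_biUnion_le)
    _ ≤ ∑ _l ∈ n.primeFactors, N := by
        rw [Finset.sum_mul]
        refine Finset.sum_le_sum fun l hl => ?_
        have hlp : l.Prime := Nat.prime_of_mem_primeFactors hl
        have hdvd : l ^ k ∣ N := ((pow_dvd_pow_of_dvd (Nat.dvd_of_mem_primeFactors hl) k).trans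
          (pow_dvd_pow n (Nat.le_succ k))).trans hN
        have hpos : 0 < N / l ^ k :=
          Nat.div_pos (Nat.le_of_dvd (Nat.pos_of_ne_zero hN0) hdvd) (pow_pos hlp.pos k)
        calc (Finset.univ.filter fun h : H => h ^ (N / l ^ k) = 1).card * 2 ^ k
            ≤ (N / l ^ k) * l ^ k :=
              Nat.mul_le_mul (IsCyclic.card_pow_eq_one_le hpos) (Nat.pow_le_pow_left hlp.two_le k)
          _ = N := Nat.div_mul_cancel hdvd
    _ ≤ _ := by
        rw [Finset.sum_const, smul_eq_mul]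
        refine Nat.mul_le_mul_right _ ?_
        calc n.primeFactors.card ≤ (Finset.Icc 1 n).card := Finset.card_le_card fun l hl =>
              Finset.mem_Icc.mpr ⟨(Nat.prime_of_mem_primeFactors hl).one_le,
                Nat.le_of_mem_primeFactors hl⟩
          _ = n := by simp

/-- Averaging along a surjective homomorphism. -/
theorem sum_comp_mul_card {A B : Type*} [Group A] [Group B] [Fintype A] [Fintype B]
    {φ : A →* B} (hφ : Function.Surjective φ) (f : B → ℝ) :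
    (∑ a, f (φ a)) * Fintype.card B = (∑ b, f b) * Fintype.card A := by
  calc (∑ a, f (φ a)) * Fintype.card B = ∑ b : B, ∑ a, f (φ a * b) := by
        have key : ∀ b : B, ∑ a, f (φ a * b) = ∑ a, f (φ a) := fun b => ?_
        · rw [Finset.sum_congr rfl fun b _ => key b, Finset.sum_const, nsmul_eq_mul,
            Finset.card_univ, mul_comm]
        obtain ⟨c, rfl⟩ := hφ b
        rw [← Equiv.sum_comp (Equiv.mulRight c) fun a => f (φ a)]
        exact Finset.sum_congr rfl fun a _ => by simp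
    _ = ∑ a : A, ∑ b, f (φ a * b) := Finset.sum_comm
    _ = (∑ b, f b) * Fintype.card A := by
        have key : ∀ a, ∑ b, f (φ a * b) = ∑ b, f b := fun a =>
          Equiv.sum_comp (Equiv.mulLeft (φ a)) f
        rw [Finset.sum_congr rfl fun a _ => key a, Finset.sum_const, nsmul_eq_mul, Finset.card_univ,
          mul_comm]

/-- The character of `(ZMod q)ˣ / ±1`, as even periodic function. -/
theorem exists_evenPeriodic (q : ℕ) [NeZero q]
    (ψ : ((ZMod q)ˣ ⧸ Subgroup.zpowers (-1 : (ZMod q)ˣ)) →* ℂˣ) :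
    ∃ (Ψ : EvenPeriodic) (c : ℕ →* ℂ), (∀ x, ‖Ψ.fn x‖ ≤ 1) ∧ (∀ n : ℕ, Ψ.fn n = c n) ∧
      ∀ (n : ℕ) (u : (ZMod q)ˣ), (u : ZMod q) = n → c n = (ψ (QuotientGroup.mk u) : ℂ) := by
  let χ : DirichletCharacter ℂ q := MulChar.ofUnitHom (ψ.comp (QuotientGroup.mk' _))
  have hχ : ∀ u : (ZMod q)ˣ, χ u = (ψ (QuotientGroup.mk u) : ℂ) := fun u =>
    MulChar.ofUnitHom_coe _ u
  have hneg : χ (-1) = 1 := by
    have h := hχ (-1)
    rw [(QuotientGroup.eq_one_iff _).mpr (Subgroup.mem_zpowers _), map_one, Units.val_one,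
      Units.val_neg, Units.val_one] at h
    exact h
  refine ⟨⟨fun x => χ (x : ZMod q), q, NeZero.ne q, fun x y h => by rw [h], fun x => ?_⟩,
    χ.toMonoidHom.comp (Nat.castRingHom (ZMod q)).toMonoidHom, fun x => DirichletCharacter.norm_le_one χ _,
    fun n => ?_, fun n u hu => ?_⟩
  · show χ ((-x : ℤ) : ZMod q) = χ (x : ZMod q)
    rw [Int.cast_neg, ← neg_one_mul, map_mul, hneg, one_mul]
  · show χ ((n : ℤ) : ZMod q) = χ (n : ZMod q)
    rw [Int.cast_natCast]
  · show χ (n : ZMod q) = _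
    rw [← hu, hχ]

/-- The cyclotomic character at a Frobenius element at `p ≠ q` is the class of `p`. -/
theorem autToPow_eq_natCast {q : ℕ} [Fact q.Prime] {ζ : Qbar} (hζ : IsPrimitiveRoot ζ q) {p : ℕ}
    (hp : p.Prime) (hpq : p ≠ q) {A : ValuationSubring Qbar} (hA : A.LiesOverPrime p) {σ : GalQ}
    (hσ : A.IsFrobeniusAt σ p) : (hζ.autToPow ℚ σ : ZMod q) = p := by
  have hqp : q.Prime := Fact.out
  have h1 := hζ.autToPow_spec ℚ σ
  rw [apply_rootOfUnity_eq_pow hp hqp hpq hζ.pow_eq_one hA hσ] at h1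
  have h2 : ζ ^ (p % q) = ζ ^ p := by
    conv_rhs => rw [← Nat.div_add_mod p q, pow_add, pow_mul, hζ.pow_eq_one, one_pow, one_mul]
  have h3 := hζ.pow_inj (ZMod.val_lt _) (Nat.mod_lt _ hqp.pos) (h1.trans h2.symm)
  rw [← ZMod.natCast_zmod_val (hζ.autToPow ℚ σ : ZMod q), h3, ZMod.natCast_mod]

/-- If `2 m ∣ q - 1` for an odd prime `q`, then `m` divides the order of `(ZMod q)ˣ / ±1`. -/
theorem dvd_card_units_mod_neg_one {q m : ℕ} [Fact q.Prime] (hq2 : 2 < q)
    (h : 2 * m ∣ q - 1) :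
    m ∣ Nat.card ((ZMod q)ˣ ⧸ Subgroup.zpowers (-1 : (ZMod q)ˣ)) := by
  have h1 := Subgroup.card_eq_card_quotient_mul_card_subgroup
    (Subgroup.zpowers (-1 : (ZMod q)ˣ))
  have h2 : Nat.card (Subgroup.zpowers (-1 : (ZMod q)ˣ)) = 2 := by
    rw [Nat.card_zpowers]
    refine orderOf_eq_prime (by simp) fun h => ?_
    have h3 : ((-1 : ℤ) : ZMod q) = ((1 : ℤ) : ZMod q) := by
      simpa using congrArg Units.val h
    rw [ZMod.intCast_eq_intCast_iff_dvd_sub] at h3
    norm_num at h3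
    have := Int.le_of_dvd two_pos h3
    omega
  rw [Nat.card_eq_fintype_card (α := (ZMod q)ˣ), ZMod.card_units q, h2] at h1
  rw [h1, mul_comm] at h
  exact Nat.dvd_of_mul_dvd_mul_right two_pos h

/-- A homomorphism of finite level and the cyclotomic character at `q` factor through a common
finite Galois level. -/
theorem exists_level_prod {G : Type} {H : Type*} [Group G] [Group H] {π : GalQ →* G}
    (hfin : GaloisFactorsThroughFiniteLevel π) {q : ℕ} [Fact q.Prime] {ζ : Qbar}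
    (hζ : IsPrimitiveRoot ζ q) (mk : (ZMod q)ˣ →* H) :
    ∃ (M : IntermediateField ℚ Qbar) (_ : NumberField M) (_ : Normal ℚ M) (_ : IsGalois ℚ M)
      (PM : (M ≃ₐ[ℚ] M) →* G × H),
        ∀ σ, PM (AlgEquiv.restrictNormalHom M σ) = (π σ, mk (hζ.autToPow ℚ σ)) := by
  obtain ⟨L, hL, hLπ⟩ := hfin
  have hqp : q.Prime := Fact.out
  let L' : IntermediateField ℚ Qbar := L ⊔ IntermediateField.adjoin ℚ {ζ}
  have : FiniteDimensional ℚ (IntermediateField.adjoin ℚ {ζ}) :=
    IntermediateField.adjoin.finiteDimensional (hζ.isIntegral hqp.pos).tower_top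
  let M : IntermediateField ℚ Qbar := IntermediateField.normalClosure ℚ L' Qbar
  have hLM : L' ≤ M := L'.le_normalClosure
  have hnf : NumberField M := {}
  have hnormal : Normal ℚ M := normalClosure.normal ℚ L' Qbar
  have hgal : IsGalois ℚ M := ⟨⟩
  let r : GalQ →* (M ≃ₐ[ℚ] M) := AlgEquiv.restrictNormalHom M
  have hrsurj : Function.Surjective r := AlgEquiv.restrictNormalHom_surjective Qbar
  let P : GalQ →* G × H := π.prod (mk.comp (hζ.autToPow ℚ))
  have hker : r.ker ≤ P.ker := by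
    intro σ hσ
    have hfix : ∀ x ∈ L', σ x = x := fun x hx => by
      have h1 := AlgEquiv.restrictNormal_commutes σ M ⟨x, hLM hx⟩
      rw [show σ.restrictNormal M = 1 from hσ] at h1
      exact h1.symm
    rw [MonoidHom.mem_ker]
    have hc : hζ.autToPow ℚ σ = 1 := by
      have h1 := hζ.autToPow_spec ℚ σ
      rw [hfix ζ ((le_sup_right : IntermediateField.adjoin ℚ {ζ} ≤ L')
        (IntermediateField.mem_adjoin_simple_self ℚ ζ))] at h1
      refine Units.ext ?_
      rw [← ZMod.natCast_zmod_val (hζ.autToPow ℚ σ : ZMod q),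
        hζ.pow_inj (ZMod.val_lt _) hqp.one_lt (h1.trans (pow_one ζ).symm), Nat.cast_one,
        Units.val_one]
    exact Prod.ext (hLπ σ fun x hx => hfix x ((le_sup_left : L ≤ L') hx))
      (show mk (hζ.autToPow ℚ σ) = 1 by rw [hc, map_one])
  exact ⟨M, hnf, hnormal, hgal, r.liftOfSurjective hrsurj ⟨P, hker⟩, fun σ =>
    r.liftOfRightInverse_comp_apply _ (Function.rightInverse_surjInv hrsurj) ⟨P, hker⟩ σ⟩

/-- Averaging `f ≥ 0` over the good elements loses at most `n Σ f / 2 ^ k` from the mean of `f`,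
`n` being the order of `G` and `n ^ (k + 1)` dividing that of the cyclic group `H`. -/
theorem sum_good_ge {Γ G H : Type*} [Group Γ] [Fintype Γ] [Group G] [Fintype G] [CommGroup H]
    [Fintype H] [IsCyclic H] (φ : Γ →* G × H)
    (hφ₁ : Function.Surjective ((MonoidHom.fst G H).comp φ))
    (hφ₂ : Function.Surjective ((MonoidHom.snd G H).comp φ)) {f : G → ℝ} (hf : ∀ y, 0 ≤ f y)
    {k : ℕ} (hH : Fintype.card G ^ (k + 1) ∣ Nat.card H) {ε : ℝ}
    (hk : (Fintype.card G : ℝ) * (∑ g, f g) ≤ ε * 2 ^ k)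
    [DecidablePred fun x : Γ => IsGood (MonoidHom.snd G H) (φ x)] :
    Fintype.card Γ * ((∑ g, f g) / Fintype.card G - ε) ≤
      ∑ x ∈ Finset.univ.filter (fun x => IsGood (MonoidHom.snd G H) (φ x)), f (φ x).1 := by
  classical
  set n := Fintype.card G with hn
  set Sf := ∑ g, f g with hSf
  have hS0 : 0 ≤ Sf := Finset.sum_nonneg fun g _ => hf g
  have hn0 : n ≠ 0 := Fintype.card_ne_zero
  set D : ℝ := (Fintype.card Γ : ℝ)
  have hD : 0 < D := Nat.cast_pos.mpr Fintype.card_pos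
  set bad : Γ → ℝ := fun x => if IsGood (MonoidHom.snd G H) (φ x) then 0 else 1 with hbaddef
  have hbad : (∑ x, bad x) * 2 ^ k ≤ n * D := by
    have h1 : ∀ x, bad x ≤ if n ∣ orderOf (φ x).2 then (0 : ℝ) else 1 := by
      intro x
      by_cases hdv : n ∣ orderOf (φ x).2
      · rw [hbaddef, if_pos hdv]
        refine le_of_eq (if_pos fun m hm => ?_)
        have hnm : (n : ℤ) ∣ m := (Int.natCast_dvd_natCast.mpr hdv).trans
          (orderOf_dvd_iff_zpow_eq_one.mpr hm)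
        obtain ⟨j, rfl⟩ := hnm
        refine Prod.ext ?_ hm
        show (φ x).1 ^ ((n : ℤ) * j) = 1
        rw [zpow_mul, zpow_natCast, pow_card_eq_one, one_zpow]
      · rw [if_neg hdv]
        simp only [hbaddef]
        split_ifs <;> norm_num
    have h2 : (∑ x, if n ∣ orderOf (φ x).2 then (0 : ℝ) else 1) * Fintype.card H =
        (∑ h : H, if n ∣ orderOf h then (0 : ℝ) else 1) * D :=
      sum_comp_mul_card hφ₂ fun h : H => if n ∣ orderOf h then (0 : ℝ) else 1
    have h3 : (∑ h : H, if n ∣ orderOf h then (0 : ℝ) else 1) * 2 ^ k ≤ n * Fintype.card H := by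
      rw [Finset.sum_ite, Finset.sum_const_zero, zero_add, Finset.sum_const, nsmul_eq_mul, mul_one,
        ← Nat.card_eq_fintype_card]
      exact_mod_cast card_not_dvd_orderOf_le hn0 hH
    have hH' : (0 : ℝ) < Fintype.card H := Nat.cast_pos.mpr Fintype.card_pos
    refine le_trans (mul_le_mul_of_nonneg_right (Finset.sum_le_sum fun x _ => h1 x)
      (by positivity)) ?_
    refine le_of_mul_le_mul_right ?_ hH'
    calc _ = (∑ h : H, if n ∣ orderOf h then (0 : ℝ) else 1) * 2 ^ k * D := by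
          rw [mul_right_comm, h2, mul_right_comm]
      _ ≤ n * Fintype.card H * D := mul_le_mul_of_nonneg_right h3 hD.le
      _ = _ := by ring
  have h1 : ∀ x, f (φ x).1 - Sf * bad x ≤
      if IsGood (MonoidHom.snd G H) (φ x) then f (φ x).1 else 0 := by
    intro x
    simp only [hbaddef]
    split_ifs
    · simp
    · rw [mul_one, sub_nonpos]
      exact Finset.single_le_sum (fun g _ => hf g) (Finset.mem_univ _)
  have h2 := Finset.sum_le_sum (s := Finset.univ) fun x _ => h1 x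
  rw [Finset.sum_sub_distrib, ← Finset.mul_sum, ← Finset.sum_filter] at h2
  have h3 : (∑ x, f (φ x).1) * n = Sf * D := sum_comp_mul_card hφ₁ f
  have h4 : Sf * ∑ x, bad x ≤ D * ε := by
    refine le_of_mul_le_mul_right ?_ (pow_pos two_pos k : (0 : ℝ) < 2 ^ k)
    nlinarith [mul_le_mul_of_nonneg_left hbad hS0, mul_le_mul_of_nonneg_left hk hD.le]
  have h5 : ∑ x, f (φ x).1 = D * (Sf / n) := by
    have hn' : (n : ℝ) ≠ 0 := Nat.cast_ne_zero.mpr hn0
    field_simp
    linarith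
  linarith

/-- A lower bound by a multiple of `log (1/(s-1))` near one extends to all of `(1, 2]`. -/
theorem exists_bound_Ioc_of_eventually {Z : ℝ → ℝ} {c C : ℝ} (hZ : ∀ s, 1 < s → 0 ≤ Z s)
    (h : ∀ᶠ s in 𝓝[>] (1 : ℝ), c * Real.log (1 / (s - 1)) ≤ Z s + C) :
    ∃ B, ∀ s ∈ Set.Ioc (1 : ℝ) 2, c * Real.log (1 / (s - 1)) ≤ Z s + B := by
  obtain ⟨u, hu, hsub⟩ := mem_nhdsGT_iff_exists_Ioo_subset.mp h
  have hu1 : (1 : ℝ) < u := hu
  refine ⟨|C| + |c| * |Real.log (u - 1)|, fun s hs => ?_⟩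
  have hs1 : 1 < s := hs.1
  rcases lt_or_ge s u with hsu | hsu
  · have h1 : c * Real.log (1 / (s - 1)) ≤ Z s + C := hsub ⟨hs1, hsu⟩
    linarith [le_abs_self C, mul_nonneg (abs_nonneg c) (abs_nonneg (Real.log (u - 1)))]
  · have hlogs : 0 ≤ Real.log (1 / (s - 1)) :=
      Real.log_nonneg (by rw [le_div_iff₀ (by linarith)]; linarith [hs.2])
    have h1 : Real.log (1 / (s - 1)) ≤ |Real.log (u - 1)| := by
      rw [one_div, Real.log_inv]
      exact (neg_le_neg (Real.log_le_log (by linarith) (by linarith))).trans (neg_le_abs _)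
    linarith [mul_le_mul_of_nonneg_right (le_abs_self c) hlogs, hZ s hs1, abs_nonneg C,
      mul_le_mul_of_nonneg_left h1 (abs_nonneg c)]

/-- A finite set of primes outside `T` carries all but `1 + ∑_T g` of the series `sumP g s`. -/
theorem exists_finset_sumP_le {g : Nat.Primes → ℝ} {S : ℝ} (hg : ∀ p, 0 ≤ g p)
    (hgS : ∀ p, g p ≤ S) (T : Finset Nat.Primes) {s : ℝ} (hs : 1 < s) :
    ∃ V : Finset Nat.Primes, Disjoint V T ∧
      sumP g s - (∑ p ∈ T, g p + 1) ≤ ∑ p ∈ V, g p * (p : ℝ) ^ (-s) := by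
  classical
  have hsum := summable_sumP (fun p => (abs_of_nonneg (hg p)).trans_le (hgS p)) hs
  obtain ⟨V, hV⟩ : ∃ V : Finset Nat.Primes,
      sumP g s - 1 < ∑ p ∈ V, g p * (p : ℝ) ^ (-s) :=
    (hsum.hasSum.eventually (Ioi_mem_nhds (show sumP g s - 1 < sumP g s by linarith))).exists
  refine ⟨V \ T, Finset.sdiff_disjoint, ?_⟩
  have hsd := Finset.sum_inter_add_sum_sdiff V T fun p => g p * (p : ℝ) ^ (-s)
  have hloss : ∑ p ∈ V ∩ T, g p * (p : ℝ) ^ (-s) ≤ ∑ p ∈ T, g p := by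
    refine (Finset.sum_le_sum fun p _ => mul_le_of_le_one_right (hg _) ?_).trans
      (Finset.sum_le_sum_of_subset_of_nonneg Finset.inter_subset_right fun p _ _ => hg _)
    exact Real.rpow_le_one_of_one_le_of_nonpos (by exact_mod_cast p.2.one_le) (by linarith)
  linarith

/-- **Chebotarev, lower bound for inverse closed classes.**  The primes of `T` are unramified for
`π` and carry a Frobenius element with image `a p`. -/
theorem exists_sum_frob_ge {G : Type} [Group G] [Fintype G] (π : GalQ →* G)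
    (hfin : GaloisFactorsThroughFiniteLevel π) (hsurj : Function.Surjective π) (f : G → ℝ)
    (hf : ∀ y, 0 ≤ f y) (hconj : ∀ x y, f (x * y * x⁻¹) = f y) (hinv : ∀ y, f y⁻¹ = f y)
    (excluded : Finset ℕ) {ε : ℝ} (hε : 0 < ε) :
    ∃ B : ℝ, ∀ s ∈ Set.Ioc (1 : ℝ) 2, ∃ T : Finset ℕ,
      (∀ p ∈ T, p.Prime ∧ p ∉ excluded) ∧ ∃ a : ℕ → G,
        (∀ p ∈ T,
          (∀ V : ValuationSubring Qbar, V.LiesOverPrime p → ∀ τ ∈ V.inertiaSubgroupIn ℚ,
            π τ = 1) ∧
          ∃ A : ValuationSubring Qbar, A.LiesOverPrime p ∧ ∃ σ : GalQ,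
            A.IsFrobeniusAt σ p ∧ π σ = a p) ∧
        ((∑ g, f g) / Fintype.card G - ε) * Real.log (1 / (s - 1)) - B ≤
          ∑ p ∈ T, f (a p) * (p : ℝ) ^ (-s) := by
  classical
  set n := Fintype.card G with hn
  set Sf := ∑ g, f g with hSf
  obtain ⟨k, hk⟩ : ∃ k : ℕ, (n : ℝ) * Sf / ε < 2 ^ k := pow_unbounded_of_one_lt _ one_lt_two
  rw [div_lt_iff₀ hε] at hk
  -- the auxiliary prime and the finite level
  obtain ⟨q, hq2, hqp, hq1⟩ := Nat.forall_exists_prime_gt_and_modEq 2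
    (q := 2 * n ^ (k + 1)) (a := 1) (by positivity) (Nat.coprime_one_left _)
  have : Fact q.Prime := ⟨hqp⟩
  obtain ⟨ζ, hζ⟩ : ∃ ζ : Qbar, IsPrimitiveRoot ζ q :=
    ⟨_, (HasEnoughRootsOfUnity.exists_primitiveRoot Qbar q).choose_spec⟩
  let H := (ZMod q)ˣ ⧸ Subgroup.zpowers (-1 : (ZMod q)ˣ)
  have hcycH : IsCyclic H :=
    isCyclic_of_surjective (QuotientGroup.mk' (Subgroup.zpowers (-1 : (ZMod q)ˣ)))
      (QuotientGroup.mk'_surjective _)
  have hcardH : n ^ (k + 1) ∣ Nat.card H :=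
    dvd_card_units_mod_neg_one hq2 ((Nat.modEq_iff_dvd' hqp.one_le).mp hq1.symm)
  obtain ⟨M, _, _, _, PM, hPM⟩ := exists_level_prod hfin hζ
    (QuotientGroup.mk' (Subgroup.zpowers (-1 : (ZMod q)ˣ)))
  obtain ⟨T₀, hT₀⟩ := exists_finset_frobenius_lift M
  -- Frobenius elements
  let T₁ : Finset Nat.Primes := insert ⟨q, hqp⟩ T₀
  have hfrob : ∀ p : Nat.Primes, p ∉ T₁ → ∃ A : ValuationSubring Qbar, A.LiesOverPrime p ∧
      ∃ σ : GalQ, A.IsFrobeniusAt σ p ∧ π σ = (PM (someFrob M p)).1 ∧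
        ∃ u : (ZMod q)ˣ, (u : ZMod q) = (p : ℕ) ∧ (PM (someFrob M p)).2 = QuotientGroup.mk u := by
    intro p hp
    replace hp : p ≠ ⟨q, hqp⟩ ∧ p ∉ T₀ :=
      ⟨fun h => hp (h ▸ Finset.mem_insert_self _ _), fun h => hp (Finset.mem_insert_of_mem h)⟩
    obtain ⟨-, A, hA, σ, hσ, hrσ⟩ := hT₀ p hp.2
    refine ⟨A, hA, σ, hσ, ?_, hζ.autToPow ℚ σ,
      autToPow_eq_natCast hζ p.2 (fun h => hp.1 (Subtype.ext h)) hA hσ, ?_⟩
    · rw [← hrσ, hPM]
    · rw [← hrσ, hPM]; rfl
  let χ' : G × H →* H := MonoidHom.snd G H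
  have hper : IsPeriodicChar M (H := H) (χ'.comp PM) := by
    intro ψ
    obtain ⟨Ψ, c, hΨ, hΨc, hc⟩ := exists_evenPeriodic q ψ
    refine ⟨Ψ, c, T₁, hΨ, hΨc, fun p hp => ?_⟩
    obtain ⟨A, -, σ, -, -, u, hu, hu2⟩ := hfrob p hp
    rw [hc p u hu, MonoidHom.comp_apply]
    exact congrArg (fun h : H => (ψ h : ℂ)) hu2.symm
  have hχsurj : Function.Surjective (χ'.comp PM) := by
    intro h
    obtain ⟨u, rfl⟩ := QuotientGroup.mk_surjective h
    obtain ⟨p, hpgt, hpp, hpu⟩ := Nat.forall_exists_prime_gt_and_eq_mod (q := q) u.isUnit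
      (T₁.sup fun p => (p : ℕ))
    obtain ⟨A, -, σ, -, -, u', hu', hu2⟩ := hfrob ⟨p, hpp⟩ fun hm =>
      absurd (Finset.le_sup (f := fun p : Nat.Primes => (p : ℕ)) hm) (not_le.mpr hpgt)
    exact ⟨someFrob M ⟨p, hpp⟩, hu2.trans (by rw [Units.ext (hu'.trans hpu)])⟩
  have hπsurj : Function.Surjective ((MonoidHom.fst G H).comp PM) := fun g => by
    obtain ⟨σ, rfl⟩ := hsurj g
    exact ⟨_, congrArg Prod.fst (hPM σ)⟩
  have : Fintype (M ≃ₐ[ℚ] M) := Fintype.ofFinite _
  have : Fintype H := Fintype.ofFinite _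
  obtain ⟨C, hC⟩ := le_sumP_frob (H := H) M PM χ' hper (fun y => f y.1) (fun y => hf _)
    (fun x y => hconj _ _) (fun y => hinv _)
  have hA := sum_good_ge PM hπsurj hχsurj hf hcardH (ε := ε) (by linarith [hk])
  -- the bound on the series
  set g : Nat.Primes → ℝ := fun p => f (PM (someFrob M p)).1
  set D : ℝ := (Fintype.card (M ≃ₐ[ℚ] M) : ℝ)
  have hD : 0 < D := Nat.cast_pos.mpr Fintype.card_pos
  obtain ⟨B, hB⟩ : ∃ B, ∀ s ∈ Set.Ioc (1 : ℝ) 2,
      (Sf / n - ε) * Real.log (1 / (s - 1)) ≤ sumP g s + B := by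
    refine exists_bound_Ioc_of_eventually (C := C / D)
      (fun s _ => tsum_nonneg fun p => mul_nonneg (hf _) (by positivity)) ?_
    filter_upwards [hC, tendsto_logPole.eventually_ge_atTop 0] with s h1 hlog
    simp only [logPole, ← one_div, Nat.card_eq_fintype_card] at h1 hlog
    refine le_of_mul_le_mul_left ?_ hD
    rw [mul_add, mul_div_cancel₀ _ hD.ne', ← mul_assoc]
    linarith [mul_le_mul_of_nonneg_right hA hlog]
  let T₂ : Finset Nat.Primes := T₁ ∪ (excluded.filter Nat.Prime).subtype Nat.Prime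
  refine ⟨B + (∑ p ∈ T₂, g p + 1), fun s hs => ?_⟩
  obtain ⟨V, hVT, hV⟩ := exists_finset_sumP_le (g := g) (fun p => hf _)
    (fun p => Finset.single_le_sum (fun y _ => hf y) (Finset.mem_univ _)) T₂ hs.1
  let e : Nat.Primes ↪ ℕ := ⟨fun p => (p : ℕ), Subtype.val_injective⟩
  let a : ℕ → G := fun p => if hp : p.Prime then (PM (someFrob M ⟨p, hp⟩)).1 else 1
  have ha : ∀ p : Nat.Primes, a (e p) = (PM (someFrob M p)).1 := fun p => dif_pos p.2
  refine ⟨V.map e, ?_, a, ?_, ?_⟩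
  · intro p hp
    obtain ⟨p₀, hp₀, rfl⟩ := Finset.mem_map.mp hp
    refine ⟨p₀.2, fun h => Finset.disjoint_left.mp hVT hp₀ ?_⟩
    exact Finset.mem_union_right _ (Finset.mem_subtype.mpr (Finset.mem_filter.mpr ⟨h, p₀.2⟩))
  · intro p hp
    obtain ⟨p₀, hp₀, rfl⟩ := Finset.mem_map.mp hp
    have hp1 : p₀ ∉ T₁ := fun h => Finset.disjoint_left.mp hVT hp₀ (Finset.mem_union_left _ h)
    refine ⟨fun V' hV' τ hτ => ?_, ?_⟩
    · have h2 := congrArg Prod.fst (hPM τ)
      rw [(hT₀ p₀ fun h => hp1 (Finset.mem_insert_of_mem h)).1 V' hV' τ hτ, map_one] at h2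
      exact h2.symm
    · obtain ⟨A', hA', σ, hσ, hπσ, -⟩ := hfrob p₀ hp1
      exact ⟨A', hA', σ, hσ, by rw [hπσ]; exact (ha p₀).symm⟩
  · rw [Finset.sum_map V e, Finset.sum_congr (s₁ := V) rfl
      (g := fun p : Nat.Primes => g p * (p : ℝ) ^ (-s)) fun p _ => by rw [ha]; rfl]
    linarith [hB s hs]

end Fermat.Agent.ChebotarevFull
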