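import Fermat.Agent.ChebotarevFull.ConeWeight
import Mathlib.Algebra.Module.ZLattice.Summable
import Mathlib.LinearAlgebra.FreeModule.IdealQuotient

/-!
# Periodic lattice sums weighted by the partition of unity

For `f` periodic modulo a positive integer, `∑ f(α) g_s(α) - κ ∑ g_s(α)` stays bounded as
`s → 1⁺`, with `κ` the mean of `f`.
-/

set_option autoImplicit false

noncomputable section

namespace Fermat.Agent.ChebotarevFull

open NumberField NumberField.InfinitePlace NumberField.Units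
  NumberField.Units.dirichletUnitTheorem

variable {F : Type*} [Field F] [NumberField F]

theorem one_le_size {α : 𝓞 F} (hα : α ≠ 0) : 1 ≤ size (α : F) := by
  by_cases h : ∀ z : InfinitePlace F, z ≠ w₀ → z (α : F) < 1
  · exact (one_le_of_lt_one hα h).trans (apply_le_size _ _)
  · push Not at h
    obtain ⟨z, -, hz⟩ := h
    exact hz.trans (apply_le_size z _)

theorem one_le_abs_norm {α : 𝓞 F} (hα : α ≠ 0) :
    1 ≤ |((Algebra.norm ℚ (α : F) : ℚ) : ℝ)| := by
  rw [← Algebra.coe_norm_int]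
  push_cast
  rw [← Int.cast_abs]
  exact_mod_cast Int.one_le_abs (Algebra.norm_ne_zero_iff.mpr hα)

omit [NumberField F] in
theorem apply_natCast_mul (n : ℕ) (v : InfinitePlace F) (β : F) :
    v ((n : F) * β) = n * v β := by
  rw [map_mul]
  congr 1
  rw [← norm_embedding_eq, map_natCast]
  simp

theorem size_natCast_mul (n : ℕ) (β : F) : size ((n : F) * β) = n * size β := by
  simp only [size, apply_natCast_mul, Finset.mul_sum]

/-- `∑ (1 + size β) ^ (-r)` over the integers converges for `r > [F : ℚ]`. -/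
theorem summable_one_add_size_rpow {r : ℝ} (hr : (Module.finrank ℚ F : ℝ) < r) :
    Summable fun β : 𝓞 F => (1 + size (β : F)) ^ (-r) := by
  classical
  set L := mixedEmbedding.integerLattice F
  have hrk : Module.finrank ℤ L = Module.finrank ℚ F := by
    rw [ZLattice.rank ℝ, mixedEmbedding.finrank]
  have hr0 : 0 < r := lt_of_le_of_lt (Nat.cast_nonneg _) hr
  have h := ZLattice.summable_norm_rpow L (-r) (by rw [hrk]; linarith)
  let φ : 𝓞 F → L := fun β => ⟨mixedEmbedding F (β : F), ⟨β, rfl⟩⟩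
  have hφ : Function.Injective φ := fun a b hab =>
    RingOfIntegers.coe_injective (mixedEmbedding_injective F (congrArg Subtype.val hab))
  refine Summable.of_norm_bounded_eventually (h.comp_injective hφ) ?_
  filter_upwards [(Set.finite_singleton (0 : 𝓞 F)).compl_mem_cofinite] with β hβ
  simp only [Set.mem_compl_iff, Set.mem_singleton_iff] at hβ
  have hnorm : ‖φ β‖ ≤ size (β : F) := by
    rw [Submodule.coe_norm, mixedEmbedding.norm_eq_sup'_normAtPlace]
    exact Finset.sup'_le _ _ fun v _ => by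
      rw [mixedEmbedding.normAtPlace_apply]; exact apply_le_size v _
  have hpos : 0 < ‖φ β‖ := norm_pos_iff.mpr fun h0 => hβ <| by
    have : mixedEmbedding F (β : F) = 0 := congrArg Subtype.val h0
    exact RingOfIntegers.coe_injective (mixedEmbedding_injective F (by simpa using this))
  rw [Real.norm_eq_abs, abs_of_nonneg (Real.rpow_nonneg (by linarith [size_nonneg (β : F)]) _)]
  exact Real.rpow_le_rpow_of_nonpos hpos (by linarith) (by linarith)

/-- `gFun s` is at most one on the integers. -/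
theorem gFun_le_one {s : ℝ} (hs : 1 ≤ s) (γ : 𝓞 F) : gFun s (γ : F) ≤ 1 := by
  by_cases hγ : γ = 0
  · simp [gFun, hγ, weight_zero]
  · calc gFun s (γ : F) ≤ 1 * |((Algebra.norm ℚ (γ : F) : ℚ) : ℝ)| ^ (-s) :=
          mul_le_mul_of_nonneg_right (weight_le_one _) (Real.rpow_nonneg (abs_nonneg _) _)
      _ ≤ 1 := by
          rw [one_mul]
          exact Real.rpow_le_one_of_one_le_of_nonpos (one_le_abs_norm hγ) (by linarith)

variable (F) in
/-- `gFun s` decays like `(1 + size) ^ (-s [F : ℚ])`, since its support lies where all absolute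
values are comparable to the size. -/
theorem exists_gFun_le :
    ∃ K : ℝ, 0 ≤ K ∧ ∀ s : ℝ, 1 ≤ s → s ≤ 2 → ∀ α : 𝓞 F,
      gFun s (α : F) ≤ K * (1 + size (α : F)) ^ (-(s * Module.finrank ℚ F)) := by
  classical
  obtain ⟨c₀, hc₀, hsupp⟩ := exists_support_bound F
  set n := Module.finrank ℚ F with hn
  set d := min c₀ 1 with hd
  have hd0 : 0 < d := lt_min hc₀ one_pos
  refine ⟨(d / 2) ^ (-(2 * n : ℝ)), by positivity, fun s hs hs2 α => ?_⟩
  by_cases hw : weight (α : F) = 0
  · rw [gFun, hw, zero_mul]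
    have := size_nonneg (α : F)
    positivity
  have hα : α ≠ 0 := fun h => hw (by simp [h, weight_zero])
  have h1 := one_le_size hα
  have hsn : 0 ≤ size (α : F) := size_nonneg _
  calc gFun s (α : F)
      ≤ 1 * |((Algebra.norm ℚ (α : F) : ℚ) : ℝ)| ^ (-s) :=
        mul_le_mul_of_nonneg_right (weight_le_one _) (Real.rpow_nonneg (abs_nonneg _) _)
    _ ≤ ((d / 2 * (1 + size (α : F))) ^ n) ^ (-s) := by
        rw [one_mul]
        refine Real.rpow_le_rpow_of_nonpos (by positivity) ?_ (by linarith)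
        rw [abs_norm_eq_prod, hn, ← sum_mult_eq, ← Finset.prod_pow_eq_pow_sum]
        refine Finset.prod_le_prod (fun v _ => by positivity)
          fun v _ => pow_le_pow_left₀ (by positivity) ?_ _
        refine le_trans ?_ (hsupp _ hw v)
        calc d / 2 * (1 + size (α : F)) ≤ d / 2 * (2 * size (α : F)) :=
              mul_le_mul_of_nonneg_left (by linarith) (by linarith)
          _ = d * size (α : F) := by ring
          _ ≤ c₀ * size (α : F) := mul_le_mul_of_nonneg_right (min_le_left _ _) hsn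
    _ = (d / 2) ^ (-(s * n)) * (1 + size (α : F)) ^ (-(s * n)) := by
        rw [← Real.rpow_natCast_mul (by positivity),
          ← Real.mul_rpow (by positivity) (by positivity)]
        congr 1
        ring
    _ ≤ (d / 2) ^ (-(2 * n : ℝ)) * (1 + size (α : F)) ^ (-(s * n)) := by
        refine mul_le_mul_of_nonneg_right ?_ (Real.rpow_nonneg (by linarith) _)
        refine Real.rpow_le_rpow_of_exponent_ge (by positivity) ?_ (by nlinarith)
        linarith [min_le_right c₀ 1]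

/-- Close elements have close sizes. -/
theorem size_le_size_add {α β : F} {ρ : ℝ} (h : ∀ v : InfinitePlace F, v (β - α) ≤ ρ) :
    size α ≤ size β + Fintype.card (InfinitePlace F) * ρ := by
  calc size α ≤ ∑ v : InfinitePlace F, (v β + ρ) := Finset.sum_le_sum fun v _ => by
        have h1 : |v β - v α| ≤ ρ := (v.1.abs_abv_sub_le_abv_sub β α).trans (h v)
        linarith [abs_le.mp h1]
    _ = _ := by simp [size, Finset.sum_add_distrib]

/-- In the range `x ≤ B ρ` the constant two is below `ρ ^ (2 n + 1) (1 + x) ^ (-(n + 1))`, up to a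
constant. -/
theorem two_le_pow_mul_rpow {n : ℕ} {B ρ x : ℝ} (hB : 0 ≤ B) (hρ : 1 ≤ ρ) (hx : 0 ≤ x)
    (hxB : x ≤ B * ρ) :
    2 ≤ 2 * (1 + B) ^ ((n : ℝ) + 1) * ρ ^ (2 * n + 1) * (1 + x) ^ (-((n : ℝ) + 1)) := by
  have h1 : ((1 + B) * ρ) ^ (-((n : ℝ) + 1)) ≤ (1 + x) ^ (-((n : ℝ) + 1)) :=
    Real.rpow_le_rpow_of_nonpos (by linarith) (by nlinarith) (by linarith)
  rw [Real.mul_rpow (by positivity) (by linarith)] at h1
  have h2 : 1 ≤ ρ ^ (2 * n + 1) * ρ ^ (-((n : ℝ) + 1)) := by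
    rw [← Real.rpow_natCast, ← Real.rpow_add (by linarith)]
    refine Real.one_le_rpow hρ ?_
    push_cast
    have : (0 : ℝ) ≤ n := Nat.cast_nonneg _
    linarith
  have hB0 : 0 < 1 + B := by positivity
  calc (2 : ℝ) ≤ 2 * (ρ ^ (2 * n + 1) * ρ ^ (-((n : ℝ) + 1))) := by linarith
    _ = 2 * (1 + B) ^ ((n : ℝ) + 1) * ρ ^ (2 * n + 1) * ((1 + B) ^ (-((n : ℝ) + 1)) *
        ρ ^ (-((n : ℝ) + 1))) := by
        rw [Real.rpow_neg hB0.le]
        field_simp
    _ ≤ _ := mul_le_mul_of_nonneg_left h1 (by positivity)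

variable (F) in
/-- Gradient bound far from the origin: from a supported base point `γ` of size at least half of
that of `α`, when `ρ` is small compared with the size of `α`. -/
theorem exists_gFun_sub_le_far :
    ∃ c K : ℝ, 0 < c ∧ 0 ≤ K ∧ ∀ s : ℝ, 1 ≤ s → s ≤ 2 → ∀ ρ : ℝ, 1 ≤ ρ → ∀ α γ δ : 𝓞 F,
      weight (γ : F) ≠ 0 → (∀ v : InfinitePlace F, v ((δ : F) - γ) ≤ ρ) →
      4 / c * ρ ≤ size (α : F) → size (α : F) / 2 ≤ size (γ : F) →
        |gFun s (δ : F) - gFun s (γ : F)| ≤ K * ρ ^ (2 * Module.finrank ℚ F + 1) *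
          (1 + size (α : F)) ^ (-((Module.finrank ℚ F : ℝ) + 1)) := by
  classical
  obtain ⟨c₁, C₁, hc₁, hC₁, hgrad⟩ := exists_gFun_sub_le F
  set n := Module.finrank ℚ F
  set e := min (c₁ / 2) 1 with he
  have he0 : 0 < e := lt_min (by linarith) one_pos
  refine ⟨c₁, C₁ * e ^ (-(2 * n : ℝ)) * 4 ^ ((n : ℝ) + 1), hc₁, by positivity,
    fun s hs hs2 ρ hρ α γ δ hγ hγδ hc4 hγα => ?_⟩
  have hγ0 : γ ≠ 0 := fun h => hγ (by simp [h, weight_zero])
  have hy1 := one_le_size hγ0
  have hsα := size_nonneg (α : F)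
  have hcρ : 2 * ρ ≤ c₁ * size (γ : F) := by
    have h5 : 4 / c₁ * ρ ≤ 2 * size (γ : F) := by linarith
    have h6 := mul_le_mul_of_nonneg_left h5 hc₁.le
    rw [← mul_assoc, mul_div_cancel₀ _ hc₁.ne'] at h6
    linarith
  refine (hgrad s hs hs2 (γ : F) (δ : F) hγ ρ (by linarith) hγδ hcρ).trans ?_
  have hy0 : 0 < size (γ : F) := lt_of_lt_of_le one_pos hy1
  calc C₁ * ρ * (size (γ : F))⁻¹ * (c₁ / 2 * size (γ : F)) ^ (-(s * n))
      ≤ C₁ * ρ * (size (γ : F))⁻¹ * (e * size (γ : F)) ^ (-(s * n)) := by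
        refine mul_le_mul_of_nonneg_left ?_ (by positivity)
        exact Real.rpow_le_rpow_of_nonpos (by positivity)
          (mul_le_mul_of_nonneg_right (min_le_left _ _) hy0.le)
          (neg_nonpos.mpr (by positivity))
    _ = C₁ * ρ * e ^ (-(s * n)) * (size (γ : F)) ^ (-(s * n) - 1) := by
        rw [Real.mul_rpow he0.le hy0.le, Real.rpow_sub hy0, Real.rpow_one]
        field_simp
    _ ≤ C₁ * ρ ^ (2 * n + 1) * e ^ (-(2 * n : ℝ)) *
        (4 ^ ((n : ℝ) + 1) * (1 + size (α : F)) ^ (-((n : ℝ) + 1))) := by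
        refine mul_le_mul (mul_le_mul (mul_le_mul_of_nonneg_left ?_ hC₁) ?_
          (Real.rpow_nonneg he0.le _) (by positivity)) ?_
          (Real.rpow_nonneg hy0.le _) (by positivity)
        · exact le_self_pow₀ hρ (by omega)
        · exact Real.rpow_le_rpow_of_exponent_ge he0 (min_le_right _ _) (by nlinarith)
        · calc (size (γ : F)) ^ (-(s * n) - 1) ≤ (size (γ : F)) ^ (-((n : ℝ) + 1)) :=
                Real.rpow_le_rpow_of_exponent_le hy1 (by nlinarith)
            _ ≤ ((1 + size (α : F)) / 4) ^ (-((n : ℝ) + 1)) :=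
                Real.rpow_le_rpow_of_nonpos (by positivity) (by linarith)
                  (neg_nonpos.mpr (by positivity))
            _ = _ := by
                rw [Real.div_rpow (by linarith) (by norm_num),
                  Real.rpow_neg (by norm_num : (0 : ℝ) ≤ 4)]
                field_simp
    _ = _ := by ring

variable (F) in
/-- Uniform size and gradient bounds on the integers. -/
theorem exists_gFun_bounds :
    ∃ C : ℝ, 0 ≤ C ∧ ∀ s : ℝ, 1 ≤ s → s ≤ 2 →
      (∀ α : 𝓞 F, gFun s (α : F) ≤ C * (1 + size (α : F)) ^ (-(s * Module.finrank ℚ F))) ∧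
      ∀ ρ : ℝ, 1 ≤ ρ → ∀ α β : 𝓞 F, (∀ v : InfinitePlace F, v ((β : F) - α) ≤ ρ) →
        |gFun s (β : F) - gFun s (α : F)| ≤
          C * ρ ^ (2 * Module.finrank ℚ F + 1) *
            (1 + size (α : F)) ^ (-((Module.finrank ℚ F : ℝ) + 1)) := by
  classical
  obtain ⟨K₁, hK₁, hle⟩ := exists_gFun_le F
  obtain ⟨c₁, K₃, hc₁, hK₃, hfar⟩ := exists_gFun_sub_le_far F
  set n := Module.finrank ℚ F
  set V : ℝ := (Fintype.card (InfinitePlace F) : ℝ) with hV
  have hV1 : 1 ≤ V := Nat.one_le_cast.mpr Fintype.card_pos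
  set B := (4 / c₁ + 4) * V with hB
  set K₂ := 2 * (1 + B) ^ ((n : ℝ) + 1)
  have hK₂ : 0 ≤ K₂ := by positivity
  refine ⟨K₁ + K₂ + K₃, by positivity, fun s hs hs2 => ⟨fun α => (hle s hs hs2 α).trans ?_,
    fun ρ hρ α β hαβ => ?_⟩⟩
  · exact mul_le_mul_of_nonneg_right (by linarith)
      (Real.rpow_nonneg (by linarith [size_nonneg (α : F)]) _)
  have hsα := size_nonneg (α : F)
  set Q := ρ ^ (2 * n + 1) * (1 + size (α : F)) ^ (-((n : ℝ) + 1)) with hQ
  rw [mul_assoc, ← hQ]
  have hQ0 : 0 ≤ Q := by positivity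
  by_cases hsmall : size (α : F) ≤ B * ρ
  · -- bounded region
    have hK : 2 ≤ K₂ * Q := by
      rw [hQ, ← mul_assoc]
      exact two_le_pow_mul_rpow (by positivity) hρ hsα hsmall
    rw [abs_le]
    constructor <;>
      nlinarith [gFun_le_one hs α, gFun_le_one hs β, gFun_nonneg s (α : F), gFun_nonneg s (β : F)]
  · push Not at hsmall
    -- reduce to a supported base point
    have hβα : ∀ v : InfinitePlace F, v ((α : F) - β) ≤ ρ := fun v => by
      rw [← norm_embedding_eq, map_sub, norm_sub_rev, ← map_sub, norm_embedding_eq]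
      exact hαβ v
    have hVρ : 4 * (V * ρ) ≤ size (α : F) ∧ 4 / c₁ * ρ ≤ size (α : F) := by
      have h1 : 0 ≤ 4 / c₁ * V * ρ := by positivity
      have h2 : 4 / c₁ * ρ ≤ 4 / c₁ * V * ρ := by
        rw [mul_assoc]
        exact mul_le_mul_of_nonneg_left (le_mul_of_one_le_left (by linarith) hV1) (by positivity)
      constructor <;> nlinarith
    have goal' : |gFun s (β : F) - gFun s (α : F)| ≤ K₃ * Q := by
      rw [hQ, ← mul_assoc]
      by_cases hwα : weight (α : F) = 0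
      · by_cases hwβ : weight (β : F) = 0
        · simp only [gFun, hwα, hwβ, zero_mul, sub_zero, abs_zero]
          positivity
        · rw [abs_sub_comm]
          exact hfar s hs hs2 ρ hρ α β α hwβ hβα hVρ.2
            (by linarith [size_le_size_add hαβ, hVρ.1])
      · exact hfar s hs hs2 ρ hρ α α β hwα hαβ hVρ.2 (by linarith)
    nlinarith

/-- The weighted norm series converges for `s > 1`. -/
theorem summable_gFun {s : ℝ} (hs : 1 < s) (hs2 : s ≤ 2) :
    Summable fun α : 𝓞 F => gFun s (α : F) := by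
  obtain ⟨C, -, hC⟩ := exists_gFun_bounds F
  refine Summable.of_nonneg_of_le (fun α => gFun_nonneg s _) (hC s hs.le hs2).1
    ((summable_one_add_size_rpow ?_).mul_left C)
  have : (1 : ℝ) ≤ Module.finrank ℚ F := Nat.one_le_cast.mpr Module.finrank_pos
  nlinarith

/-- The main estimate. -/
theorem exists_periodicSum_bound (M : ℕ) [NeZero M] (f : 𝓞 F → ℂ)
    (hf : ∀ α β : 𝓞 F, f (α + (M : 𝓞 F) * β) = f α) :
    ∃ (κ : ℂ) (C : ℝ), ∀ s : ℝ, 1 < s → s ≤ 2 →
      (Summable fun α : 𝓞 F => f α * (gFun s (α : F) : ℂ)) ∧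
      ‖(∑' α : 𝓞 F, f α * (gFun s (α : F) : ℂ)) - κ * ((∑' α : 𝓞 F, gFun s (α : F) : ℝ) : ℂ)‖
        ≤ C := by
  classical
  have hM : (M : 𝓞 F) ≠ 0 := Nat.cast_ne_zero.mpr (NeZero.ne M)
  set I : Ideal (𝓞 F) := Ideal.span {(M : 𝓞 F)} with hI
  have : Finite (𝓞 F ⧸ I) := Ideal.finiteQuotientOfFreeOfNeBot I
    (by simpa [hI, Ideal.span_singleton_eq_bot] using hM)
  have : Fintype (𝓞 F ⧸ I) := Fintype.ofFinite _
  set rep : (𝓞 F ⧸ I) → 𝓞 F := fun r => Quotient.out r with hrep
  have hrep' : ∀ r, Ideal.Quotient.mk I (rep r) = r := fun r => Quotient.out_eq r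
  have hbij : Function.Bijective fun x : (𝓞 F ⧸ I) × 𝓞 F => rep x.1 + (M : 𝓞 F) * x.2 := by
    constructor
    · rintro ⟨r, b⟩ ⟨r', b'⟩ h
      have hr : r = r' := by
        have hM0 : Ideal.Quotient.mk I (M : 𝓞 F) = 0 :=
          Ideal.Quotient.eq_zero_iff_mem.mpr (Ideal.mem_span_singleton_self _)
        have := congrArg (Ideal.Quotient.mk I) h
        simp only [map_add, map_mul, hM0, zero_mul, add_zero, hrep'] at this
        exact this
      subst hr
      exact Prod.ext rfl (mul_left_cancel₀ hM (add_left_cancel h))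
    · intro α
      have : α - rep (Ideal.Quotient.mk I α) ∈ I := by
        rw [← Ideal.Quotient.eq_zero_iff_mem, map_sub, hrep', sub_self]
      obtain ⟨b, hb⟩ := Ideal.mem_span_singleton'.mp this
      exact ⟨⟨Ideal.Quotient.mk I α, b⟩, by simp only; rw [mul_comm, hb]; ring⟩
  set e := Equiv.ofBijective _ hbij with he
  obtain ⟨C, hC0, hC⟩ := exists_gFun_bounds F
  set R : ℝ := 1 + ∑ r : 𝓞 F ⧸ I, size (rep r : F) with hR
  have hR1 : 1 ≤ R := le_add_of_nonneg_right (Finset.sum_nonneg fun r _ => size_nonneg _)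
  set n := Module.finrank ℚ F
  have hn1 : (1 : ℝ) ≤ n := Nat.one_le_cast.mpr Module.finrank_pos
  set W : ℝ := ∑' b : 𝓞 F, C * R ^ (2 * n + 1) * (1 + size (b : F)) ^ (-((n : ℝ) + 1)) with hW
  have hWs : Summable fun b : 𝓞 F => C * R ^ (2 * n + 1) *
      (1 + size (b : F)) ^ (-((n : ℝ) + 1)) :=
    (summable_one_add_size_rpow (by linarith)).mul_left _
  refine ⟨(∑ r, f (rep r)) / Fintype.card (𝓞 F ⧸ I),
    (∑ r, ‖f (rep r)‖) * W + ‖(∑ r, f (rep r)) / Fintype.card (𝓞 F ⧸ I)‖ *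
      (Fintype.card (𝓞 F ⧸ I) * W), fun s hs hs2 => ?_⟩
  have hg := summable_gFun (F := F) hs hs2
  have hfg : Summable fun α : 𝓞 F => f α * (gFun s (α : F) : ℂ) := by
    refine Summable.of_norm_bounded (hg.mul_left (∑ r, ‖f (rep r)‖)) fun α => ?_
    obtain ⟨⟨r, b⟩, rfl⟩ := e.surjective α
    rw [norm_mul, Complex.norm_real, Real.norm_of_nonneg (gFun_nonneg _ _)]
    refine mul_le_mul_of_nonneg_right ?_ (gFun_nonneg _ _)
    rw [he, Equiv.ofBijective_apply, hf]
    exact Finset.single_le_sum (f := fun r => ‖f (rep r)‖) (fun _ _ => norm_nonneg _)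
      (Finset.mem_univ r)
  refine ⟨hfg, ?_⟩
  set Z₀ : ℝ := ∑' b : 𝓞 F, gFun s (((M : 𝓞 F) * b : 𝓞 F) : F) with hZ₀
  have hMinj : Function.Injective fun b : 𝓞 F => (M : 𝓞 F) * b := mul_right_injective₀ hM
  have hgM : Summable fun b : 𝓞 F => gFun s (((M : 𝓞 F) * b : 𝓞 F) : F) :=
    hg.comp_injective hMinj
  have hgr : ∀ r, Summable fun b : 𝓞 F => gFun s ((rep r + (M : 𝓞 F) * b : 𝓞 F) : F) := fun r =>
    hg.comp_injective ((add_right_injective _).comp hMinj)
  have hshift : ∀ r, |(∑' b : 𝓞 F, gFun s ((rep r + (M : 𝓞 F) * b : 𝓞 F) : F)) - Z₀| ≤ W := by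
    intro r
    rw [hZ₀, ← (hgr r).tsum_sub hgM]
    have hb : ∀ b : 𝓞 F, |gFun s ((rep r + (M : 𝓞 F) * b : 𝓞 F) : F) -
        gFun s (((M : 𝓞 F) * b : 𝓞 F) : F)| ≤
        C * R ^ (2 * n + 1) * (1 + size (b : F)) ^ (-((n : ℝ) + 1)) := by
      intro b
      refine ((hC s hs.le hs2).2 R hR1 _ _ fun v => ?_).trans ?_
      · push_cast
        rw [add_sub_cancel_right]
        refine (apply_le_size v _).trans ?_
        have := Finset.single_le_sum (f := fun r : 𝓞 F ⧸ I => size (rep r : F))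
          (fun _ _ => size_nonneg _) (Finset.mem_univ r)
        linarith
      · refine mul_le_mul_of_nonneg_left ?_ (by positivity)
        refine Real.rpow_le_rpow_of_nonpos (by linarith [size_nonneg (b : F)]) ?_ (by linarith)
        push_cast
        rw [size_natCast_mul]
        have hM1 : (1 : ℝ) ≤ M := Nat.one_le_cast.mpr (NeZero.one_le (n := M))
        linarith [le_mul_of_one_le_left (size_nonneg (b : F)) hM1]
    refine le_trans ?_ (Summable.tsum_le_tsum hb (((hgr r).sub hgM).abs) hWs)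
    exact (((hgr r).sub hgM).hasSum.norm_le_of_bounded (g := fun b => |gFun s ((rep r +
      (M : 𝓞 F) * b : 𝓞 F) : F) - gFun s (((M : 𝓞 F) * b : 𝓞 F) : F)|)
      (((hgr r).sub hgM).abs).hasSum fun b => (Real.norm_eq_abs _).le)
  have hZ : |(∑' α : 𝓞 F, gFun s (α : F)) - Fintype.card (𝓞 F ⧸ I) * Z₀| ≤
      Fintype.card (𝓞 F ⧸ I) * W := by
    have h1 : ∑' α : 𝓞 F, gFun s (α : F)
        = ∑ r, ∑' b : 𝓞 F, gFun s ((rep r + (M : 𝓞 F) * b : 𝓞 F) : F) := by
      rw [← e.tsum_eq, Summable.tsum_prod (f := fun x => gFun s (e x : F))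
        (hg.comp_injective e.injective), tsum_fintype]
      rfl
    rw [h1, show (Fintype.card (𝓞 F ⧸ I) : ℝ) * Z₀ = ∑ _r : 𝓞 F ⧸ I, Z₀ by simp,
      ← Finset.sum_sub_distrib]
    refine (Finset.abs_sum_le_sum_abs _ _).trans ?_
    refine (Finset.sum_le_sum fun r _ => hshift r).trans (le_of_eq ?_)
    simp
  have hmain : ∑' α : 𝓞 F, f α * (gFun s (α : F) : ℂ)
      = ∑ r, f (rep r) * ((∑' b : 𝓞 F, gFun s ((rep r + (M : 𝓞 F) * b : 𝓞 F) : F) : ℝ) : ℂ) := by
    rw [← e.tsum_eq, Summable.tsum_prod (f := fun x => f (e x) * (gFun s (e x : F) : ℂ))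
      (hfg.comp_injective e.injective), tsum_fintype]
    refine Finset.sum_congr rfl fun r _ => ?_
    rw [Complex.ofReal_tsum, ← tsum_mul_left]
    refine tsum_congr fun b => ?_
    simp only [he, Equiv.ofBijective_apply, hf]
  rw [hmain]
  set κ := (∑ r, f (rep r)) / Fintype.card (𝓞 F ⧸ I) with hκ
  have hκ' : κ * Fintype.card (𝓞 F ⧸ I) = ∑ r, f (rep r) := by
    rw [hκ, div_mul_cancel₀]
    exact_mod_cast Fintype.card_ne_zero
  have hsplit : (∑ r, f (rep r) *
      ((∑' b : 𝓞 F, gFun s ((rep r + (M : 𝓞 F) * b : 𝓞 F) : F) : ℝ) : ℂ)) -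
        κ * ((∑' α : 𝓞 F, gFun s (α : F) : ℝ) : ℂ)
      = (∑ r, f (rep r) * (((∑' b : 𝓞 F, gFun s ((rep r + (M : 𝓞 F) * b : 𝓞 F) : F)) - Z₀ : ℝ) : ℂ))
        - κ * (((∑' α : 𝓞 F, gFun s (α : F)) - Fintype.card (𝓞 F ⧸ I) * Z₀ : ℝ) : ℂ) := by
    simp only [Complex.ofReal_sub, mul_sub, Finset.sum_sub_distrib, ← Finset.sum_mul, ← hκ',
      Complex.ofReal_mul, Complex.ofReal_natCast]
    ring
  rw [hsplit]
  refine (norm_sub_le _ _).trans (add_le_add ?_ ?_)
  · refine (norm_sum_le _ _).trans ?_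
    rw [Finset.sum_mul]
    refine Finset.sum_le_sum fun r _ => ?_
    rw [norm_mul, Complex.norm_real, Real.norm_eq_abs]
    exact mul_le_mul_of_nonneg_left (hshift r) (norm_nonneg _)
  · rw [norm_mul, Complex.norm_real, Real.norm_eq_abs]
    exact mul_le_mul_of_nonneg_left hZ (norm_nonneg _)

end Fermat.Agent.ChebotarevFull
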